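import Fermat.Agent.CurveRH.PlaneModel
import Fermat.Agent.Curve.TraceLocal
import Mathlib.RingTheory.Polynomial.Resultant.Basic

/-!
# The places and the points of a plane curve

Away from a set of at most `d (2 d + 1)` abscissas, cut out by the leading coefficient and the
discriminant, the fixed places of a Frobenius are the rational points.
-/

set_option autoImplicit false
set_option linter.style.haveILetI false
set_option linter.unusedSectionVars false

noncomputable section

namespace FA.CurveRH

open AlgebraicCurve FA.ModField FA.Curve Polynomial Polynomial.Bivariate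

variable {K : Type*} [Field K] [IsAlgClosed K] {F : Type*} [Field F] [Algebra K F]
  [Algebra (RatFunc K) F] [IsScalarTower K (RatFunc K) F]
  {f : MvPolynomial (Fin 2) K} {θ : F}

theorem hasValue_evalBi {v : Place K F} {a b : K} (hx : HasValue v (absc K F) a)
    (hθ : HasValue v θ b) (R : K[X][X]) :
    HasValue v (evalBi θ R) ((R.map (evalRingHom a)).eval b) := by
  induction R using Polynomial.induction_on' with
  | add u w hu hw => rw [map_add, Polynomial.map_add, eval_add]; exact hu.add hw
  | monomial i P =>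
    rw [← C_mul_X_pow_eq_monomial, map_mul, map_pow, evalBi_C, evalBi_X, Polynomial.map_mul,
      Polynomial.map_pow, map_C, map_X, eval_mul, eval_C, eval_pow, eval_X]
    exact hasValue_mul (hasValue_aeval hx P) (hasValue_pow hθ i)

/-- A place over every point. -/
theorem IsPlaneModel.exists_place (h : IsPlaneModel f θ) {a b : K}
    (hab : ((toBi f).map (evalRingHom a)).IsRoot b) :
    ∃ v : Place K F, HasValue v (absc K F) a ∧ HasValue v θ b := by
  have hF := h.isFunctionField
  haveI := h.finite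
  obtain ⟨ev, hev⟩ : ∃ ev : K[X][X] →+* K, ev = (evalRingHom b).comp (mapRingHom (evalRingHom a)) :=
    ⟨_, rfl⟩
  obtain ⟨I, hI⟩ : ∃ I : Ideal (evalBi (K := K) θ).range,
      I = Ideal.map (evalBi (K := K) θ).rangeRestrict (RingHom.ker ev) := ⟨_, rfl⟩
  have hsurj := (evalBi (K := K) θ).rangeRestrict_surjective
  have hne : I ≠ ⊤ := by
    intro htop
    rw [hI, Ideal.eq_top_iff_one, Ideal.mem_map_iff_of_surjective _ hsurj] at htop
    obtain ⟨R, hR, hR1⟩ := htop
    have h1 : evalBi θ (R - 1) = 0 := by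
      rw [map_sub, map_one, sub_eq_zero]
      exact congrArg Subtype.val hR1
    obtain ⟨H, hH⟩ := h.dvd_of_evalBi h1
    have h2 := congrArg ev hH
    rw [map_sub, map_one, RingHom.mem_ker.1 hR, map_mul, show ev (toBi f) = 0 by
      rw [hev]; exact hab, zero_mul] at h2
    simp at h2
  obtain ⟨O, hO, hsub⟩ := Ideal.image_subset_nonunits_valuationSubring _ hne
  have hmem : ∀ R : K[X][X], ev R = 0 → O.valuation (evalBi θ R) < 1 := fun R hR =>
    O.mem_nonunits_iff.1 (hsub ⟨(evalBi (K := K) θ).rangeRestrict R,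
      hI ▸ Ideal.mem_map_of_mem _ (RingHom.mem_ker.2 hR), rfl⟩)
  have hK : ∀ c : K, algebraMap K F c ∈ O := fun c => hO ⟨C (C c), evalBi_C_C θ c⟩
  have hx : evalBi θ (C (X - C a)) = absc K F - algebraMap K F a := by
    rw [evalBi_C, map_sub, aeval_X, aeval_C]
  have hθ' : evalBi θ (X - C (C b)) = θ - algebraMap K F b := by
    rw [map_sub, evalBi_X, evalBi_C_C]
  have hx0 : absc K F - algebraMap K F a ≠ 0 :=
    sub_ne_zero.2 fun e => transcendental_absc (K := K) (E := F) (e ▸ isAlgebraic_algebraMap a)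
  have hsmall : ∀ y : F, y ≠ 0 → O.valuation y < 1 → y⁻¹ ∉ O := by
    intro y hy hlt hy'
    have h1 := (O.valuation_le_one_iff _).2 hy'
    rw [map_inv₀] at h1
    exact (one_lt_inv₀ (zero_lt_iff.2 ((Valuation.ne_zero_iff _).2 hy))).2 hlt |>.not_ge h1
  have hxv := hsmall _ hx0 (hx ▸ hmem _ (by rw [hev]; simp))
  obtain ⟨v, hv⟩ : ∃ v : Place K F, v.toValuationSubring = O :=
    ⟨toPlace hF O hK fun e => hxv (e ▸ ValuationSubring.mem_top _), rfl⟩
  have hpos : ∀ y : F, O.valuation y < 1 → AtLeast v 1 y := by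
    intro y hy
    rcases eq_or_ne y 0 with rfl | hy0
    · exact Or.inl rfl
    refine Or.inr ?_
    by_contra hlt
    refine hsmall y hy0 hy (hv ▸ (mem_place_iff (v := v)).2 ?_)
    rw [v.ord_inv]
    omega
  exact ⟨v, hpos _ (hx ▸ hmem _ (by rw [hev]; simp)), hpos _ (hθ' ▸ hmem _ (by rw [hev]; simp))⟩

theorem exists_decomp (R : K[X][X]) {a b : K} (hR : ((R.map (evalRingHom a)).IsRoot b)) :
    ∃ (A : K[X][X]) (B : K[X]), R = (X - C (C b)) * A + C (X - C a) * C B := by
  obtain ⟨A, hA⟩ := X_sub_C_dvd_sub_C_eval (a := C b) (p := R)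
  have hr : (R.eval (C b)).IsRoot a := by
    rw [IsRoot, ← coe_evalRingHom, ← eval₂_id, hom_eval₂, RingHom.comp_id, ← eval_map]
    simpa using hR
  obtain ⟨B, hB⟩ := dvd_iff_isRoot.2 hr
  exact ⟨A, B, by rw [← C_mul, ← hB, ← hA]; ring⟩

/-- The order of a function at the places over a nonsingular point. -/
theorem IsPlaneModel.exists_ord_multiple (h : IsPlaneModel f θ) {a b : K}
    (hab : ((toBi f).map (evalRingHom a)).IsRoot b)
    (hder : (derivative ((toBi f).map (evalRingHom a))).eval b ≠ 0) {v : Place K F}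
    (hvx : HasValue v (absc K F) a) (hvθ : HasValue v θ b) {R : K[X][X]} (hR : evalBi θ R ≠ 0) :
    ∃ k : ℤ, ∀ w : Place K F, HasValue w (absc K F) a → HasValue w θ b →
      w.ord (evalBi θ R) = k * w.ord (absc K F - algebraMap K F a) := by
  haveI := h.finite
  obtain ⟨A, B, hAB⟩ := exists_decomp (toBi f) hab
  have hA : (A.map (evalRingHom a)).eval b ≠ 0 := by
    rw [hAB] at hder
    simpa using hder
  obtain ⟨t, ht⟩ : ∃ t, t = absc K F - algebraMap K F a := ⟨_, rfl⟩
  have ht0 : t ≠ 0 :=
    ht ▸ sub_ne_zero.2 fun e => transcendental_absc (K := K) (E := F) (e ▸ isAlgebraic_algebraMap a)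
  have hrel : (θ - algebraMap K F b) * evalBi θ A = -(t * evalBi θ (C B)) := by
    have h0 := h.evalBi_self
    rw [hAB, map_add, map_mul, map_mul, map_sub, evalBi_X, evalBi_C_C, evalBi_C θ (X - C a),
      map_sub, aeval_X, aeval_C, ← ht] at h0
    linear_combination h0
  rw [← ht]
  have hAne : evalBi θ A ≠ 0 := fun e => hA ((e ▸ hasValue_evalBi hvx hvθ A).unique
    (by simpa using hasValue_algebraMap v (0 : K)))
  suffices hmain : ∀ (n : ℕ) (R : K[X][X]), evalBi θ R ≠ 0 → v.ord (evalBi θ R) ≤ n →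
      ∃ k : ℤ, ∀ w : Place K F, HasValue w (absc K F) a → HasValue w θ b →
        w.ord (evalBi θ R) = k * w.ord t from
    hmain (v.ord (evalBi θ R)).toNat R hR (by omega)
  intro n
  induction n using Nat.strong_induction_on with
  | _ n ih =>
    intro R hR hn
    by_cases hev : (R.map (evalRingHom a)).eval b = 0
    · obtain ⟨R₁, R₂, hR12⟩ := exists_decomp R hev
      obtain ⟨R', hR'⟩ : ∃ R', R' = C R₂ * A - C B * R₁ := ⟨_, rfl⟩
      have hmul : evalBi θ R * evalBi θ A = t * evalBi θ R' := by
        rw [hR12, hR']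
        simp only [map_add, map_mul, map_sub, evalBi_X, evalBi_C, aeval_X, aeval_C, ← ht] at hrel ⊢
        linear_combination (evalBi θ R₁) * hrel
      have hR'0 : evalBi θ R' ≠ 0 := fun e => mul_ne_zero hR hAne (by rw [hmul, e, mul_zero])
      have hord : ∀ w : Place K F, HasValue w (absc K F) a → HasValue w θ b →
          w.ord (evalBi θ R) = w.ord t + w.ord (evalBi θ R') := fun w hwx hwθ => by
        have h1 := congrArg w.ord hmul
        rwa [w.ord_mul hR hAne, w.ord_mul ht0 hR'0,
          (hasValue_evalBi hwx hwθ A).ord_eq_zero hA |>.2, add_zero] at h1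
      have ht1 : 1 ≤ v.ord t := (atLeast_iff ht0).1 (ht ▸ hvx)
      have h1 := hord v hvx hvθ
      have h2 := (atLeast_iff hR'0).1 (hasValue_evalBi hvx hvθ R').atLeast
      obtain ⟨k, hk⟩ := ih (v.ord (evalBi θ R')).toNat (by omega) R' hR'0 (by omega)
      exact ⟨k + 1, fun w hwx hwθ => by rw [hord w hwx hwθ, hk w hwx hwθ]; ring⟩
    · exact ⟨0, fun w hwx hwθ => by
        rw [zero_mul]; exact ((hasValue_evalBi hwx hwθ R).ord_eq_zero hev).2⟩

/-- Only one place over a nonsingular point. -/
theorem IsPlaneModel.place_unique (h : IsPlaneModel f θ) {a b : K}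
    (hab : ((toBi f).map (evalRingHom a)).IsRoot b)
    (hder : (derivative ((toBi f).map (evalRingHom a))).eval b ≠ 0) {v w : Place K F}
    (hvx : HasValue v (absc K F) a) (hvθ : HasValue v θ b)
    (hwx : HasValue w (absc K F) a) (hwθ : HasValue w θ b) : v = w := by
  haveI := h.finite
  have ht0 : absc K F - algebraMap K F a ≠ 0 :=
    sub_ne_zero.2 fun e => transcendental_absc (K := K) (E := F) (e ▸ isAlgebraic_algebraMap a)
  have hv1 : 1 ≤ v.ord (absc K F - algebraMap K F a) := (atLeast_iff ht0).1 hvx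
  have hw1 : 1 ≤ w.ord (absc K F - algebraMap K F a) := (atLeast_iff ht0).1 hwx
  refine Place.ext (SetLike.ext fun y => ?_)
  rcases eq_or_ne y 0 with rfl | hy
  · simp
  obtain ⟨R, D, rfl⟩ := h.exists_div y
  rw [ne_eq, div_eq_zero_iff, not_or] at hy
  obtain ⟨k, hk⟩ := h.exists_ord_multiple hab hder hvx hvθ hy.1
  obtain ⟨l, hl⟩ := h.exists_ord_multiple hab hder hvx hvθ hy.2
  have e : ∀ u : Place K F, HasValue u (absc K F) a → HasValue u θ b →
      u.ord (evalBi θ R / evalBi θ D) = (k - l) * u.ord (absc K F - algebraMap K F a) :=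
    fun u hux huθ => by
      rw [div_eq_mul_inv, u.ord_mul hy.1 (inv_ne_zero hy.2), u.ord_inv, hk u hux huθ,
        hl u hux huθ]
      ring
  rw [mem_place_iff, mem_place_iff, e v hvx hvθ, e w hwx hwθ,
    mul_nonneg_iff_of_pos_right (by omega), mul_nonneg_iff_of_pos_right (by omega)]

/-- The bad abscissas. -/
theorem IsPlaneModel.exists_bad_card (h : IsPlaneModel f θ) :
    ∃ bad : Finset K, bad.card ≤ f.totalDegree * (2 * f.totalDegree + 1) ∧
      ∀ a ∉ bad, IsGood (toBi f) a := by
  classical
  obtain ⟨P, hP⟩ : ∃ P, P = toBi f := ⟨_, rfl⟩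
  obtain ⟨d, hd⟩ : ∃ d, d = f.totalDegree := ⟨_, rfl⟩
  obtain ⟨res, hres⟩ : ∃ res, res = resultant P (derivative P) := ⟨_, rfl⟩
  have hn : P.natDegree ≠ 0 := hP ▸ h.natDegree_ne_zero
  have hnd : P.natDegree ≤ d := by rw [hP, hd]; exact natDegree_toBi_le f
  have hco : ∀ i, (P.coeff i).natDegree ≤ d := fun i => by
    rw [hP, hd]; exact (natDegree_coeff_toBi_le f i).trans (Nat.sub_le _ _)
  have hco' : ∀ i, ((derivative P).coeff i).natDegree ≤ d := fun i => by
    rw [coeff_derivative, ← Nat.cast_succ, ← C_eq_natCast]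
    exact (natDegree_mul_C_le _ _).trans (hco _)
  have hres0 : res ≠ 0 := by
    have hinj := IsFractionRing.injective K[X] (RatFunc K)
    have h1 : IsCoprime (fRat P) (derivative (fRat P)) := hP ▸ h.separable
    have h2 := resultant_ne_zero _ _ h1
    rw [fRat, derivative_map, resultant_map_map, natDegree_map_eq_of_injective hinj,
      natDegree_map_eq_of_injective hinj] at h2
    intro e
    rw [hres] at e
    exact h2 (by rw [e, map_zero])
  have hdeg : res.natDegree ≤ 2 * d * d := by
    rw [hres, resultant, Matrix.det_apply]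
    refine natDegree_sum_le_of_forall_le _ _ fun σ _ => ?_
    have hprod : (∏ i, sylvester P (derivative P) P.natDegree (derivative P).natDegree (σ i) i
        ).natDegree ≤ 2 * d * d := by
      refine (natDegree_prod_le _ _).trans ((Finset.sum_le_card_nsmul _ _ d fun i _ => ?_).trans ?_)
      · rw [sylvester, Matrix.of_apply]
        induction i using Fin.addCases with
        | left j =>
          rw [Fin.addCases_left]
          split_ifs
          · exact hco' _
          · simp
        | right j =>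
          rw [Fin.addCases_right]
          split_ifs
          · exact hco _
          · simp
      · rw [Finset.card_univ, Fintype.card_fin, smul_eq_mul]
        refine Nat.mul_le_mul_right _ ?_
        have := natDegree_derivative_le P
        omega
    rcases Int.units_eq_one_or (Equiv.Perm.sign σ) with e | e <;> rw [e] <;> simpa using hprod
  refine ⟨(res * P.leadingCoeff).roots.toFinset, ?_, fun a ha => ?_⟩
  · refine ((Multiset.toFinset_card_le _).trans (card_roots' _)).trans
      (natDegree_mul_le.trans ?_)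
    have h2 : P.leadingCoeff.natDegree ≤ d := hco _
    rw [← hd]
    nlinarith
  · have hne : res * P.leadingCoeff ≠ 0 :=
      mul_ne_zero hres0 (leadingCoeff_ne_zero.2 fun e => hn (by simp [e]))
    rw [Multiset.mem_toFinset, mem_roots hne, IsRoot, eval_mul, mul_eq_zero, not_or] at ha
    rw [← hP]
    refine ⟨ha.2, ?_⟩
    obtain ⟨u, w, -, -, huw⟩ := exists_mul_add_mul_eq_C_resultant P (derivative P) le_rfl le_rfl
      (Or.inl hn)
    rw [← hres] at huw
    have h1 := congrArg (Polynomial.map (evalRingHom a)) huw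
    rw [Polynomial.map_add, Polynomial.map_mul, Polynomial.map_mul, map_C, ← derivative_map,
      coe_evalRingHom] at h1
    refine ⟨C (res.eval a)⁻¹ * u.map (evalRingHom a), C (res.eval a)⁻¹ * w.map (evalRingHom a), ?_⟩
    rw [mul_assoc, mul_assoc, ← mul_add, mul_comm (u.map _), mul_comm (w.map _), h1, ← C_mul,
      inv_mul_cancel₀ ha.1, C_1]

/-- Fixed places against rational points. -/
theorem IsPlaneModel.abs_fixed_sub_pointCount (h : IsPlaneModel f θ) (g : SemilinearAut K F)
    {Q : ℕ} (hQ : 1 < Q) (hg : ∀ a, SemilinearAut.baseAut g a = a ^ Q)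
    (hgx : g • absc K F = absc K F) (hgθ : g • θ = θ)
    (hfin : {v : Place K F | g • v = v}.Finite) :
    |({v : Place K F | g • v = v}.ncard : ℤ) - pointCount (toBi f) Q| ≤
      (f.totalDegree * (f.totalDegree * (2 * f.totalDegree + 1) + 1) : ℕ) := by
  classical
  have hF := h.isFunctionField
  haveI := h.finite
  obtain ⟨bad, hbad, hgood⟩ := h.exists_bad_card
  obtain ⟨n, hn⟩ : ∃ n, n = (toBi f).natDegree := ⟨_, rfl⟩
  have hroots : θ ∈ roots₂ (E := F) (toBi f) := by
    rw [roots₂, Multiset.mem_toFinset, mem_aroots]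
    exact ⟨h.irreducible_fRat.ne_zero, h.root⟩
  have hder : ∀ a ∉ bad, ∀ b, ((toBi f).map (evalRingHom a)).IsRoot b →
      (derivative ((toBi f).map (evalRingHom a))).eval b ≠ 0 := fun a ha b hb => by
    have := (hgood a ha).2.aeval_derivative_ne_zero (x := b) (by simpa [IsRoot] using hb)
    simpa using this
  obtain ⟨G, hG⟩ : ∃ G, G = ((rat Q : Finset K) \ bad).sigma fun a => pointsOn (toBi f) Q a :=
    ⟨_, rfl⟩
  have hGmem : ∀ s ∈ G, s.1 ∉ bad ∧ s.1 ^ Q = s.1 ∧ s.2 ^ Q = s.2 ∧
      ((toBi f).map (evalRingHom s.1)).IsRoot s.2 := fun s hs => by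
    rw [hG, Finset.mem_sigma, Finset.mem_sdiff, pointsOn, Finset.mem_filter, mem_rat hQ,
      mem_rat hQ] at hs
    exact ⟨hs.1.2, hs.1.1, hs.2.1, hs.2.2⟩
  haveI : Nonempty (Place K F) := (infinite_places hF).nonempty
  choose! pl hpl using fun (s : Σ _ : K, K) (hs : s ∈ G) => h.exists_place (hGmem s hs).2.2.2
  obtain ⟨S, hS⟩ : ∃ S, S = hfin.toFinset := ⟨_, rfl⟩
  have hinj : Set.InjOn pl (G : Finset (Σ _ : K, K)) := fun s hs s' hs' e => by
    have h1 := hpl s hs
    have h2 := hpl s' hs'
    rw [e] at h1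
    exact Sigma.ext (h1.1.unique h2.1) (heq_of_eq (h1.2.unique h2.2))
  have hsub : G.image pl ⊆ S := fun v hv => by
    obtain ⟨s, hs, rfl⟩ := Finset.mem_image.1 hv
    obtain ⟨hb, ha, hb', hr⟩ := hGmem s hs
    rw [hS, hfin.mem_toFinset, Set.mem_ofPred_eq]
    have h1 := hasValue_smul g (hpl s hs).1
    have h2 := hasValue_smul g (hpl s hs).2
    rw [hgx, hg, ha] at h1
    rw [hgθ, hg, hb'] at h2
    exact h.place_unique hr (hder _ hb _ hr) h1 h2 (hpl s hs).1 (hpl s hs).2
  obtain ⟨rest, hrest⟩ : ∃ rest, rest = (poleDiv hF (absc K F)).support ∪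
      bad.biUnion fun a => fibre K F a := ⟨_, rfl⟩
  have hcover : S ⊆ G.image pl ∪ rest := fun v hv => by
    rw [hS, hfin.mem_toFinset, Set.mem_ofPred_eq] at hv
    rw [Finset.mem_union, hrest, Finset.mem_union, Finset.mem_biUnion]
    by_cases hpole : v.ord (absc K F) < 0
    · exact Or.inr (Or.inl (by rw [Finsupp.mem_support_iff, poleDiv_apply]; omega))
    obtain ⟨a, ha⟩ := exists_hasValue hF (Or.inr (not_lt.1 hpole) : AtLeast v 0 (absc K F))
    by_cases hab : a ∈ bad
    · exact Or.inr (Or.inr ⟨a, hab, mem_fibre.2 ha⟩)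
    obtain ⟨b, hb, hr⟩ := exists_value (hgood a hab) ha hroots
    have h1 := hasValue_smul g ha
    have h2 := hasValue_smul g hb
    rw [hv, hgx, hg] at h1
    rw [hv, hgθ, hg] at h2
    have hs : (⟨a, b⟩ : Σ _ : K, K) ∈ G := by
      rw [hG, Finset.mem_sigma, Finset.mem_sdiff, pointsOn, Finset.mem_filter, mem_rat hQ,
        mem_rat hQ]
      exact ⟨⟨h1.unique ha, hab⟩, h2.unique hb, hr⟩
    exact Or.inl (Finset.mem_image.2
      ⟨_, hs, h.place_unique hr (hder _ hab _ hr) (hpl _ hs).1 (hpl _ hs).2 ha hb⟩)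
  have hpoles : (poleDiv hF (absc K F)).support.card ≤ n := by
    have h1 := degree_poleDiv_le hF (transcendental_absc (K := K) (E := F))
    rw [finrank_absc, h.finrank_eq, ← hn, degree_eq_sum hF, Finsupp.sum] at h1
    have h2 : ((poleDiv hF (absc K F)).support.card : ℤ) ≤
        ∑ v ∈ (poleDiv hF (absc K F)).support, poleDiv hF (absc K F) v := by
      rw [Finset.card_eq_sum_ones, Nat.cast_sum]
      refine Finset.sum_le_sum fun v hv => ?_
      rw [Finsupp.mem_support_iff, poleDiv_apply] at hv
      rw [poleDiv_apply]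
      push_cast
      omega
    omega
  have hrestcard : rest.card ≤ n + bad.card * n := by
    rw [hrest]
    refine (Finset.card_union_le _ _).trans (add_le_add hpoles (Finset.card_biUnion_le.trans ?_))
    refine (Finset.sum_le_card_nsmul _ _ n fun a _ => ?_).trans (by rw [smul_eq_mul])
    exact (card_fibre_le a).trans (h.finrank_eq.trans hn.symm).le
  have hsplit : pointCount (toBi f) Q ≤ G.card + bad.card * n ∧
      G.card ≤ pointCount (toBi f) Q := by
    rw [pointCount, hG, Finset.card_sigma,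
      ← Finset.sum_sdiff (Finset.inter_subset_left : (rat Q : Finset K) ∩ bad ⊆ _),
      Finset.sdiff_inter_self_left]
    refine ⟨Nat.add_le_add_left ?_ _, Nat.le_add_right _ _⟩
    refine (Finset.sum_le_card_nsmul _ _ n fun a _ => hn ▸
      card_pointsOn_le (map_evalRingHom_ne_zero h.irreducible_bi h.natDegree_ne_zero a)).trans ?_
    rw [smul_eq_mul]
    exact Nat.mul_le_mul_right _ (Finset.card_le_card Finset.inter_subset_right)
  have h1 := Finset.card_le_card hsub
  rw [Finset.card_image_of_injOn hinj] at h1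
  have h2 := (Finset.card_le_card hcover).trans (Finset.card_union_le _ _)
  rw [Finset.card_image_of_injOn hinj] at h2
  have h3 : n + bad.card * n ≤ f.totalDegree * (f.totalDegree * (2 * f.totalDegree + 1) + 1) := by
    have h4 : n ≤ f.totalDegree := hn ▸ natDegree_toBi_le f
    calc n + bad.card * n = n * (bad.card + 1) := by ring
      _ ≤ _ := Nat.mul_le_mul h4 (Nat.add_le_add_right hbad 1)
  rw [Set.ncard_eq_toFinset_card _ hfin, ← hS, abs_le]
  constructor <;> omega

end FA.CurveRH

end
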