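import Fermat.Agent.CurveRH.Zeta
import Fermat.Agent.CurveRH.PlanePlaces

/-!
# Weil's bound for plane curves

For an absolutely irreducible `f` of degree `d` over a field of `q` elements the number of points
differs from `q` by at most `(d - 1) (d - 2) √q` and a function of `d`.
-/

set_option autoImplicit false
set_option linter.style.haveILetI false
set_option linter.unusedSectionVars false

noncomputable section

namespace FA.CurveRH

open AlgebraicCurve FA.ModField FA.Curve Polynomial Polynomial.Bivariate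

/-- What the points of a plane curve of degree `d` may differ by from the places of its field. -/
def planeError (d : ℕ) : ℕ := d * (d * (2 * d + 1) + 1)

theorem planeError_mono {d d' : ℕ} (h : d ≤ d') : planeError d ≤ planeError d' :=
  Nat.mul_le_mul h (Nat.add_le_add_right (Nat.mul_le_mul h (by omega)) 1)

/-- Weil numbers with the given bound on their number. -/
def HasWeilNumbers (q d : ℕ) (N : ℕ → ℕ) : Prop :=
  ∃ α : Multiset ℂ, Multiset.card α ≤ (d - 1) * (d - 2) ∧
    (∀ a ∈ α, ‖a‖ = Real.sqrt q ∧ IsIntegral ℤ a) ∧ α.map (fun a => (q : ℂ) / a) = α ∧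
    ∀ m : ℕ, 0 < m →
      ‖(N m : ℂ) - ((q : ℂ) ^ m + 1 - (α.map (· ^ m)).sum)‖ ≤ planeError d

theorem HasWeilNumbers.mono {q d d' : ℕ} {N : ℕ → ℕ} (h : HasWeilNumbers q d N) (hd : d ≤ d') :
    HasWeilNumbers q d' N := by
  obtain ⟨α, h1, h2, h3, h4⟩ := h
  exact ⟨α, h1.trans (Nat.mul_le_mul (Nat.sub_le_sub_right hd 1) (Nat.sub_le_sub_right hd 2)), h2,
    h3, fun m hm => (h4 m hm).trans (Nat.cast_le.2 (planeError_mono hd))⟩

theorem HasWeilNumbers.congr {q d : ℕ} {N N' : ℕ → ℕ} (h : HasWeilNumbers q d N)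
    (he : ∀ m, 0 < m → N' m = N m) : HasWeilNumbers q d N' := by
  obtain ⟨α, h1, h2, h3, h4⟩ := h
  exact ⟨α, h1, h2, h3, fun m hm => by rw [he m hm]; exact h4 m hm⟩

section Closed

variable {K : Type*} [Field K] [IsAlgClosed K] (p : ℕ) [Fact p.Prime] [CharP K p]

theorem map_frob_mul {f : MvPolynomial (Fin 2) K} {e : ℕ}
    (hf : f.map (frob K p e).toRingHom = f) (m : ℕ) :
    f.map (frob K p (e * m)).toRingHom = f := by
  ext s
  have h : f.coeff s ^ p ^ e = f.coeff s := by
    have := congrArg (MvPolynomial.coeff s) hf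
    rw [MvPolynomial.coeff_map] at this
    rw [← frob_apply]
    exact this
  rw [MvPolynomial.coeff_map]
  show frob K p (e * m) (f.coeff s) = f.coeff s
  rw [frob_apply, pow_mul]
  induction m with
  | zero => simp
  | succ m ih => rw [pow_succ, pow_mul, ih, h]

/-- **The plane curve as a function field with Frobenius.** -/
theorem hasWeilNumbers_of_derivative {f : MvPolynomial (Fin 2) K} (hirr : Irreducible f)
    (hder : derivative (toBi f) ≠ 0) {e : ℕ} (he : 0 < e)
    (halg : ∀ a : K, ∃ j, 0 < j ∧ a ^ (p ^ e) ^ j = a)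
    (hf : f.map (frob K p e).toRingHom = f) :
    HasWeilNumbers (p ^ e) f.totalDegree fun m => pointCount (toBi f) ((p ^ e) ^ m) := by
  have hbi : Irreducible (toBi f) :=
    (MulEquiv.irreducible_iff (equivMvPolynomial K).symm).2 hirr
  have hn : (toBi f).natDegree ≠ 0 := fun h => hder (derivative_of_natDegree_zero h)
  haveI : Fact (Irreducible (fRat (toBi f))) :=
    ⟨((hbi.isPrimitive hn).irreducible_iff_irreducible_map_fraction_map
      (K := RatFunc K)).1 hbi⟩
  obtain ⟨hm, g, hg, hgx, hgθ⟩ := exists_frobenius_model p hirr hder he halg hf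
  have hF := hm.isFunctionField
  obtain ⟨q, hq⟩ : ∃ q, q = p ^ e := ⟨_, rfl⟩
  rw [← hq] at hg ⊢
  have hclose : ∀ m, 0 < m →
      |(fixedCount g m : ℤ) - pointCount (toBi f) (q ^ m)| ≤ planeError f.totalDegree := by
    intro m hm0
    have hx : ∀ {y : AdjoinRoot (fRat (toBi f))}, g • y = y → g ^ m • y = y := fun {y} hy => by
      have h1 := smul_pow_mul (j := 1) (x := y) (g := g) (by rwa [pow_one]) m
      rwa [one_mul] at h1
    exact hm.abs_fixed_sub_pointCount (g ^ m) (Nat.one_lt_pow hm0.ne' hg.one_lt)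
      (hg.baseAut_pow m) (hx hgx) (hx hgθ) (hg.finite_fixed hF hm0)
  have hbound : ∃ C : ℝ, ∀ m : ℕ, 0 < m →
      |(fixedCount g m : ℝ) - (q : ℝ) ^ m| ≤ C * Real.sqrt ((q : ℝ) ^ m) := by
    obtain ⟨C, hC⟩ := exists_pointCount_bound p hbi hder
    refine ⟨planeError f.totalDegree + C * Real.sqrt p, fun m hm0 => ?_⟩
    obtain ⟨E, hE⟩ : ∃ E, E = e * m := ⟨_, rfl⟩
    have hE0 : 0 < E := hE ▸ Nat.mul_pos he hm0
    have hμν : E / 2 + (E - E / 2) = E := by omega
    have h := hC (E / 2) (E - E / 2) (by omega) (by omega)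
      (by rw [toBi_map, hμν, hE, map_frob_mul p hf])
    rw [hμν] at h
    have hQ : q ^ m = p ^ E := by rw [hq, hE, pow_mul]
    have h1 : |(fixedCount g m : ℝ) - pointCount (toBi f) (q ^ m)| ≤ planeError f.totalDegree := by
      exact_mod_cast hclose m hm0
    have h2 : |(pointCount (toBi f) (q ^ m) : ℝ) - (q : ℝ) ^ m| ≤
        C * Real.sqrt p * Real.sqrt ((q : ℝ) ^ m) := by
      rw [show ((q : ℝ) ^ m) = (p : ℝ) ^ E by exact_mod_cast hQ, hQ, mul_assoc,
        ← Real.sqrt_mul (Nat.cast_nonneg p)]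
      have h' : |(pointCount (toBi f) (p ^ E) : ℝ) - (p : ℝ) ^ E| ≤
          (C : ℝ) * (p : ℝ) ^ (E - E / 2) := by exact_mod_cast h
      refine h'.trans (mul_le_mul_of_nonneg_left (Real.le_sqrt_of_sq_le ?_) (Nat.cast_nonneg C))
      rw [← pow_mul, ← pow_succ']
      exact pow_le_pow_right₀ (by exact_mod_cast (Fact.out : p.Prime).one_le) (by omega)
    have h3 : (1 : ℝ) ≤ Real.sqrt ((q : ℝ) ^ m) :=
      Real.one_le_sqrt.2 (one_le_pow₀ (by exact_mod_cast hg.one_lt.le))
    refine (abs_sub_le _ (pointCount (toBi f) (q ^ m) : ℝ) _).trans ?_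
    rw [add_mul]
    exact add_le_add (h1.trans (le_mul_of_one_le_right (Nat.cast_nonneg _) h3)) h2
  obtain ⟨α, hcard, hnorm, hFE, hN⟩ := hg.exists_weilNumbers hF hbound
  refine ⟨α, hcard ▸ hm.two_mul_genus_le, hnorm, hFE, fun m hm0 => ?_⟩
  rw [← hN m hm0, show (pointCount (toBi f) (q ^ m) : ℂ) - fixedCount g m =
    (((pointCount (toBi f) (q ^ m) : ℤ) - fixedCount g m : ℤ) : ℂ) by push_cast; rfl,
    Complex.norm_intCast, ← Int.cast_abs, abs_sub_comm]
  exact_mod_cast hclose m hm0

theorem pointCount_rename (f : MvPolynomial (Fin 2) K) {Q : ℕ} (hQ : 1 < Q) :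
    pointCount (toBi (MvPolynomial.rename (Equiv.swap 0 1) f)) Q = pointCount (toBi f) Q := by
  rw [← natCard_points _ hQ, ← natCard_points _ hQ]
  refine Nat.card_congr ((Equiv.arrowCongr (Equiv.swap (0 : Fin 2) 1)
    (Equiv.refl K)).subtypeEquiv fun x => ?_)
  rw [MvPolynomial.eval_rename]
  refine and_congr ⟨fun h i => h _, fun h i => by simpa using h (Equiv.swap 0 1 i)⟩ ?_
  rw [show (Equiv.arrowCongr (Equiv.swap (0 : Fin 2) 1) (Equiv.refl K)) x =
    x ∘ Equiv.swap (0 : Fin 2) 1 from funext fun i => by simp]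

/-- **Weil numbers for every absolutely irreducible plane curve.** -/
theorem hasWeilNumbers {f : MvPolynomial (Fin 2) K} (hirr : Irreducible f) {e : ℕ} (he : 0 < e)
    (halg : ∀ a : K, ∃ j, 0 < j ∧ a ^ (p ^ e) ^ j = a)
    (hf : f.map (frob K p e).toRingHom = f) :
    HasWeilNumbers (p ^ e) f.totalDegree fun m => pointCount (toBi f) ((p ^ e) ^ m) := by
  rcases derivative_or_swap_ne_zero p (g := toBi f)
    ((MulEquiv.irreducible_iff (equivMvPolynomial K).symm).2 hirr) with h | h
  · exact hasWeilNumbers_of_derivative p hirr h he halg hf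
  · rw [swap_toBi] at h
    have hirr' := (MulEquiv.irreducible_iff
      (MvPolynomial.renameEquiv K (Equiv.swap (0 : Fin 2) 1))).2 hirr
    rw [MvPolynomial.renameEquiv_apply] at hirr'
    have := hasWeilNumbers_of_derivative p hirr' h he halg
      (by rw [MvPolynomial.map_rename, hf])
    rw [← MvPolynomial.renameEquiv_apply, MvPolynomial.totalDegree_renameEquiv] at this
    exact this.congr fun m hm => (pointCount_rename f
      (Nat.one_lt_pow hm.ne' (Nat.one_lt_pow he.ne' (Fact.out : p.Prime).one_lt))).symm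

end Closed

/-! ### Finite fields -/

variable {k : Type*} [Field k] [Finite k]

theorem exists_periodic_algebraicClosure (a : AlgebraicClosure k) :
    ∃ j, 0 < j ∧ a ^ Nat.card k ^ j = a := by
  have hint : IsIntegral k a := Algebra.IsIntegral.isIntegral a
  haveI := IntermediateField.adjoin.finiteDimensional hint
  haveI : Finite (IntermediateField.adjoin k ({a} : Set (AlgebraicClosure k))) :=
    Module.finite_of_finite k
  haveI := Fintype.ofFinite (IntermediateField.adjoin k ({a} : Set (AlgebraicClosure k)))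
  refine ⟨Module.finrank k (IntermediateField.adjoin k ({a} : Set (AlgebraicClosure k))),
    Module.finrank_pos, ?_⟩
  rw [← Module.natCard_eq_pow_finrank, Nat.card_eq_fintype_card]
  exact congrArg Subtype.val (FiniteField.pow_card
    (⟨a, IntermediateField.mem_adjoin_simple_self k a⟩ :
      IntermediateField.adjoin k ({a} : Set (AlgebraicClosure k))))

variable (k) (p : ℕ) [Fact p.Prime] [CharP k p]

/-- **Weil numbers of a plane curve over a finite field.** -/
theorem exists_weilNumbers_plane {f : MvPolynomial (Fin 2) k} {d : ℕ} (hd : f.totalDegree ≤ d)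
    (hirr : Irreducible (f.map (algebraMap k (AlgebraicClosure k)))) :
    ∃ α : Multiset ℂ, Multiset.card α ≤ (d - 1) * (d - 2) ∧
      (∀ a ∈ α, ‖a‖ = Real.sqrt (Nat.card k) ∧ IsIntegral ℤ a) ∧
      α.map (fun a => (Nat.card k : ℂ) / a) = α ∧
      ∀ m : ℕ,
        ‖(Nat.card {x : Fin 2 → FiniteField.Extension k p (m + 1) //
            MvPolynomial.aeval x f = 0} : ℂ) -
          ((Nat.card k : ℂ) ^ (m + 1) + 1 - (α.map (· ^ (m + 1))).sum)‖ ≤ planeError d := by
  haveI : CharP (AlgebraicClosure k) p :=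
    charP_of_injective_algebraMap (algebraMap k (AlgebraicClosure k)).injective p
  haveI := Fintype.ofFinite k
  obtain ⟨e, he, hcard⟩ : ∃ e, 0 < e ∧ Nat.card k = p ^ e := by
    obtain ⟨e, -, hd⟩ := FiniteField.card k p
    exact ⟨e, e.pos, by rw [Nat.card_eq_fintype_card, hd]⟩
  have hfix : (f.map (algebraMap k (AlgebraicClosure k))).map
      (frob (AlgebraicClosure k) p e).toRingHom = f.map (algebraMap k (AlgebraicClosure k)) := by
    rw [MvPolynomial.map_map]
    refine congrArg (fun φ => MvPolynomial.map φ f) (RingHom.ext fun a => ?_)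
    show frob (AlgebraicClosure k) p _ _ = _
    rw [frob_apply, ← map_pow, ← hcard, Nat.card_eq_fintype_card, FiniteField.pow_card]
  have hdeg : (f.map (algebraMap k (AlgebraicClosure k))).totalDegree ≤ d := by
    rw [MvPolynomial.totalDegree, MvPolynomial.support_map_of_injective f
      (algebraMap k (AlgebraicClosure k)).injective]
    exact hd
  obtain ⟨α, h1, h2, h3, h4⟩ := (hasWeilNumbers p hirr he
    (fun a => hcard ▸ exists_periodic_algebraicClosure a) hfix).mono hdeg
  rw [← hcard] at h2 h3 h4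
  refine ⟨α, h1, h2, h3, fun m => ?_⟩
  rw [natCard_extension_points, natCard_points _
    (Nat.one_lt_pow m.succ_ne_zero Finite.one_lt_card)]
  exact h4 (m + 1) m.succ_pos

/-- **Weil's bound in every extension, uniform in the field.** -/
theorem abs_natCard_extension_sub_le {f : MvPolynomial (Fin 2) k} {d : ℕ}
    (hd : f.totalDegree ≤ d)
    (hirr : Irreducible (f.map (algebraMap k (AlgebraicClosure k)))) (m : ℕ) :
    |(Nat.card {x : Fin 2 → FiniteField.Extension k p (m + 1) //
        MvPolynomial.aeval x f = 0} : ℝ) - (Nat.card k : ℝ) ^ (m + 1)| ≤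
      ((d - 1) * (d - 2) : ℕ) * Real.sqrt ((Nat.card k : ℝ) ^ (m + 1)) +
        (planeError d + 1 : ℕ) := by
  obtain ⟨α, h1, h2, -, h4⟩ := exists_weilNumbers_plane k p hd hirr
  obtain ⟨N, hN⟩ : ∃ N, N = Nat.card {x : Fin 2 → FiniteField.Extension k p (m + 1) //
        MvPolynomial.aeval x f = 0} := ⟨_, rfl⟩
  have h5 := h4 m
  rw [← hN] at h5 ⊢
  have hsum : ‖(α.map (· ^ (m + 1))).sum‖ ≤
      ((d - 1) * (d - 2) : ℕ) * Real.sqrt ((Nat.card k : ℝ) ^ (m + 1)) := by
    refine (norm_multiset_sum_le _).trans ?_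
    rw [Multiset.map_map, Multiset.map_congr rfl (g := fun _ =>
      Real.sqrt ((Nat.card k : ℝ) ^ (m + 1))) fun a ha => by
        rw [Function.comp_apply, norm_pow, (h2 a ha).1]
        exact ((Real.sqrt_eq_iff_eq_sq (by positivity) (by positivity)).2
          (by rw [← pow_mul, mul_comm, pow_mul, Real.sq_sqrt (Nat.cast_nonneg _)])).symm,
      Multiset.map_const', Multiset.sum_replicate, nsmul_eq_mul]
    exact mul_le_mul_of_nonneg_right (Nat.cast_le.2 h1) (Real.sqrt_nonneg _)
  rw [← Real.norm_eq_abs, ← Complex.norm_real]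
  push_cast
  calc ‖(N : ℂ) - (Nat.card k : ℂ) ^ (m + 1)‖
      = ‖((N : ℂ) - ((Nat.card k : ℂ) ^ (m + 1) + 1 - (α.map (· ^ (m + 1))).sum)) +
          (1 - (α.map (· ^ (m + 1))).sum)‖ := by congr 1; ring
    _ ≤ planeError d + (1 + ‖(α.map (· ^ (m + 1))).sum‖) :=
        (norm_add_le _ _).trans (add_le_add h5 ((norm_sub_le _ _).trans (by rw [norm_one])))
    _ ≤ _ := by push_cast at hsum; linarith

omit p in
/-- **Weil's bound for the rational points.** -/
theorem abs_natCard_sub_le {f : MvPolynomial (Fin 2) k} {d : ℕ} (hd : f.totalDegree ≤ d)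
    (hirr : Irreducible (f.map (algebraMap k (AlgebraicClosure k)))) :
    |(Nat.card {x : Fin 2 → k // MvPolynomial.eval x f = 0} : ℝ) - Nat.card k| ≤
      ((d - 1) * (d - 2) : ℕ) * Real.sqrt (Nat.card k) + (planeError d + 1 : ℕ) := by
  obtain ⟨p, hp⟩ := CharP.exists k
  haveI := hp
  haveI : Fact p.Prime := ⟨CharP.char_is_prime k p⟩
  have h := abs_natCard_extension_sub_le k p hd hirr 0
  have hbij : Function.Bijective (algebraMap k (FiniteField.Extension k p (0 + 1))) :=
    (Nat.bijective_iff_injective_and_card _).2 ⟨(algebraMap k _).injective, by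
      rw [FiniteField.natCard_extension, pow_one]⟩
  rw [show (Nat.card k : ℝ) ^ (0 + 1) = Nat.card k from pow_one _] at h
  refine le_of_eq_of_le ?_ h
  refine congrArg (fun N : ℕ => |(N : ℝ) - Nat.card k|) (Nat.card_congr
    ((Equiv.piCongrRight fun _ => Equiv.ofBijective _ hbij).subtypeEquiv fun x => ?_))
  show _ ↔ MvPolynomial.aeval (algebraMap k (FiniteField.Extension k p (0 + 1)) ∘ x) f = 0
  rw [MvPolynomial.aeval_algebraMap_apply, map_eq_zero_iff _ hbij.1, MvPolynomial.aeval_eq_eval]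

/-- **Points over every field large against the degree.** -/
theorem exists_le_natCard_points (d B : ℕ) : ∃ q₀ : ℕ, ∀ (k : Type*) [Field k] [Finite k]
    (f : MvPolynomial (Fin 2) k), f.totalDegree ≤ d →
      Irreducible (f.map (algebraMap k (AlgebraicClosure k))) → q₀ ≤ Nat.card k →
        B ≤ Nat.card {x : Fin 2 → k // MvPolynomial.eval x f = 0} := by
  refine ⟨(d * d + planeError d + 1 + B + 1) ^ 2, fun k _ _ f hd hirr hq => ?_⟩
  have h := (abs_le.1 (abs_natCard_sub_le k hd hirr)).1
  have hs : ((d * d + planeError d + 1 + B + 1 : ℕ) : ℝ) ≤ Real.sqrt (Nat.card k) :=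
    Real.le_sqrt_of_sq_le (by exact_mod_cast hq)
  have hsq := Real.mul_self_sqrt (Nat.cast_nonneg (Nat.card k) : (0 : ℝ) ≤ Nat.card k)
  have hd' : (((d - 1) * (d - 2) : ℕ) : ℝ) ≤ (d * d : ℕ) :=
    Nat.cast_le.2 (Nat.mul_le_mul (Nat.sub_le _ _) (Nat.sub_le _ _))
  push_cast at h hs hd' ⊢
  have hB : (B : ℝ) ≤ Nat.card {x : Fin 2 → k // MvPolynomial.eval x f = 0} := by
    nlinarith [Real.sqrt_nonneg (Nat.card k : ℝ), (Nat.cast_nonneg B : (0 : ℝ) ≤ B),
      (Nat.cast_nonneg (planeError d) : (0 : ℝ) ≤ planeError d)]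
  exact_mod_cast hB

end FA.CurveRH

end
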