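import Fermat.Agent.Curve.Genus
import Fermat.Agent.Curve.Value
import Fermat.Prelude.Def_AlgebraicCurve_BaseChangeGalois
import Mathlib.Algebra.CharP.Lemmas
import Mathlib.FieldTheory.IsAlgClosed.Basic

/-!
# Bombieri's inequality

A function field `F` over an algebraically closed `K` of characteristic `p` and a ring automorphism
`g` of `F` that raises constants to the `Q`th power, `Q = p ^ μ * p ^ ν` with `μ ≤ ν` and `p ^ ν`
large against the genus: at most `Q + (2 genus + 1) p ^ ν` places are fixed by `g`.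
-/

set_option autoImplicit false
set_option linter.style.haveILetI false

noncomputable section

namespace FA.CurveRH

open AlgebraicCurve FA.ModField FA.Curve

variable {K F : Type*} [Field K] [Field F] [Algebra K F]

/-- Nonzero functions with distinct orders at one place are independent. -/
theorem linearIndependent_of_ord {ι : Type*} [Fintype ι] {v : Place K F} {u : ι → F}
    (h0 : ∀ i, u i ≠ 0) (hinj : Function.Injective fun i => v.ord (u i)) :
    LinearIndependent K u := by
  classical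
  rw [Fintype.linearIndependent_iff]
  intro c hc i
  by_contra hi
  obtain ⟨j, hj, hmin⟩ := (Finset.univ.filter fun i => c i ≠ 0).exists_min_image
    (fun i => v.ord (u i)) ⟨i, Finset.mem_filter.2 ⟨Finset.mem_univ _, hi⟩⟩
  have hcj : algebraMap K F (c j) ≠ 0 := by
    simpa using (Finset.mem_filter.1 hj).2
  have hord : v.ord (algebraMap K F (c j) * u j) = v.ord (u j) := by
    rw [v.ord_mul hcj (h0 j), place_ord_algebraMap, zero_add]
  have hrest : AtLeast v (v.ord (algebraMap K F (c j) * u j) + 1)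
      (∑ k ∈ Finset.univ.erase j, algebraMap K F (c k) * u k) := by
    refine atLeast_sum fun k hk => ?_
    rcases eq_or_ne (c k) 0 with h | h
    · simp [h, atLeast_zero]
    refine AtLeast.smul (Or.inr ?_) _
    have h1 := hmin k (Finset.mem_filter.2 ⟨Finset.mem_univ _, h⟩)
    have h2 : v.ord (u j) ≠ v.ord (u k) := fun e => (Finset.mem_erase.1 hk).1 (hinj e.symm)
    omega
  have h := (ord_add_eq_left (mul_ne_zero hcj (h0 j)) hrest).1
  rw [Finset.add_sum_erase Finset.univ (fun k => algebraMap K F (c k) * u k)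
    (Finset.mem_univ j)] at h
  exact h (by simpa [Algebra.smul_def] using hc)

theorem mem_single_iff {P : Place K F} {n : ℤ} {f : F} :
    f ∈ riemannRochSpace (Finsupp.single P n) ↔
      AtLeast P (-n) f ∧ ∀ v, v ≠ P → AtLeast v 0 f := by
  rw [mem_riemannRochSpace]
  refine ⟨fun h => ⟨by simpa using h P, fun v hv => by
    simpa [Finsupp.single_eq_of_ne hv] using h v⟩, fun h v => ?_⟩
  rcases eq_or_ne v P with rfl | hv
  · simpa using h.1
  · simpa [Finsupp.single_eq_of_ne hv] using h.2 v hv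

variable [IsAlgClosed K] (hF : IsFunctionField K F)

include hF

theorem degree_single' (P : Place K F) (n : ℤ) : Divisor.degree (Finsupp.single P n) = n := by
  rw [Divisor.degree_single, hF.deg_eq_one, Nat.cast_one, mul_one]

/-- The pole orders at one place. -/
theorem exists_ord_set (P : Place K F) (m : ℕ) :
    ∃ (A : Finset ℕ) (f : ℕ → F), (∀ a ∈ A, a ≤ m ∧ f a ≠ 0 ∧
      (∀ v, v ≠ P → AtLeast v 0 (f a)) ∧ P.ord (f a) = -(a : ℤ)) ∧
        ell (Finsupp.single P (m : ℤ)) ≤ A.card := by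
  classical
  induction m with
  | zero =>
    refine ⟨{0}, fun _ => 1, fun a ha => ?_, by simp [ell_zero hF]⟩
    rw [Finset.mem_singleton.1 ha]
    exact ⟨le_rfl, one_ne_zero, fun v _ => Or.inr (by rw [v.ord_one]), by simp⟩
  | succ m ih =>
    obtain ⟨A, f, hA, hell⟩ := ih
    by_cases hex : ∃ h ∈ riemannRochSpace (Finsupp.single P ((m + 1 : ℕ) : ℤ)),
        h ∉ riemannRochSpace (Finsupp.single P (m : ℤ))
    · obtain ⟨h, hh, hh'⟩ := hex
      rw [mem_single_iff] at hh hh'
      have hneg : ¬ AtLeast P (-(m : ℤ)) h := fun e => hh' ⟨e, hh.2⟩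
      rw [AtLeast, not_or] at hneg
      have hord : P.ord h = -((m + 1 : ℕ) : ℤ) := by
        have := (atLeast_iff hneg.1).1 hh.1
        push_cast at this ⊢
        omega
      have hnot : m + 1 ∉ A := fun e => by have := (hA _ e).1; omega
      refine ⟨insert (m + 1) A, Function.update f (m + 1) h, fun a ha => ?_, ?_⟩
      · rcases Finset.mem_insert.1 ha with rfl | ha
        · simp only [Function.update_self]
          exact ⟨le_rfl, hneg.1, hh.2, hord⟩
        · rw [Function.update_of_ne (fun (e : a = m + 1) => hnot (e ▸ ha))]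
          exact ⟨(hA a ha).1.trans (Nat.le_succ m), (hA a ha).2⟩
      · rw [Finset.card_insert_of_notMem hnot]
        have hle : Finsupp.single P (m : ℤ) ≤ Finsupp.single P ((m + 1 : ℕ) : ℤ) :=
          Finsupp.single_mono (by omega)
        have := ell_sub_degree_anti hF hle
        rw [degree_single' hF, degree_single' hF] at this
        push_cast at this ⊢
        omega
    · push Not at hex
      refine ⟨A, f, fun a ha => ⟨(hA a ha).1.trans (Nat.le_succ m), (hA a ha).2⟩, le_trans ?_ hell⟩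
      haveI := finite_riemannRochSpace hF (Finsupp.single P (m : ℤ))
      exact Int.ofNat_le.2 (Submodule.finrank_mono hex)

/-- A function with poles bounded by `D` has at most `deg D` zeros outside `D`. -/
theorem card_le_degree_of_vanish {D : Divisor K F} {w : F} (hw0 : w ≠ 0)
    (hw : w ∈ riemannRochSpace D) (S : Finset (Place K F))
    (hS : ∀ v ∈ S, D v = 0 ∧ AtLeast v 1 w) : (S.card : ℤ) ≤ Divisor.degree D := by
  classical
  have hle : (∑ v ∈ S, Finsupp.single v (1 : ℤ)) ≤ D + divOf hF w := by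
    rw [Finsupp.le_def]
    intro u
    rw [Finset.sum_apply', Finsupp.add_apply, divOf_apply]
    by_cases hu : u ∈ S
    · rw [Finset.sum_eq_single u (fun b _ hb => Finsupp.single_eq_of_ne hb.symm)
        (fun h => absurd hu h), Finsupp.single_eq_same, (hS u hu).1, zero_add]
      exact (atLeast_iff hw0).1 (hS u hu).2
    · rw [Finset.sum_eq_zero fun b hb => Finsupp.single_eq_of_ne fun (e : u = b) => hu (e ▸ hb)]
      have := (atLeast_iff hw0).1 (mem_riemannRochSpace.1 hw u)
      omega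
  have := degree_mono hF hle
  rw [map_sum, Finset.sum_congr rfl fun v _ => degree_single' hF v 1, map_add,
    degree_divOf] at this
  simpa using this

variable (p : ℕ) [Fact p.Prime] [CharP K p]

/-- **Bombieri's inequality.** -/
theorem card_fixed_le (g : SemilinearAut K F) {μ ν : ℕ}
    (hg : ∀ a, SemilinearAut.baseAut g a = a ^ (p ^ μ * p ^ ν)) (hμν : μ ≤ ν)
    (hν : (genus K F + 2) ^ 2 ≤ p ^ ν) (S : Finset (Place K F)) (hS : ∀ v ∈ S, g • v = v) :
    (S.card : ℤ) ≤ p ^ μ * p ^ ν + (2 * genus K F + 1) * p ^ ν := by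
  classical
  haveI : CharP F p := charP_of_injective_algebraMap (algebraMap K F).injective p
  haveI : ExpChar F p := ExpChar.prime (Fact.out : p.Prime)
  rcases S.eq_empty_or_nonempty with rfl | ⟨P, hP⟩
  · simpa using (by positivity : (0 : ℤ) ≤ p ^ μ * p ^ ν + (2 * genus K F + 1) * p ^ ν)
  obtain ⟨G, hG⟩ : ∃ G, G = genus K F := ⟨_, rfl⟩
  rw [← hG] at hν ⊢
  obtain ⟨r, hr⟩ : ∃ r, r = p ^ μ := ⟨_, rfl⟩
  obtain ⟨s, hs⟩ : ∃ s, s = p ^ ν := ⟨_, rfl⟩
  have hr0 : 0 < r := hr ▸ pow_pos (Fact.out : p.Prime).pos μ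
  have hrs : r ≤ s := hr ▸ hs ▸ Nat.pow_le_pow_right (Fact.out : p.Prime).pos hμν
  rw [← hs] at hν
  -- the twisted map
  obtain ⟨π, hπ⟩ : ∃ π : F → F, ∀ f, π f = (g⁻¹ • f) ^ (r * s) := ⟨_, fun _ => rfl⟩
  have hordinv : ∀ (v : Place K F) (f : F), v.ord (g⁻¹ • f) = (g • v).ord f := fun v f => by
    conv_rhs => rw [← smul_inv_smul g f]
    exact (SemilinearAut.ord_smul g v _).symm
  have hinv0 : ∀ f : F, f ≠ 0 → g⁻¹ • f ≠ 0 := fun f hf h => hf (by
    rw [← smul_inv_smul g f, h, smul_zero])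
  have hinvAt : ∀ (v : Place K F) (n : ℤ) (f : F), AtLeast (g • v) n f →
      AtLeast v n (g⁻¹ • f) := fun v n f h => by
    rcases h with rfl | h
    · exact Or.inl (smul_zero _)
    · exact Or.inr (by rwa [hordinv])
  have hne : ∀ v : Place K F, v ≠ P → g • v ≠ P := fun v hv e =>
    hv (MulAction.injective g (e.trans (hS P hP).symm))
  have hsub : ∀ v ∈ S, ∀ f : F, AtLeast v 0 f → AtLeast v 1 (π f - f) := by
    intro v hv f hf
    obtain ⟨c, hc⟩ := exists_hasValue hF hf
    have h1 : AtLeast v 1 (g⁻¹ • (f - algebraMap K F c)) :=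
      hinvAt v 1 _ ((hS v hv).symm ▸ hc)
    have h2 : (g⁻¹ • algebraMap K F c) ^ (r * s) = algebraMap K F c := by
      have e : g⁻¹ • algebraMap K F c = algebraMap K F ((SemilinearAut.baseAut g).symm c) := by
        rw [SemilinearAut.smul_algebraMap, SemilinearAut.baseAut_inv]
      rw [e, ← map_pow, hr, hs, ← hg, RingEquiv.apply_symm_apply]
    have h3 : π f - algebraMap K F c = (g⁻¹ • (f - algebraMap K F c)) ^ (r * s) := by
      rw [smul_sub, hπ, hr, hs, ← pow_add, sub_pow_char_pow, pow_add, ← hr, ← hs, h2]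
    have h4 : AtLeast v 1 (π f - algebraMap K F c) := by
      rw [h3]
      refine (atLeast_pow h1 (r * s)).mono ?_
      have : 1 ≤ r * s := Nat.mul_pos hr0 (hr0.trans_le hrs)
      push_cast
      omega
    have h5 := h4.sub hc
    rwa [sub_sub_sub_cancel_right] at h5
  -- the functions
  obtain ⟨l, hl⟩ : ∃ l, s = l + 1 := ⟨s - 1, by omega⟩
  obtain ⟨m, hm⟩ : ∃ m, m = r + 2 * G := ⟨_, rfl⟩
  obtain ⟨A, fA, hA, hAc⟩ := exists_ord_set hF P l
  obtain ⟨B, fB, hB, hBc⟩ := exists_ord_set hF P m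
  have hAc' : (l : ℤ) + 1 - G ≤ A.card := le_trans (by
    have := riemann_inequality hF (Finsupp.single P (l : ℤ))
    rwa [degree_single' hF, ← hG] at this) hAc
  have hBc' : (m : ℤ) + 1 - G ≤ B.card := le_trans (by
    have := riemann_inequality hF (Finsupp.single P (m : ℤ))
    rwa [degree_single' hF, ← hG] at this) hBc
  obtain ⟨u, hu⟩ : ∃ u : A × B → F, ∀ i, u i = fA i.1 ^ r * π (fB i.2) := ⟨_, fun _ => rfl⟩
  obtain ⟨d, hd⟩ : ∃ d : A × B → F, ∀ i, d i = fA i.1 ^ r * fB i.2 := ⟨_, fun _ => rfl⟩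
  have hordπ : ∀ b ∈ B, π (fB b) ≠ 0 ∧ P.ord (π (fB b)) = -((r * s * b : ℕ) : ℤ) := fun b hb => by
    rw [hπ, place_ord_pow, hordinv, hS P hP, (hB b hb).2.2.2]
    exact ⟨pow_ne_zero _ (hinv0 _ (hB b hb).2.1), by push_cast; ring⟩
  have hli : LinearIndependent K u := by
    refine linearIndependent_of_ord (v := P)
      (fun i => hu i ▸ mul_ne_zero (pow_ne_zero _ (hA _ i.1.2).2.1) (hordπ _ i.2.2).1) ?_
    intro i j hij
    simp only [hu, P.ord_mul (pow_ne_zero _ (hA _ i.1.2).2.1) (hordπ _ i.2.2).1,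
      P.ord_mul (pow_ne_zero _ (hA _ j.1.2).2.1) (hordπ _ j.2.2).1, place_ord_pow,
      (hA _ i.1.2).2.2.2, (hA _ j.1.2).2.2.2, (hordπ _ i.2.2).2, (hordπ _ j.2.2).2] at hij
    have hi := (hA _ i.1.2).1
    have hj := (hA _ j.1.2).1
    have hkey : r * (i.1 : ℕ) + r * s * (i.2 : ℕ) = r * (j.1 : ℕ) + r * s * (j.2 : ℕ) := by
      zify
      push_cast at hij
      linarith
    have hkey' : (i.1 : ℕ) + s * (i.2 : ℕ) = (j.1 : ℕ) + s * (j.2 : ℕ) :=
      Nat.eq_of_mul_eq_mul_left hr0 (by rw [mul_add, mul_add, ← mul_assoc, ← mul_assoc]; exact hkey)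
    have h1 : (i.1 : ℕ) = (j.1 : ℕ) := by
      have := congrArg (· % s) hkey'
      simpa [Nat.add_mul_mod_self_left, Nat.mod_eq_of_lt (show (i.1 : ℕ) < s by omega),
        Nat.mod_eq_of_lt (show (j.1 : ℕ) < s by omega)] using this
    have h2 : (i.2 : ℕ) = (j.2 : ℕ) := by
      rw [h1] at hkey'
      exact Nat.eq_of_mul_eq_mul_left (show 0 < s by omega) (Nat.add_left_cancel hkey')
    exact Prod.ext (Subtype.ext h1) (Subtype.ext h2)
  have hdmem : ∀ i, d i ∈ riemannRochSpace (Finsupp.single P ((r * l + m : ℕ) : ℤ)) := fun i => by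
    rw [mem_single_iff, hd]
    refine ⟨((atLeast_pow (atLeast_ord _) r).mul (atLeast_ord _)).mono ?_, fun v hv =>
      ((atLeast_pow ((hA _ i.1.2).2.2.1 v hv) r).mul ((hB _ i.2.2).2.2.1 v hv)).mono (by simp)⟩
    rw [(hA _ i.1.2).2.2.2, (hB _ i.2.2).2.2.2]
    have h1 : r * (i.1 : ℕ) ≤ r * l := Nat.mul_le_mul_left _ (hA _ i.1.2).1
    have h2 := (hB _ i.2.2).1
    zify at h1 h2
    push_cast
    linarith
  have hdim : ¬ LinearIndependent K d := fun h => by
    haveI := finite_riemannRochSpace hF (Finsupp.single P ((r * l + m : ℕ) : ℤ))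
    have h1 : (Fintype.card (A × B) : ℤ) ≤ ell (Finsupp.single P ((r * l + m : ℕ) : ℤ)) :=
      Int.ofNat_le.2 (card_le_finrank h hdmem)
    rw [Fintype.card_prod, Fintype.card_coe, Fintype.card_coe] at h1
    have h2 := ell_le_degree_add_one hF
      (Finsupp.single_nonneg.2 (Int.natCast_nonneg (r * l + m)) :
        (0 : Divisor K F) ≤ Finsupp.single P ((r * l + m : ℕ) : ℤ))
    rw [degree_single' hF] at h2
    have hG' : (G : ℤ) ≤ l + 1 := by
      have : G ≤ (G + 2) ^ 2 := by nlinarith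
      omega
    have h3 : ((l : ℤ) + 1 - G) * ((m : ℤ) + 1 - G) ≤ (A.card : ℤ) * B.card :=
      mul_le_mul hAc' hBc' (by omega) (by positivity)
    have hν' : ((G : ℤ) + 2) ^ 2 ≤ (l : ℤ) + 1 := by exact_mod_cast hl ▸ hν
    have hrs' : (r : ℤ) * G ≤ ((l : ℤ) + 1) * G :=
      mul_le_mul_of_nonneg_right (by exact_mod_cast hl ▸ hrs) (by positivity)
    subst hm
    push_cast at h1 h2 h3
    nlinarith
  obtain ⟨c, hc, j, hcj⟩ := Fintype.not_linearIndependent_iff.1 hdim
  choose e he using fun i => IsAlgClosed.exists_pow_nat_eq (c i) hr0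
  obtain ⟨w, hw⟩ : ∃ w, w =
      ∑ i : A × B, algebraMap K F (e i) * (fA i.1 * (g⁻¹ • fB i.2) ^ s) := ⟨_, rfl⟩
  have hwr : w ^ r = ∑ i, c i • u i := by
    rw [hw, hr, sum_pow_char_pow]
    refine Finset.sum_congr rfl fun i _ => ?_
    rw [← hr, hu, hπ, mul_pow, mul_pow, ← map_pow, he, ← pow_mul, mul_comm s r, Algebra.smul_def]
  have hw0 : w ≠ 0 := fun h => hcj <| Fintype.linearIndependent_iff.1 hli c
    (by rw [← hwr, h, zero_pow hr0.ne']) j
  have hwmem : w ∈ riemannRochSpace (Finsupp.single P ((l + s * m : ℕ) : ℤ)) := by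
    rw [hw, mem_single_iff]
    refine ⟨atLeast_sum fun i _ => AtLeast.smul ?_ _, fun v hv => atLeast_sum fun i _ =>
      AtLeast.smul (((hA _ i.1.2).2.2.1 v hv).mul (atLeast_pow
        (hinvAt v 0 _ ((hB _ i.2.2).2.2.1 _ (hne v hv))) s) |>.mono (by simp)) _⟩
    refine ((atLeast_ord _).mul (atLeast_pow (atLeast_ord _) s)).mono ?_
    rw [(hA _ i.1.2).2.2.2, hordinv, hS P hP, (hB _ i.2.2).2.2.2]
    have h1 := (hA _ i.1.2).1
    have h2 : s * (i.2 : ℕ) ≤ s * m := Nat.mul_le_mul_left _ (hB _ i.2.2).1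
    zify at h1 h2
    push_cast
    linarith
  have hzero : ∀ v ∈ S.erase P,
      Finsupp.single P ((l + s * m : ℕ) : ℤ) v = 0 ∧ AtLeast v 1 w := by
    intro v hv
    obtain ⟨hvP, hvS⟩ := Finset.mem_erase.1 hv
    refine ⟨Finsupp.single_eq_of_ne hvP, ?_⟩
    have h1 : AtLeast v 1 (w ^ r) := by
      have e1 : w ^ r = ∑ i, algebraMap K F (c i) * (fA i.1 ^ r * (π (fB i.2) - fB i.2)) := by
        rw [hwr, ← sub_zero (∑ i, c i • u i), ← hc, ← Finset.sum_sub_distrib]
        refine Finset.sum_congr rfl fun i _ => ?_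
        rw [hu, hd, Algebra.smul_def, Algebra.smul_def]
        ring
      rw [e1]
      refine atLeast_sum fun i _ => AtLeast.smul ?_ _
      exact ((atLeast_pow ((hA _ i.1.2).2.2.1 v hvP) r).mul
        (hsub v hvS _ ((hB _ i.2.2).2.2.1 v hvP))).mono (by simp)
    rcases h1 with h1 | h1
    · exact absurd (eq_zero_of_pow_eq_zero h1) hw0
    · rw [place_ord_pow] at h1
      refine Or.inr ?_
      by_contra hlt
      push Not at hlt
      nlinarith
  have hfin := card_le_degree_of_vanish hF hw0 hwmem _ hzero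
  rw [degree_single' hF, Finset.card_erase_of_mem hP] at hfin
  have hS1 : 1 ≤ S.card := Finset.card_pos.2 ⟨P, hP⟩
  have hl' : (s : ℤ) = l + 1 := by exact_mod_cast hl
  have hm' : (m : ℤ) = r + 2 * G := by exact_mod_cast hm
  push_cast [hS1] at hfin
  rw [← Nat.cast_pow, ← Nat.cast_pow, ← hr, ← hs]
  rw [hm', hl'] at hfin
  rw [hl']
  linarith

end FA.CurveRH

end
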