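import Fermat.Agent.CurveRH.Fibre
import Mathlib.FieldTheory.Perfect
import Mathlib.RingTheory.Localization.Integral
import Mathlib.FieldTheory.Minpoly.IsConjRoot
import Mathlib.FieldTheory.SplittingField.Construction
import Mathlib.Data.Finset.Prod

/-!
# The twisted Frobenius maps of the Galois closure and the count of points

Each element of the Galois group, composed with Frobenius, fixes at most `Q + O (√Q)` places, and
over a good rational abscissa each place is fixed by exactly one. So each fixes `Q + O (√Q)`, and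
by transitivity on the roots the curve has `Q + O (√Q)` points.
-/

set_option autoImplicit false
set_option linter.style.haveILetI false
set_option linter.unusedSectionVars false

noncomputable section

namespace FA.CurveRH

open AlgebraicCurve FA.ModField FA.Curve Polynomial

variable {K : Type*} [Field K]

/-! ### Points -/

/-- The elements fixed by `x ↦ x ^ Q`. -/
def rat (Q : ℕ) : Finset K :=
  letI := Classical.decEq K; ((X ^ Q - X : K[X]).roots).toFinset

/-- The ordinates of the rational points over `a`. -/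
def pointsOn (f : K[X][X]) (Q : ℕ) (a : K) : Finset K :=
  letI := Classical.decPred fun b : K => (f.map (evalRingHom a)).IsRoot b
  (rat Q).filter fun b => (f.map (evalRingHom a)).IsRoot b

/-- The number of rational points. -/
def pointCount (f : K[X][X]) (Q : ℕ) : ℕ := ∑ a ∈ rat Q, (pointsOn f Q a).card

theorem mem_rat {Q : ℕ} (hQ : 1 < Q) {a : K} : a ∈ rat Q ↔ a ^ Q = a := by
  classical
  rw [rat, Multiset.mem_toFinset, mem_roots (FiniteField.X_pow_card_sub_X_ne_zero K hQ)]
  simp [sub_eq_zero]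

theorem card_rat [IsAlgClosed K] (p : ℕ) [Fact p.Prime] [CharP K p] {e : ℕ} (he : 0 < e) :
    (rat (p ^ e) : Finset K).card = p ^ e := by
  classical
  have hQ : 1 < p ^ e := Nat.one_lt_pow he.ne' (Fact.out : p.Prime).one_lt
  rw [rat, Multiset.toFinset_card_of_nodup
    (nodup_roots (galois_poly_separable p _ (dvd_pow_self p he.ne'))),
    ← (IsAlgClosed.splits _).natDegree_eq_card_roots,
    FiniteField.X_pow_card_sub_X_natDegree_eq K hQ]

theorem card_pointsOn_le {f : K[X][X]} {Q : ℕ} {a : K} (h : f.map (evalRingHom a) ≠ 0) :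
    (pointsOn f Q a).card ≤ f.natDegree := by
  classical
  refine le_trans (Finset.card_le_card (t := (f.map (evalRingHom a)).roots.toFinset)
    fun b hb => ?_) ((Multiset.toFinset_card_le _).trans ((card_roots' _).trans natDegree_map_le))
  rw [pointsOn, Finset.mem_filter] at hb
  exact Multiset.mem_toFinset.2 ((mem_roots h).2 hb.2)

theorem map_evalRingHom_ne_zero {f : K[X][X]} (hirr : Irreducible f) (hn : f.natDegree ≠ 0)
    (a : K) : f.map (evalRingHom a) ≠ 0 := by
  intro h
  refine Polynomial.not_isUnit_X_sub_C a ((hirr.isPrimitive hn) _ ?_)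
  rw [C_dvd_iff_dvd_coeff]
  intro i
  rw [dvd_iff_isRoot]
  simpa [coeff_map] using congrArg (fun g : K[X] => g.coeff i) h

/-- Only finitely many abscissas are not good. -/
theorem exists_bad {f : K[X][X]} (hsep : (fRat f).Separable) :
    ∃ bad : Finset K, ∀ a ∉ bad, IsGood f a := by
  classical
  have hf : f ≠ 0 := fun h => by simpa [fRat, h] using hsep.ne_zero
  obtain ⟨u, v, huv⟩ := hsep
  obtain ⟨b, hb, hu⟩ := IsLocalization.integerNormalization_spec (nonZeroDivisors K[X]) u
  obtain ⟨c, hc, hv⟩ := IsLocalization.integerNormalization_spec (nonZeroDivisors K[X]) v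
  set u' := IsLocalization.integerNormalization (nonZeroDivisors K[X]) u
  set v' := IsLocalization.integerNormalization (nonZeroDivisors K[X]) v
  have key : C c * u' * f + C b * v' * derivative f = C (b * c) := by
    apply Polynomial.map_injective _ (IsFractionRing.injective K[X] (RatFunc K))
    simp only [Polynomial.map_add, Polynomial.map_mul, map_C, hu, hv, ← derivative_map, map_mul]
    rw [fRat] at huv
    rw [← algebraMap_smul (RatFunc K) b u, ← algebraMap_smul (RatFunc K) c v, smul_eq_C_mul,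
      smul_eq_C_mul]
    linear_combination (C (algebraMap K[X] (RatFunc K) b) * C (algebraMap K[X] (RatFunc K) c)) * huv
  refine ⟨(b * c * f.leadingCoeff).roots.toFinset, fun a ha => ?_⟩
  have hne : b * c * f.leadingCoeff ≠ 0 := mul_ne_zero
    (mul_ne_zero (nonZeroDivisors.ne_zero hb) (nonZeroDivisors.ne_zero hc))
    (leadingCoeff_ne_zero.2 hf)
  rw [Multiset.mem_toFinset, mem_roots hne, IsRoot, eval_mul, mul_eq_zero, not_or] at ha
  refine ⟨ha.2, ?_⟩
  have h := congrArg (Polynomial.map (evalRingHom a)) key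
  simp only [Polynomial.map_add, Polynomial.map_mul, map_C, coe_evalRingHom, ← derivative_map] at h
  refine ⟨C ((eval a (b * c))⁻¹) * (C (eval a c) * u'.map (evalRingHom a)),
    C ((eval a (b * c))⁻¹) * (C (eval a b) * v'.map (evalRingHom a)), ?_⟩
  rw [mul_assoc, mul_assoc (C _) (C _ * _), ← mul_add, h, ← C_mul, inv_mul_cancel₀ ha.1, C_1]

/-! ### Extending automorphisms to splitting fields -/

theorem exists_hom_extend {L E E' : Type*} [Field L] [Field E] [Field E'] [Algebra L E]
    (P : L[X]) [P.IsSplittingField L E] (i : L →+* E') (h : (P.map i).Splits) :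
    ∃ ψ : E →+* E', ∀ a, ψ (algebraMap L E a) = i a := by
  letI := i.toAlgebra
  exact ⟨(IsSplittingField.lift E P h : E →ₐ[L] E').toRingHom,
    fun a => AlgHom.commutes (IsSplittingField.lift E P h) a⟩

theorem exists_aut_extend {L E : Type*} [Field L] [Field E] [Algebra L E] (P : L[X])
    [P.IsSplittingField L E] (φ : L ≃+* L) (hP : P.map φ.toRingHom = P) :
    ∃ ψ : E ≃+* E, ∀ a, ψ (algebraMap L E a) = algebraMap L E (φ a) := by
  haveI := IsSplittingField.finiteDimensional E P
  have hP' : P.map φ.symm.toRingHom = P := by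
    conv_lhs => rw [← hP, map_map, show φ.symm.toRingHom.comp φ.toRingHom = RingHom.id L from
      RingHom.ext fun a => φ.symm_apply_apply a, Polynomial.map_id]
  obtain ⟨ψ, hψ⟩ := exists_hom_extend (E := E) P ((algebraMap L E).comp φ.toRingHom)
    (by rw [← map_map, hP]; exact IsSplittingField.splits E P)
  obtain ⟨χ, hχ⟩ := exists_hom_extend (E := E) P ((algebraMap L E).comp φ.symm.toRingHom)
    (by rw [← map_map, hP']; exact IsSplittingField.splits E P)
  let g : E →ₐ[L] E :=
    { ψ.comp χ with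
      commutes' := fun a => by
        show ψ (χ (algebraMap L E a)) = _
        rw [hχ]
        show ψ (algebraMap L E (φ.symm a)) = _
        rw [hψ]
        exact congrArg _ (φ.apply_symm_apply a) }
  have hs : Function.Surjective ψ := fun y => by
    obtain ⟨z, hz⟩ := (AlgHom.bijective g).2 y
    exact ⟨χ z, hz⟩
  exact ⟨RingEquiv.ofBijective ψ ⟨ψ.injective, hs⟩, fun a => hψ a⟩

/-! ### Frobenius -/

variable [IsAlgClosed K] (p : ℕ) [Fact p.Prime] [CharP K p]

variable (K) in
/-- `x ↦ x ^ (p ^ e)`. -/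
def frob (e : ℕ) : K ≃+* K :=
  haveI : ExpChar K p := ExpChar.prime (Fact.out : p.Prime)
  iterateFrobeniusEquiv K p e

theorem frob_apply (e : ℕ) (a : K) : frob K p e a = a ^ p ^ e := by
  haveI : ExpChar K p := ExpChar.prime (Fact.out : p.Prime)
  exact iterateFrobeniusEquiv_def K p e a

variable (K) in
/-- Frobenius on the coefficients of a rational function. -/
def frobRat (e : ℕ) : RatFunc K ≃+* RatFunc K :=
  IsFractionRing.ringEquivOfRingEquiv (K := RatFunc K) (L := RatFunc K)
    (Polynomial.mapEquiv (frob K p e))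

theorem frobRat_algebraMap (e : ℕ) (P : K[X]) :
    frobRat K p e (algebraMap K[X] (RatFunc K) P) =
      algebraMap K[X] (RatFunc K) (P.map (frob K p e).toRingHom) :=
  IsFractionRing.ringEquivOfRingEquiv_algebraMap _ _

theorem fRat_frob {f : K[X][X]} {e : ℕ}
    (hf : f.map (mapRingHom (frob K p e).toRingHom) = f) :
    (fRat f).map (frobRat K p e).toRingHom = fRat f := by
  conv_rhs => rw [fRat, ← hf, map_map]
  rw [fRat, map_map]
  refine congrArg (fun φ => f.map φ) (RingHom.ext fun P => ?_)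
  exact frobRat_algebraMap p e P

variable {E : Type*} [Field E] [Algebra K E] [Algebra (RatFunc K) E] [IsScalarTower K (RatFunc K) E]

theorem exists_frobAut {f : K[X][X]} [(fRat f).IsSplittingField (RatFunc K) E] {e : ℕ}
    (hf : f.map (mapRingHom (frob K p e).toRingHom) = f) :
    ∃ g : SemilinearAut K E, (∀ a, SemilinearAut.baseAut g a = a ^ p ^ e) ∧
      g • absc K E = absc K E ∧ ∀ θ ∈ roots₂ (E := E) f, g • θ ∈ roots₂ (E := E) f := by
  obtain ⟨ψ, hψ⟩ := exists_aut_extend (E := E) (fRat f) (frobRat K p e) (fRat_frob p hf)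
  have hX : ψ (absc K E) = absc K E := by
    rw [absc, hψ, ← RatFunc.algebraMap_X, frobRat_algebraMap, map_X]
  have hC : ∀ a, ψ (algebraMap K E a) = algebraMap K E (frob K p e a) := fun a => by
    rw [IsScalarTower.algebraMap_apply K (RatFunc K) E, hψ,
      IsScalarTower.algebraMap_apply K K[X] (RatFunc K), frobRat_algebraMap,
      IsScalarTower.algebraMap_apply K (RatFunc K) E,
      IsScalarTower.algebraMap_apply K K[X] (RatFunc K)]
    simp [Polynomial.algebraMap_eq]
  refine ⟨⟨(ψ, frob K p e), hC⟩, fun a => frob_apply p e a, hX, fun θ hθ => ?_⟩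
  classical
  rw [roots₂, Multiset.mem_toFinset, mem_aroots] at hθ ⊢
  refine ⟨hθ.1, ?_⟩
  show aeval (ψ θ) (fRat f) = 0
  have h := congrArg ψ.toRingHom hθ.2
  rw [aeval_def, hom_eval₂, map_zero] at h
  have hcomp : ψ.toRingHom.comp (algebraMap (RatFunc K) E) =
      (algebraMap (RatFunc K) E).comp (frobRat K p e).toRingHom := RingHom.ext hψ
  rwa [hcomp, ← eval₂_map, fRat_frob p hf] at h

/-! ### The count -/

variable [FiniteDimensional (RatFunc K) E] [IsGalois (RatFunc K) E]

/-- The points over a good abscissa are the roots fixed by the twisted Frobenius of a place. -/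
theorem card_pointsOn {f : K[X][X]} (hcard : f.natDegree ≤ (roots₂ (E := E) f).card) {Q : ℕ}
    (hQ : 1 < Q) {g : SemilinearAut K E} (hg : ∀ a, SemilinearAut.baseAut g a = a ^ Q)
    (hgr : ∀ θ ∈ roots₂ (E := E) f, g • θ ∈ roots₂ (E := E) f) {a : K} (ha : IsGood f a)
    {w : Place K E} (hw : HasValue w (absc K E) a) (hfix : g • w = w) [DecidableEq E] :
    (pointsOn f Q a).card = ((roots₂ (E := E) f).filter fun θ => g • θ = θ).card := by
  classical
  have hb := rootValue_bijOn hcard ha hw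
  refine (Finset.card_bij (fun θ _ => rootValue w θ) (fun θ hθ => ?_)
    (fun θ hθ θ' hθ' e => hb.injOn (Finset.mem_coe.2 (Finset.mem_filter.1 hθ).1)
      (Finset.mem_coe.2 (Finset.mem_filter.1 hθ').1) e) fun b hb' => ?_).symm
  · obtain ⟨hθ, hgθ⟩ := Finset.mem_filter.1 hθ
    obtain ⟨h1, h2⟩ := rootValue_spec ha hw hθ
    have h3 := hasValue_smul g h1
    rw [hfix, hgθ, hg] at h3
    rw [pointsOn, Finset.mem_filter, mem_rat hQ]
    exact ⟨h3.unique h1, h2⟩
  · rw [pointsOn, Finset.mem_filter, mem_rat hQ] at hb'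
    obtain ⟨θ, hθ, hv⟩ := hb.surjOn (show b ∈ {c | (f.map (evalRingHom a)).IsRoot c} from hb'.2)
    rw [Finset.mem_coe] at hθ
    obtain ⟨h1, h2⟩ := rootValue_spec ha hw hθ
    have h3 := hasValue_smul g h1
    rw [hfix, hg] at h3
    rw [hv, hb'.1] at h3
    rw [hv] at h1 h2
    exact ⟨θ, Finset.mem_filter.2 ⟨hθ, value_injective ha hw (hgr θ hθ) hθ h3 h1 h2⟩, hv⟩

theorem exists_galois_of_roots {f : K[X][X]} (hirr : Irreducible (fRat f)) {θ θ' : E}
    (h : θ ∈ roots₂ f) (h' : θ' ∈ roots₂ f) : ∃ τ : E ≃ₐ[RatFunc K] E, τ θ = θ' := by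
  classical
  rw [roots₂, Multiset.mem_toFinset, mem_aroots] at h h'
  refine IsConjRoot.exists_algEquiv ?_ |>.imp fun τ hτ => hτ
  rw [isConjRoot_def, ← minpoly.eq_of_irreducible hirr h.2, ← minpoly.eq_of_irreducible hirr h'.2]

/-- The fixed roots of the twists add up to the order of the group. -/
theorem sum_fixed_roots {f : K[X][X]} (hirr : Irreducible (fRat f))
    (hne : (roots₂ (E := E) f).Nonempty) {g : SemilinearAut K E}
    (hgr : ∀ θ ∈ roots₂ (E := E) f, g • θ ∈ roots₂ (E := E) f) [DecidableEq E] :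
    ∑ τ : E ≃ₐ[RatFunc K] E,
        ((roots₂ (E := E) f).filter fun θ => (galAut τ * g) • θ = θ).card =
      Fintype.card (E ≃ₐ[RatFunc K] E) := by
  classical
  obtain ⟨θ₀, h₀⟩ := hne
  have hfib : ∀ y ∈ roots₂ (E := E) f, ∀ z ∈ roots₂ (E := E) f,
      (Finset.univ.filter fun τ : E ≃ₐ[RatFunc K] E => τ y = z).card =
        (Finset.univ.filter fun τ : E ≃ₐ[RatFunc K] E => τ θ₀ = θ₀).card := by
    intro y hy z hz
    obtain ⟨α, hα⟩ := exists_galois_of_roots hirr h₀ hy
    obtain ⟨β, hβ⟩ := exists_galois_of_roots hirr hz h₀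
    refine Finset.card_bij (fun τ _ => β * τ * α) (fun τ hτ => ?_) (fun τ _ σ _ e => ?_)
      fun σ hσ => ⟨β⁻¹ * σ * α⁻¹, ?_, by group⟩
    · rw [Finset.mem_filter] at hτ ⊢
      exact ⟨Finset.mem_univ _, by rw [AlgEquiv.mul_apply, AlgEquiv.mul_apply, hα, hτ.2, hβ]⟩
    · exact mul_left_cancel (mul_right_cancel e)
    · rw [Finset.mem_filter] at hσ ⊢
      refine ⟨Finset.mem_univ _, ?_⟩
      rw [AlgEquiv.mul_apply, AlgEquiv.mul_apply, ← hα, ← AlgEquiv.mul_apply α⁻¹, inv_mul_cancel,
        AlgEquiv.one_apply, hσ.2, ← hβ, ← AlgEquiv.mul_apply, inv_mul_cancel, AlgEquiv.one_apply]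
  calc _ = ∑ θ ∈ roots₂ (E := E) f,
        (Finset.univ.filter fun τ : E ≃ₐ[RatFunc K] E => τ (g • θ) = θ).card := by
        simp only [Finset.card_filter, mul_smul, galAut_smul]
        exact Finset.sum_comm
    _ = ∑ θ ∈ roots₂ (E := E) f,
        (Finset.univ.filter fun τ : E ≃ₐ[RatFunc K] E => τ θ₀ = θ).card :=
        Finset.sum_congr rfl fun θ hθ => by rw [hfib _ (hgr θ hθ) θ hθ, hfib _ h₀ θ hθ]
    _ = _ := by
        rw [← Finset.card_univ, Finset.card_eq_sum_card_fiberwise
          (f := fun τ : E ≃ₐ[RatFunc K] E => τ θ₀) (t := roots₂ (E := E) f)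
          fun τ _ => Finset.mem_coe.2 (galAut_mem_roots₂ τ h₀)]

/-- Uniform upper bounds and the exact total bound every weight from both sides. -/
theorem abs_sub_le_of_twists {ι : Type*} [Fintype ι] [Nonempty ι] {M Q U B : ℤ} (N fx : ι → ℕ)
    (hU : 0 ≤ U) (hB : 0 ≤ B) (hN : ∀ i, (N i : ℤ) ≤ Q + U)
    (hsum : (Q - B) * Fintype.card ι ≤ ∑ i, (N i : ℤ)) (hfx : ∑ i, fx i = Fintype.card ι)
    (hM : ((∑ i, N i * fx i : ℕ) : ℤ) = Fintype.card ι * M) :
    |M - Q| ≤ Fintype.card ι * (B + U) := by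
  classical
  have ho : (1 : ℤ) ≤ Fintype.card ι := by exact_mod_cast Fintype.card_pos
  have hdev : ∀ i, |(N i : ℤ) - Q| ≤ Fintype.card ι * (B + U) := fun i => by
    have h1 := Finset.sum_le_card_nsmul (Finset.univ.erase i) (fun j => (N j : ℤ)) _ fun j _ => hN j
    rw [Finset.sum_erase_eq_sub (Finset.mem_univ i), nsmul_eq_mul,
      Finset.card_erase_of_mem (Finset.mem_univ i), Finset.card_univ,
      Nat.cast_sub Fintype.card_pos] at h1
    push_cast at h1
    have h2 := le_mul_of_one_le_left (add_nonneg hB hU) ho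
    rw [abs_le]
    constructor
    · linarith [hN i]
    · linarith [hN i]
  have e : (Fintype.card ι : ℤ) * (M - Q) = ∑ i, ((N i : ℤ) - Q) * fx i := by
    simp only [sub_mul, Finset.sum_sub_distrib, ← Finset.mul_sum, mul_sub, ← hM]
    rw [← Nat.cast_sum, hfx]
    push_cast
    ring
  refine le_of_mul_le_mul_left ?_ (lt_of_lt_of_le one_pos ho)
  rw [← abs_of_pos (lt_of_lt_of_le one_pos ho), ← abs_mul,
    abs_of_pos (lt_of_lt_of_le one_pos ho), e]
  refine (Finset.abs_sum_le_sum_abs _ _).trans ?_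
  calc ∑ i, |((N i : ℤ) - Q) * fx i| ≤ ∑ i, (Fintype.card ι * (B + U)) * (fx i : ℤ) :=
        Finset.sum_le_sum fun i _ => by
          rw [abs_mul, Nat.abs_cast]
          exact mul_le_mul_of_nonneg_right (hdev i) (Int.natCast_nonneg _)
    _ = _ := by rw [← Finset.mul_sum, ← Nat.cast_sum, hfx]; ring

theorem combine_bound {o b G n s T M Q : ℕ}
    (h : |(M : ℤ) - Q| ≤ (o : ℤ) * ((b : ℤ) + (2 * G + 1) * s)) (h1 : M ≤ T) (h2 : T ≤ M + b * n)
    (hs : 1 ≤ s) :
    |(T : ℤ) - Q| ≤
      ((o * (b + 2 * G + 1) + n * b + (n + 1) * (G + 2) ^ 2 : ℕ) : ℤ) * s := by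
  have hs' : (1 : ℤ) ≤ s := by exact_mod_cast hs
  have e1 : (o : ℤ) * b ≤ o * b * s := le_mul_of_one_le_right (by positivity) hs'
  have e2 : (n : ℤ) * b ≤ n * b * s := le_mul_of_one_le_right (by positivity) hs'
  have e3 : (0 : ℤ) ≤ ((n : ℤ) + 1) * ((G : ℤ) + 2) ^ 2 * s := by positivity
  have e4 : (0 : ℤ) ≤ (n : ℤ) * b := by positivity
  zify at h1 h2
  rw [abs_le] at h ⊢
  push_cast at h ⊢
  constructor <;> linarith

/-- **The count of points over the Galois closure.** -/
theorem abs_pointCount_sub_le {f : K[X][X]} [(fRat f).IsSplittingField (RatFunc K) E]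
    (hirr : Irreducible f) (hn : f.natDegree ≠ 0) (hirr' : Irreducible (fRat f))
    (hcard : f.natDegree ≤ (roots₂ (E := E) f).card)
    (hgen : Algebra.adjoin (RatFunc K) ((roots₂ f : Finset E) : Set E) = ⊤)
    (bad : Finset K) (hbad : ∀ a ∉ bad, IsGood f a) {μ ν : ℕ} (hμν : μ ≤ ν) (he : 0 < μ + ν)
    (hf : f.map (mapRingHom (frob K p (μ + ν)).toRingHom) = f) :
    |(pointCount f (p ^ (μ + ν)) : ℤ) - p ^ (μ + ν)| ≤
      ((Nat.card (E ≃ₐ[RatFunc K] E) * (bad.card + 2 * genus K E + 1) + f.natDegree * bad.card +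
        (f.natDegree + 1) * (genus K E + 2) ^ 2 : ℕ) : ℤ) * p ^ ν := by
  classical
  have hp := (Fact.out : p.Prime)
  obtain ⟨Q, hQdef⟩ : ∃ Q, Q = p ^ (μ + ν) := ⟨_, rfl⟩
  obtain ⟨s, hsdef⟩ : ∃ s, s = p ^ ν := ⟨_, rfl⟩
  have hQ : 1 < Q := hQdef ▸ Nat.one_lt_pow he.ne' hp.one_lt
  have hs : 1 ≤ s := hsdef ▸ Nat.one_le_pow ν p hp.pos
  obtain ⟨G, hGdef⟩ : ∃ G, G = genus K E := ⟨_, rfl⟩
  obtain ⟨o, hodef⟩ : ∃ o, o = Nat.card (E ≃ₐ[RatFunc K] E) := ⟨_, rfl⟩
  obtain ⟨n, hndef⟩ : ∃ n, n = f.natDegree := ⟨_, rfl⟩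
  rw [← hGdef, ← hodef, ← hndef, show ((p : ℤ) ^ (μ + ν)) = (Q : ℤ) by rw [hQdef]; push_cast; rfl,
    show ((p : ℤ) ^ ν) = (s : ℤ) by rw [hsdef]; push_cast; rfl, ← hQdef]
  have hpts : ∀ a, (pointsOn f Q a).card ≤ n := fun a =>
    hndef ▸ card_pointsOn_le (map_evalRingHom_ne_zero hirr hn a)
  have hcardrat : (rat Q : Finset K).card = Q := by rw [hQdef]; exact card_rat p he
  have htot : pointCount f Q ≤ Q * n := by
    refine (Finset.sum_le_card_nsmul _ _ n fun a _ => hpts a).trans ?_
    rw [smul_eq_mul, hcardrat]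
  rcases lt_or_ge s ((G + 2) ^ 2) with hsmall | hbig
  · have h1 : Q ≤ s * (G + 2) ^ 2 := by
      rw [hQdef, pow_add, mul_comm s]
      rw [hsdef] at hsmall ⊢
      exact Nat.mul_le_mul_right _
        ((Nat.pow_le_pow_right hp.pos hμν).trans hsmall.le)
    have h2 : pointCount f Q + Q ≤
        (o * (bad.card + 2 * G + 1) + n * bad.card + (n + 1) * (G + 2) ^ 2) * s := by
      calc pointCount f Q + Q ≤ (n + 1) * Q := by rw [add_mul, one_mul, mul_comm n]; omega
        _ ≤ (n + 1) * (s * (G + 2) ^ 2) := Nat.mul_le_mul_left _ h1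
        _ ≤ _ := by rw [mul_comm s, ← mul_assoc]; exact Nat.mul_le_mul_right _ (Nat.le_add_left _ _)
    rw [abs_le]
    zify at h2
    constructor <;> push_cast <;>
      linarith [Int.natCast_nonneg (pointCount f Q), Int.natCast_nonneg Q]
  -- the large case
  obtain ⟨g, hg, hgx, hgr⟩ := exists_frobAut (E := E) p hf
  simp only [← hQdef] at hg
  obtain ⟨A, hA⟩ : ∃ A, A = (rat Q : Finset K) \ bad := ⟨_, rfl⟩
  have hgood : ∀ a ∈ A, IsGood f a ∧ a ^ Q = a := fun a ha => by
    rw [hA, Finset.mem_sdiff, mem_rat hQ] at ha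
    exact ⟨hbad a ha.2, ha.1⟩
  obtain ⟨Ω, hΩ⟩ : ∃ Ω, Ω = A.biUnion fun a => fibre K E a := ⟨_, rfl⟩
  have hdisj : ((A : Finset K) : Set K).PairwiseDisjoint fun a => fibre K E a := by
    intro a _ b _ hab
    refine Finset.disjoint_left.2 fun w hwa hwb => hab ?_
    exact (mem_fibre.1 hwa).unique (mem_fibre.1 hwb)
  obtain ⟨N, hN⟩ : ∃ N : (E ≃ₐ[RatFunc K] E) → ℕ,
      ∀ τ, N τ = (Ω.filter fun w => (galAut τ * g) • w = w).card := ⟨_, fun _ => rfl⟩
  obtain ⟨fx, hfx⟩ : ∃ fx : (E ≃ₐ[RatFunc K] E) → ℕ,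
      ∀ τ, fx τ = ((roots₂ (E := E) f).filter fun θ => (galAut τ * g) • θ = θ).card :=
    ⟨_, fun _ => rfl⟩
  have hbase : ∀ τ : E ≃ₐ[RatFunc K] E, ∀ a,
      SemilinearAut.baseAut (galAut τ * g) a = a ^ Q := fun τ a => by
    rw [SemilinearAut.baseAut_mul]
    simp [baseAut_galAut, hg]
  have hroot : ∀ τ : E ≃ₐ[RatFunc K] E, ∀ θ ∈ roots₂ (E := E) f,
      (galAut τ * g) • θ ∈ roots₂ (E := E) f := fun τ θ hθ => by
    rw [mul_smul, galAut_smul]
    exact galAut_mem_roots₂ τ (hgr θ hθ)
  -- every place is fixed by exactly one twist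
  have huniq : ∀ a ∈ A, ∀ w ∈ fibre K E a,
      ∃! τ : E ≃ₐ[RatFunc K] E, (galAut τ * g) • w = w := by
    intro a ha w hw
    have hgw : g • w ∈ fibre K E a := by
      have h := hasValue_smul g (mem_fibre.1 hw)
      rw [hgx, hg, (hgood a ha).2] at h
      exact mem_fibre.2 h
    simp only [mul_smul]
    exact fibre_simply_transitive hgen (hgood a ha).1 hgw hw
  have hcardfix : ∀ (φ : (E ≃ₐ[RatFunc K] E) → ℕ),
      ∑ τ, N τ * φ τ = ∑ a ∈ A, ∑ w ∈ fibre K E a,
        ∑ τ, if (galAut τ * g) • w = w then φ τ else 0 := by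
    intro φ
    simp only [hN, Finset.card_filter, Finset.sum_mul, ite_mul, one_mul, zero_mul, hΩ]
    rw [Finset.sum_comm, Finset.sum_biUnion hdisj]
  have hNsum : ∑ τ, N τ = o * A.card := by
    have h := hcardfix fun _ => 1
    simp only [mul_one] at h
    rw [h, hodef, mul_comm, ← smul_eq_mul, ← Finset.sum_const]
    refine Finset.sum_congr rfl fun a ha => ?_
    rw [← card_fibre hgen (hgood a ha).1, Finset.card_eq_sum_ones]
    refine Finset.sum_congr rfl fun w hw => ?_
    obtain ⟨τ, hτ, hu⟩ := huniq a ha w hw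
    rw [Finset.sum_eq_single_of_mem τ (Finset.mem_univ τ) fun σ _ hσ =>
      if_neg fun e => hσ (hu σ e), if_pos hτ]
  have hM : ∑ τ, N τ * fx τ = o * ∑ a ∈ A, (pointsOn f Q a).card := by
    rw [hcardfix fx, Finset.mul_sum, hodef]
    refine Finset.sum_congr rfl fun a ha => ?_
    rw [← card_fibre hgen (hgood a ha).1, ← smul_eq_mul, ← Finset.sum_const]
    refine Finset.sum_congr rfl fun w hw => ?_
    obtain ⟨τ, hτ, hu⟩ := huniq a ha w hw
    rw [Finset.sum_eq_single_of_mem τ (Finset.mem_univ τ) fun σ _ hσ =>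
      if_neg fun e => hσ (hu σ e), if_pos hτ, hfx, card_pointsOn hcard hQ (hbase τ) (hroot τ)
      (hgood a ha).1 (mem_fibre.1 hw) hτ]
  have hfsum : ∑ τ, fx τ = o := by
    simp only [hfx]
    rw [sum_fixed_roots hirr' (Finset.card_pos.1 (by omega)) hgr, hodef, Nat.card_eq_fintype_card]
  have hupper : ∀ τ, (N τ : ℤ) ≤ Q + (2 * G + 1) * s := fun τ => by
    rw [hN, hQdef, hsdef, hGdef]
    have h := card_fixed_le (isFunctionField (K := K) (E := E)) p (galAut τ * g)
      (μ := μ) (ν := ν) (fun a => by rw [hbase τ a, hQdef, pow_add]) hμν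
      (by rw [← hGdef, ← hsdef]; exact hbig) (Ω.filter fun w => (galAut τ * g) • w = w)
      fun w hw => (Finset.mem_filter.1 hw).2
    push_cast
    rw [pow_add]
    exact h
  have hAcard : A.card ≤ Q ∧ Q ≤ A.card + bad.card := by
    have h1 := Finset.card_le_card (Finset.sdiff_subset : (rat Q : Finset K) \ bad ⊆ rat Q)
    have h2 := Finset.le_card_sdiff bad (rat Q : Finset K)
    rw [hA]
    omega
  have hfinal := abs_sub_le_of_twists (M := ((∑ a ∈ A, (pointsOn f Q a).card : ℕ) : ℤ))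
    (Q := (Q : ℤ)) (U := (2 * G + 1) * s) (B := bad.card) N fx (by positivity)
    (Int.natCast_nonneg _) (fun τ => by exact_mod_cast hupper τ)
    (by
      rw [← Nat.cast_sum, hNsum, hodef, Nat.card_eq_fintype_card]
      push_cast
      rw [mul_comm]
      exact mul_le_mul_of_nonneg_left (by omega) (by positivity))
    (by rw [hfsum, hodef, Nat.card_eq_fintype_card])
    (by rw [← Nat.card_eq_fintype_card, ← hodef]; exact_mod_cast hM)
  have hrest : pointCount f Q ≤ (∑ a ∈ A, (pointsOn f Q a).card) + bad.card * n ∧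
      (∑ a ∈ A, (pointsOn f Q a).card) ≤ pointCount f Q := by
    rw [pointCount, hA,
      ← Finset.sum_sdiff (Finset.inter_subset_left : (rat Q : Finset K) ∩ bad ⊆ _),
      Finset.sdiff_inter_self_left]
    refine ⟨Nat.add_le_add_left ?_ _, Nat.le_add_right _ _⟩
    refine (Finset.sum_le_card_nsmul _ _ n fun a _ => hpts a).trans ?_
    rw [smul_eq_mul]
    exact Nat.mul_le_mul_right _ (Finset.card_le_card Finset.inter_subset_right)
  rw [← Nat.card_eq_fintype_card, ← hodef] at hfinal
  exact combine_bound hfinal hrest.2 hrest.1 hs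

/-- **The Riemann hypothesis for an absolutely irreducible curve, separable in `Y`.** -/
theorem exists_pointCount_bound {f : K[X][X]} (hirr : Irreducible f)
    (hder : derivative f ≠ 0) :
    ∃ C : ℕ, ∀ μ ν : ℕ, μ ≤ ν → 0 < μ + ν →
      f.map (mapRingHom (frob K p (μ + ν)).toRingHom) = f →
        |(pointCount f (p ^ (μ + ν)) : ℤ) - p ^ (μ + ν)| ≤ C * p ^ ν := by
  classical
  have hn : f.natDegree ≠ 0 := fun h => hder (derivative_of_natDegree_zero h)
  have hinj := IsFractionRing.injective K[X] (RatFunc K)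
  have hirr' : Irreducible (fRat f) :=
    ((hirr.isPrimitive hn).irreducible_iff_irreducible_map_fraction_map (K := RatFunc K)).1 hirr
  have hsep : (fRat f).Separable := by
    rw [separable_iff_derivative_ne_zero hirr', fRat, derivative_map]
    exact fun h => hder ((map_injective _ hinj).eq_iff' (Polynomial.map_zero _) |>.1 h)
  let E' := (fRat f).SplittingField
  haveI : IsGalois (RatFunc K) E' := IsGalois.of_separable_splitting_field (p := fRat f) hsep
  have hcard : f.natDegree ≤ (roots₂ (E := E') f).card := by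
    rw [roots₂, Multiset.toFinset_card_of_nodup (nodup_roots hsep.map),
      ← (SplittingField.splits (fRat f)).natDegree_eq_card_roots, natDegree_map, fRat,
      natDegree_map_eq_of_injective hinj]
  have hgen : Algebra.adjoin (RatFunc K) ((roots₂ f : Finset E') : Set E') = ⊤ := by
    refine Eq.trans ?_ (SplittingField.adjoin_rootSet (fRat f))
    congr 1
  obtain ⟨bad, hbad⟩ := exists_bad hsep
  exact ⟨_, fun μ ν hμν he hf =>
    abs_pointCount_sub_le (E := E') p hirr hn hirr' hcard hgen bad hbad hμν he hf⟩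

end FA.CurveRH

end
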