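import Fermat.Agent.Curve.Genus
import Mathlib.LinearAlgebra.Dual.Lemmas
import Mathlib.LinearAlgebra.Isomorphisms

/-!
# The theorem of Riemann and Roch by Weil differentials

Over an algebraically closed constant field `l(D) - l(W - D) = deg D + 1 - g`, `deg W = 2g - 2`.
The differentials are the functionals on the adeles that kill the diagonal and some box.
-/

set_option autoImplicit false
set_option linter.style.haveILetI false
set_option linter.unusedSectionVars false

noncomputable section

namespace FA.CurveRH

open AlgebraicCurve FA.ModField FA.Curve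

variable {K F : Type*} [Field K] [Field F] [Algebra K F]

variable (K F) in
/-- The adeles: almost all components are integral. -/
def adeleSpace : Submodule K (Place K F → F) where
  carrier := {α | {v : Place K F | ¬ AtLeast v 0 (α v)}.Finite}
  zero_mem' := Set.finite_empty.subset fun v hv => (hv atLeast_zero).elim
  add_mem' {α β} hα hβ := (hα.union hβ).subset fun v hv => by
    by_contra h
    simp only [Set.mem_union, Set.mem_ofPred_eq, not_or, not_not] at h
    exact hv (h.1.add h.2)
  smul_mem' c α hα := hα.subset fun v hv h => hv (by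
    rw [Pi.smul_apply, Algebra.smul_def]; exact h.smul c)

/-- The adeles bounded by a divisor. -/
def box (D : Divisor K F) : Submodule K (adeleSpace K F) where
  carrier := {α | ∀ v, AtLeast v (-D v) (α.1 v)}
  zero_mem' v := atLeast_zero
  add_mem' hα hβ v := (hα v).add (hβ v)
  smul_mem' c α hα v := by
    show AtLeast v (-D v) ((c • α.1) v)
    rw [Pi.smul_apply, Algebra.smul_def]
    exact (hα v).smul c

theorem mem_box {D : Divisor K F} {α : adeleSpace K F} :
    α ∈ box D ↔ ∀ v, AtLeast v (-D v) (α.1 v) := Iff.rfl

theorem box_mono {D D' : Divisor K F} (h : D ≤ D') : box D ≤ box D' := fun _ hα v =>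
  (hα v).mono (by have := Finsupp.le_def.1 h v; omega)

variable [IsAlgClosed K] (hF : IsFunctionField K F)

/-- A function as an adele. -/
def diagonal : F →ₗ[K] adeleSpace K F where
  toFun f := ⟨fun _ => f, (finite_support hF f).subset fun v hv h =>
    hv (Or.inr (by rw [h]))⟩
  map_add' _ _ := rfl
  map_smul' _ _ := rfl

theorem diagonal_apply (f : F) (v : Place K F) : (diagonal hF f).1 v = f := rfl

/-- The box of `D` together with the functions. -/
def boxSum (D : Divisor K F) : Submodule K (adeleSpace K F) :=
  box D ⊔ LinearMap.range (diagonal hF)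

theorem boxSum_mono {D D' : Divisor K F} (h : D ≤ D') : boxSum hF D ≤ boxSum hF D' :=
  sup_le_sup_right (box_mono h) _

/-- The repartition with one component. -/
def adeleAt (v : Place K F) (f : F) : adeleSpace K F :=
  letI := Classical.decEq (Place K F)
  ⟨Pi.single v f, (Set.finite_singleton v).subset fun w hw => by
    by_contra h
    exact hw (by rw [Pi.single_eq_of_ne h]; exact atLeast_zero)⟩

theorem adeleAt_self (v : Place K F) (f : F) : (adeleAt v f).1 v = f := by
  classical simp [adeleAt]

theorem adeleAt_ne {v w : Place K F} (f : F) (h : w ≠ v) : (adeleAt v f).1 w = 0 := by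
  classical simp [adeleAt, h]

include hF in
theorem exists_ord_eq (v : Place K F) (n : ℤ) : ∃ t : F, t ≠ 0 ∧ v.ord t = n := by
  obtain ⟨π, hπ⟩ := exists_uniformizer v
  have hπ0 : π ≠ 0 := fun h => by simp [h] at hπ
  exact ⟨π ^ n, zpow_ne_zero _ hπ0, by rw [v.ord_zpow, hπ, mul_one]⟩

include hF in
/-- Subtract a multiple to gain one order. -/
theorem exists_const_sub (v : Place K F) {t f : F} (ht : t ≠ 0) (hf : AtLeast v (v.ord t) f) :
    ∃ c : K, AtLeast v (v.ord t + 1) (f - algebraMap K F c * t) := by
  have hmem : f / t ∈ v.toValuationSubring := by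
    rw [← atLeast_zero_iff_mem]
    have h := hf.mul (atLeast_ord (v := v) t⁻¹)
    rw [v.ord_inv, add_neg_cancel, ← div_eq_mul_inv] at h
    exact h
  obtain ⟨c, hc⟩ := exists_residue hF.isCurve v hmem
  refine ⟨c, ?_⟩
  have h1 : AtLeast v 1 (f / t - algebraMap K F c) :=
    hc.imp (fun h => sub_eq_zero.2 h) fun h => by omega
  have h2 := h1.mul (atLeast_ord (v := v) t)
  rw [sub_mul, div_mul_cancel₀ _ ht, add_comm] at h2
  exact h2

theorem single_step (D : Divisor K F) (v : Place K F) :
    ∃ α : adeleSpace K F, boxSum hF (D + Finsupp.single v 1) = boxSum hF D ⊔ K ∙ α ∧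
      (α ∈ boxSum hF D ↔
        ell (D + Finsupp.single v 1) = ell D + 1) := by
  classical
  obtain ⟨t, ht0, ht⟩ := exists_ord_eq hF v (-(D v + 1))
  refine ⟨adeleAt v t, ?_, ?_⟩
  · refine le_antisymm (sup_le (fun β hβ => ?_) (le_sup_right.trans le_sup_left))
      (sup_le (boxSum_mono hF (le_add_of_nonneg_right (Finsupp.single_nonneg.2 zero_le_one))) ?_)
    · have hv := hβ v
      rw [Finsupp.add_apply, Finsupp.single_eq_same] at hv
      obtain ⟨c, hc⟩ := exists_const_sub hF v ht0 (hv.mono (by omega))
      have hmem : β - c • adeleAt v t ∈ box D := fun w => by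
        show AtLeast w (-D w) (β.1 w - c • (adeleAt v t).1 w)
        rcases eq_or_ne w v with rfl | hw
        · rw [adeleAt_self, Algebra.smul_def]
          exact hc.mono (by omega)
        · rw [adeleAt_ne _ hw, smul_zero, sub_zero]
          simpa [Finsupp.single_eq_of_ne hw] using hβ w
      rw [← sub_add_cancel β (c • adeleAt v t)]
      exact Submodule.add_mem_sup (Submodule.mem_sup_left hmem)
        (Submodule.smul_mem _ _ (Submodule.mem_span_singleton_self _))
    · rw [Submodule.span_le, Set.singleton_subset_iff, SetLike.mem_coe]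
      refine Submodule.mem_sup_left fun w => ?_
      rcases eq_or_ne w v with rfl | hw
      · rw [adeleAt_self, Finsupp.add_apply, Finsupp.single_eq_same]
        exact Or.inr (by omega)
      · rw [adeleAt_ne _ hw]; exact atLeast_zero
  · have hle : D ≤ D + Finsupp.single v 1 :=
      le_add_of_nonneg_right (Finsupp.single_nonneg.2 zero_le_one)
    have hanti := ell_sub_degree_anti hF hle
    rw [map_add, Divisor.degree_single, hF.deg_eq_one, Nat.cast_one, mul_one] at hanti
    have hmono := ell_mono hF hle
    constructor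
    · intro h
      obtain ⟨b, hb, a, ⟨f, rfl⟩, hba⟩ := Submodule.mem_sup.1 h
      have hval : ∀ w, (adeleAt v t).1 w = b.1 w + f := fun w => by
        rw [← hba]; rfl
      have hfv : f = t - b.1 v := by rw [← adeleAt_self v t, hval v]; ring
      have hford : f ≠ 0 ∧ v.ord f = v.ord t := by
        rw [hfv, sub_eq_add_neg]
        exact ord_add_eq_left ht0 ((hb v).neg.mono (by omega))
      have hfmem : f ∈ riemannRochSpace (D + Finsupp.single v 1) := by
        rw [mem_riemannRochSpace]
        intro w
        rcases eq_or_ne w v with rfl | hw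
        · rw [Finsupp.add_apply, Finsupp.single_eq_same]
          exact Or.inr (by omega)
        · have : f = -b.1 w := by
            have := hval w
            rw [adeleAt_ne _ hw] at this
            exact eq_neg_of_add_eq_zero_right this.symm
          rw [this, Finsupp.add_apply, Finsupp.single_eq_of_ne hw, add_zero]
          exact (hb w).neg
      have hne : ell D ≠ ell (D + Finsupp.single v 1) := fun e => by
        haveI := finite_riemannRochSpace hF (D + Finsupp.single v 1)
        have heq := Submodule.eq_of_le_of_finrank_le (riemannRochSpace_mono hle)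
          (Int.ofNat_le.1 e.ge)
        rw [← heq, mem_riemannRochSpace] at hfmem
        have := (atLeast_iff hford.1).1 (hfmem v)
        omega
      omega
    · intro he
      obtain ⟨f, hf, hf'⟩ : ∃ f ∈ riemannRochSpace (D + Finsupp.single v 1),
          f ∉ riemannRochSpace D := by
        by_contra hno
        push Not at hno
        haveI := finite_riemannRochSpace hF D
        have := Int.ofNat_le.2 (Submodule.finrank_mono hno)
        simp only [ell] at he
        omega
      rw [mem_riemannRochSpace] at hf hf'
      have hfv : ¬ AtLeast v (-D v) f := fun h => hf' fun w => by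
        rcases eq_or_ne w v with rfl | hw
        · exact h
        · simpa [Finsupp.single_eq_of_ne hw] using hf w
      have hf1 := hf v
      rw [Finsupp.add_apply, Finsupp.single_eq_same] at hf1
      rw [AtLeast, not_or] at hfv
      obtain ⟨c, hc⟩ := exists_const_sub hF v ht0 (hf1.mono (by omega))
      have hc0 : c ≠ 0 := fun h => by
        rw [h, map_zero, zero_mul, sub_zero, atLeast_iff hfv.1] at hc
        omega
      have hmem : c • adeleAt v t - diagonal hF f ∈ box D := fun w => by
        show AtLeast w (-D w) (c • (adeleAt v t).1 w - f)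
        rcases eq_or_ne w v with rfl | hw
        · rw [adeleAt_self, Algebra.smul_def, ← neg_sub]
          exact hc.neg.mono (by omega)
        · rw [adeleAt_ne _ hw, smul_zero, zero_sub]
          refine AtLeast.neg ?_
          simpa [Finsupp.single_eq_of_ne hw] using hf w
      have h2 : c • adeleAt v t ∈ boxSum hF D := by
        rw [← sub_add_cancel (c • adeleAt v t) (diagonal hF f)]
        exact Submodule.add_mem_sup hmem ⟨f, rfl⟩
      simpa [hc0] using Submodule.smul_mem _ c⁻¹ h2

include hF in
theorem degree_step (D : Divisor K F) (v : Place K F) :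
    Divisor.degree (D + Finsupp.single v 1) = Divisor.degree D + 1 := by
  rw [map_add, Divisor.degree_single, hF.deg_eq_one, Nat.cast_one, mul_one]

include hF in
/-- Induction along `D ≤ D'`, one place at a time. -/
theorem le_induction {D : Divisor K F} (P : Divisor K F → Prop) (h0 : P D)
    (hstep : ∀ D' v, D ≤ D' → P D' → P (D' + Finsupp.single v 1)) :
    ∀ D', D ≤ D' → P D' := by
  classical
  suffices h : ∀ n : ℕ, ∀ D', D ≤ D' → Divisor.degree (D' - D) = n → P D' from
    fun D' hD => h _ D' hD (Int.toNat_of_nonneg (degree_nonneg hF (sub_nonneg.2 hD))).symm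
  intro n
  induction n with
  | zero =>
    intro D' hle hdeg
    suffices D' = D from this ▸ h0
    ext w
    rw [degree_eq_sum hF, Finsupp.sum, Nat.cast_zero, Finset.sum_eq_zero_iff_of_nonneg
      (fun u _ => by simpa using Finsupp.le_def.1 hle u)] at hdeg
    by_contra hne
    exact hne (sub_eq_zero.1 (by simpa using hdeg w (by simpa [sub_eq_zero] using hne)))
  | succ n ih =>
    intro D' hle hdeg
    obtain ⟨v, hv⟩ : ∃ v, D v < D' v := by
      by_contra hno
      push Not at hno
      rw [le_antisymm (Finsupp.le_def.2 hno) hle, sub_self, map_zero] at hdeg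
      omega
    have hle₁ : D ≤ D' - Finsupp.single v 1 := Finsupp.le_def.2 fun w => by
      rcases eq_or_ne w v with rfl | hw
      · simp; omega
      · simpa [Finsupp.single_eq_of_ne hw] using Finsupp.le_def.1 hle w
    rw [← sub_add_cancel D' (Finsupp.single v 1)]
    refine hstep _ v hle₁ (ih _ hle₁ ?_)
    rw [map_sub, map_sub, Divisor.degree_single, hF.deg_eq_one]
    rw [map_sub] at hdeg
    push_cast at hdeg ⊢
    omega

theorem exists_threshold_top : ∃ c : ℤ, ∀ D : Divisor K F, c ≤ Divisor.degree D →
    boxSum hF D = ⊤ := by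
  classical
  obtain ⟨c, hc⟩ := exists_threshold hF
  refine ⟨c, fun D hD => ?_⟩
  have hconst : ∀ D', D ≤ D' → boxSum hF D' = boxSum hF D :=
    le_induction hF (fun D' => boxSum hF D' = boxSum hF D) rfl fun D' v hle ih => by
      obtain ⟨α, h1, h2⟩ := single_step hF D' v
      have hd := degree_mono hF hle
      have hin : α ∈ boxSum hF D' := h2.2 (by
        rw [hc _ (by rw [degree_step hF]; omega), hc _ (by omega), degree_step hF]; omega)
      rw [h1, sup_of_le_left (by simpa using hin), ih]
  rw [eq_top_iff]
  intro α _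
  have hfin : {v : Place K F | ¬ AtLeast v 0 (α.1 v)}.Finite := α.2
  set S := hfin.toFinset
  set E : Divisor K F := ∑ v ∈ S, Finsupp.single v (max 0 (-v.ord (α.1 v)))
  have hα : α ∈ box (D ⊔ E) := fun w => by
    rw [Finsupp.sup_apply]
    by_cases hw : AtLeast w 0 (α.1 w)
    · have hE : (0 : ℤ) ≤ E w := by
        simp only [E, Finset.sum_apply']
        exact Finset.sum_nonneg fun v _ => by
          rcases eq_or_ne w v with rfl | hwv
          · simp
          · simp [Finsupp.single_eq_of_ne hwv]
      exact hw.mono (by omega)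
    · have hwS : w ∈ S := hfin.mem_toFinset.2 hw
      have hE : E w = max 0 (-w.ord (α.1 w)) := by
        simp only [E, Finset.sum_apply']
        rw [Finset.sum_eq_single w (fun b _ hb => Finsupp.single_eq_of_ne hb.symm)
          (fun h => absurd hwS h), Finsupp.single_eq_same]
      exact (atLeast_ord _).mono (by omega)
  exact hconst _ le_sup_left ▸ Submodule.mem_sup_left hα

/-- The index of speciality: `A / (A(D) + F)` is finite of dimension `g - 1 - deg D + l(D)`. -/
theorem finite_index (D : Divisor K F) :
    Module.Finite K (adeleSpace K F ⧸ boxSum hF D) ∧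
      (Module.finrank K (adeleSpace K F ⧸ boxSum hF D) : ℤ) =
        genus K F - 1 - Divisor.degree D + ell D := by
  classical
  obtain ⟨c, hc⟩ := exists_threshold_top hF
  obtain ⟨c', hc'⟩ := exists_threshold hF
  have key : ∀ n : ℕ, ∀ D : Divisor K F, max c c' ≤ Divisor.degree D + n →
      Module.Finite K (adeleSpace K F ⧸ boxSum hF D) ∧
        (Module.finrank K (adeleSpace K F ⧸ boxSum hF D) : ℤ) =
          genus K F - 1 - Divisor.degree D + ell D := by
    intro n
    induction n with
    | zero =>
      intro D hD
      haveI : Subsingleton (adeleSpace K F ⧸ boxSum hF D) :=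
        Submodule.Quotient.subsingleton_iff.2 (hc D (by omega))
      refine ⟨inferInstance, ?_⟩
      rw [Module.finrank_zero_of_subsingleton, hc' D (by omega)]
      push_cast; ring
    | succ n ih =>
      intro D hD
      obtain ⟨v⟩ : Nonempty (Place K F) := (infinite_places hF).nonempty
      obtain ⟨hfin, hdim⟩ := ih (D + Finsupp.single v 1) (by
        rw [degree_step hF]; push_cast at hD ⊢; omega)
      obtain ⟨α, h1, h2⟩ := single_step hF D v
      have hle : boxSum hF D ≤ boxSum hF (D + Finsupp.single v 1) := h1 ▸ le_sup_left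
      set T := Submodule.map (boxSum hF D).mkQ (boxSum hF (D + Finsupp.single v 1))
      have hT : T = K ∙ ((boxSum hF D).mkQ α) := by
        simp only [T, h1, Submodule.map_sup, Submodule.map_span, Set.image_singleton]
        rw [Submodule.mkQ_map_self, bot_sup_eq]
      haveI : Module.Finite K T := hT ▸ Module.Finite.span_of_finite K (Set.finite_singleton _)
      let e := Submodule.quotientQuotientEquivQuotient (boxSum hF D)
        (boxSum hF (D + Finsupp.single v 1)) hle
      haveI : Module.Finite K ((adeleSpace K F ⧸ boxSum hF D) ⧸ T) := Module.Finite.equiv e.symm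
      haveI hfinD : Module.Finite K (adeleSpace K F ⧸ boxSum hF D) :=
        Module.Finite.of_submodule_quotient T
      refine ⟨hfinD, ?_⟩
      have hsum := Submodule.finrank_quotient_add_finrank T
      rw [e.finrank_eq] at hsum
      have hleD : D ≤ D + Finsupp.single v 1 :=
        le_add_of_nonneg_right (Finsupp.single_nonneg.2 zero_le_one)
      have hanti := ell_sub_degree_anti hF hleD
      have hmono := ell_mono hF hleD
      rw [degree_step hF] at hanti hdim
      by_cases hα : α ∈ boxSum hF D
      · have hT0 : Module.finrank K T = 0 := by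
          rw [hT, (Submodule.Quotient.mk_eq_zero _).2 hα |> (fun h => (show (boxSum hF D).mkQ α = 0
            from h)), Submodule.span_zero_singleton, finrank_bot]
        have := h2.1 hα
        omega
      · have hT1 : Module.finrank K T = 1 := by
          rw [hT]
          exact finrank_span_singleton fun h => hα ((Submodule.Quotient.mk_eq_zero _).1 h)
        have : ell (D + Finsupp.single v 1) ≠ ell D + 1 := fun e => hα (h2.2 e)
        omega
  exact key (max c c' - Divisor.degree D).toNat D (by omega)

/-- The Weil differentials bounded by `D`. -/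
def diffs (D : Divisor K F) : Submodule K (Module.Dual K (adeleSpace K F)) :=
  (boxSum hF D).dualAnnihilator

theorem mem_diffs {D : Divisor K F} {ω : Module.Dual K (adeleSpace K F)} :
    ω ∈ diffs hF D ↔ (∀ α ∈ box D, ω α = 0) ∧ ∀ f, ω (diagonal hF f) = 0 := by
  rw [diffs, Submodule.mem_dualAnnihilator]
  refine ⟨fun h => ⟨fun α hα => h α (Submodule.mem_sup_left hα),
    fun f => h _ (Submodule.mem_sup_right ⟨f, rfl⟩)⟩, fun h α hα => ?_⟩
  obtain ⟨b, hb, _, ⟨f, rfl⟩, rfl⟩ := Submodule.mem_sup.1 hα
  rw [map_add, h.1 b hb, h.2 f, add_zero]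

theorem finrank_diffs (D : Divisor K F) :
    Module.Finite K (diffs hF D) ∧
      (Module.finrank K (diffs hF D) : ℤ) = genus K F - 1 - Divisor.degree D + ell D := by
  obtain ⟨h1, h2⟩ := finite_index hF D
  haveI := h1
  let e := Submodule.dualQuotEquivDualAnnihilator (boxSum hF D)
  refine ⟨Module.Finite.equiv e, ?_⟩
  show (Module.finrank K (boxSum hF D).dualAnnihilator : ℤ) = _
  rw [← e.finrank_eq, Subspace.dual_finrank_eq, h2]

/-- Multiplication of adeles by a function. -/
def mulAdele (f : F) : adeleSpace K F →ₗ[K] adeleSpace K F where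
  toFun α := ⟨fun v => f * α.1 v, (α.2.union (finite_support hF f)).subset fun v hv => by
    by_contra h
    simp only [Set.mem_union, Set.mem_ofPred_eq, not_or, not_not] at h
    exact hv ((AtLeast.mul (v := v) (n := 0) (Or.inr h.2.ge) h.1).mono (by simp))⟩
  map_add' α β := Subtype.ext (funext fun v => mul_add _ _ _)
  map_smul' c α := Subtype.ext (funext fun v => by
    simp only [SetLike.val_smul, Pi.smul_apply, RingHom.id_apply, mul_smul_comm])

theorem mulAdele_mem_box {D E : Divisor K F} {f : F} (hf : f ∈ riemannRochSpace E)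
    {α : adeleSpace K F} (hα : α ∈ box D) : mulAdele hF f α ∈ box (D + E) := fun v => by
  refine ((mem_riemannRochSpace.1 hf v).mul (hα v)).mono ?_
  rw [Finsupp.add_apply]; omega

/-- `f ω`. -/
def mulDiff (ω : Module.Dual K (adeleSpace K F)) : F →ₗ[K] Module.Dual K (adeleSpace K F) where
  toFun f := ω.comp (mulAdele hF f)
  map_add' f g := LinearMap.ext fun α => by
    show ω (mulAdele hF (f + g) α) = ω (mulAdele hF f α) + ω (mulAdele hF g α)
    rw [← map_add]
    exact congrArg ω (Subtype.ext (funext fun v => add_mul _ _ _))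
  map_smul' c f := LinearMap.ext fun α => by
    show ω (mulAdele hF (c • f) α) = c • ω (mulAdele hF f α)
    rw [← map_smul]
    exact congrArg ω (Subtype.ext (funext fun v => by
      simp only [SetLike.val_smul, Pi.smul_apply, mulAdele, LinearMap.coe_mk, AddHom.coe_mk,
        smul_mul_assoc]))

theorem mulDiff_mulDiff (ω : Module.Dual K (adeleSpace K F)) (f g : F) :
    mulDiff hF (mulDiff hF ω f) g = mulDiff hF ω (f * g) := LinearMap.ext fun α => by
  show ω (mulAdele hF f (mulAdele hF g α)) = ω (mulAdele hF (f * g) α)
  exact congrArg ω (Subtype.ext (funext fun v => (mul_assoc f g _).symm))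

theorem mulDiff_mem {D E : Divisor K F} {ω : Module.Dual K (adeleSpace K F)}
    (hω : ω ∈ diffs hF D) {f : F} (hf : f ∈ riemannRochSpace E) :
    mulDiff hF ω f ∈ diffs hF (D - E) := by
  rw [mem_diffs] at hω ⊢
  refine ⟨fun α hα => hω.1 _ ?_, fun g => ?_⟩
  · simpa using mulAdele_mem_box hF hf hα
  · show ω (mulAdele hF f (diagonal hF g)) = 0
    exact hω.2 (f * g)

theorem mulDiff_injective {ω : Module.Dual K (adeleSpace K F)} (hω : ω ≠ 0) :
    Function.Injective (mulDiff hF ω) := by
  rw [injective_iff_map_eq_zero]
  intro f hf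
  by_contra hne
  refine hω (LinearMap.ext fun α => ?_)
  have : mulAdele hF f (mulAdele hF f⁻¹ α) = α :=
    Subtype.ext (funext fun v => mul_inv_cancel_left₀ hne _)
  rw [← this]
  exact LinearMap.congr_fun hf _

/-- The differentials have dimension one over the function field. -/
theorem exists_mulDiff_eq {D₁ D₂ : Divisor K F} {ω₁ ω₂ : Module.Dual K (adeleSpace K F)}
    (h₁ : ω₁ ∈ diffs hF D₁) (h₁0 : ω₁ ≠ 0) (h₂ : ω₂ ∈ diffs hF D₂) :
    ∃ f : F, ω₂ = mulDiff hF ω₁ f := by
  classical
  rcases eq_or_ne ω₂ 0 with rfl | h₂0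
  · exact ⟨0, (map_zero _).symm⟩
  obtain ⟨P⟩ : Nonempty (Place K F) := (infinite_places hF).nonempty
  obtain ⟨D, hD₁, hD₂⟩ : ∃ D : Divisor K F, D ≤ D₁ ∧ D ≤ D₂ :=
    ⟨D₁ ⊓ D₂, inf_le_left, inf_le_right⟩
  replace h₁ : ω₁ ∈ diffs hF D :=
    Submodule.dualAnnihilator_anti (boxSum_mono hF hD₁) h₁
  replace h₂ : ω₂ ∈ diffs hF D :=
    Submodule.dualAnnihilator_anti (boxSum_mono hF hD₂) h₂
  set n : ℕ := (Divisor.degree D).natAbs + 3 * genus K F + 1
  set E : Divisor K F := Finsupp.single P (n : ℤ)
  set L := riemannRochSpace E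
  haveI : Module.Finite K L := finite_riemannRochSpace hF E
  obtain ⟨hfin, hdim⟩ := finrank_diffs hF (D - E)
  haveI := hfin
  let Φ : L × L →ₗ[K] diffs hF (D - E) :=
    (((mulDiff hF ω₁).comp L.subtype).coprod ((mulDiff hF ω₂).comp L.subtype)).codRestrict _
      fun x => add_mem (mulDiff_mem hF h₁ x.1.2) (mulDiff_mem hF h₂ x.2.2)
  have hdegE : Divisor.degree E = n := by
    rw [Divisor.degree_single, hF.deg_eq_one, Nat.cast_one, mul_one]
  have hzero : ell (D - E) = 0 := ell_eq_zero_of_degree_neg hF (by rw [map_sub, hdegE]; omega)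
  have hlow := riemann_inequality hF E
  have hni : ¬ Function.Injective Φ := fun h => by
    have := LinearMap.finrank_le_finrank_of_injective h
    rw [Module.finrank_prod] at this
    rw [hzero, map_sub, hdegE] at hdim
    rw [hdegE, ell] at hlow
    have hL : Module.finrank K L = Module.finrank K (riemannRochSpace E) := rfl
    omega
  rw [injective_iff_map_eq_zero] at hni
  push Not at hni
  obtain ⟨⟨a, b⟩, hab, hne⟩ := hni
  have hab' : mulDiff hF ω₁ (a : F) + mulDiff hF ω₂ (b : F) = 0 := congrArg Subtype.val hab
  have hb : (b : F) ≠ 0 := fun hb => by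
    rw [hb, map_zero, add_zero] at hab'
    have ha : (a : F) = 0 := mulDiff_injective hF h₁0 (hab'.trans (map_zero _).symm)
    exact hne (Prod.ext (Subtype.ext ha) (Subtype.ext hb))
  refine ⟨-(a : F) * (b : F)⁻¹, ?_⟩
  rw [← mulDiff_mulDiff, map_neg, ← eq_neg_of_add_eq_zero_right hab', mulDiff_mulDiff,
    mul_inv_cancel₀ hb]
  exact LinearMap.ext fun α => congrArg ω₂ (Subtype.ext (funext fun v => (one_mul _).symm))

include hF in
/-- **The theorem of Riemann and Roch.** -/
theorem exists_canonical : ∃ W : Divisor K F, Divisor.degree W = 2 * genus K F - 2 ∧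
    ∀ D : Divisor K F, ell D - ell (W - D) = Divisor.degree D + 1 - genus K F := by
  classical
  obtain ⟨P⟩ : Nonempty (Place K F) := (infinite_places hF).nonempty
  obtain ⟨ω, hω, hω0⟩ : ∃ ω ∈ diffs hF (Finsupp.single P (-2)), ω ≠ 0 := by
    refine Submodule.exists_mem_ne_zero_of_ne_bot fun hbot => ?_
    have h := (finrank_diffs hF (Finsupp.single P (-2))).2
    rw [hbot, finrank_bot, Divisor.degree_single, hF.deg_eq_one] at h
    have := ell_nonneg (K := K) (F := F) (Finsupp.single P (-2))
    push_cast at h
    omega
  obtain ⟨c, hc⟩ := exists_threshold_top hF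
  have hbd : ∀ D, ω ∈ diffs hF D → Divisor.degree D < c := fun D hD => by
    by_contra hlt
    rw [diffs, hc D (not_lt.1 hlt), Submodule.dualAnnihilator_top, Submodule.mem_bot] at hD
    exact hω0 hD
  have hmax : ∃ k : ℤ, (∃ D, ω ∈ diffs hF D ∧ Divisor.degree D = k) ∧
      ∀ z : ℤ, (∃ D, ω ∈ diffs hF D ∧ Divisor.degree D = z) → z ≤ k :=
    Int.exists_greatest_of_bdd ⟨c, fun z ⟨D, hD, hz⟩ => hz ▸ (hbd D hD).le⟩ ⟨_, _, hω, rfl⟩
  obtain ⟨k, ⟨W, hW, hWk⟩, hkmax⟩ := hmax
  have hiff : ∀ D, ω ∈ diffs hF D → D ≤ W := by
    intro D hD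
    have hmem : ω ∈ diffs hF (W ⊔ D) := by
      rw [mem_diffs] at hW hD ⊢
      refine ⟨fun α hα => ?_, hW.2⟩
      set β : adeleSpace K F := ⟨fun v => if D v ≤ W v then α.1 v else 0, α.2.subset fun v hv => by
        show ¬ AtLeast v 0 (α.1 v)
        intro h
        apply hv
        show AtLeast v 0 (if D v ≤ W v then α.1 v else 0)
        split_ifs
        · exact h
        · exact atLeast_zero⟩
      have hβ : ∀ v, β.1 v = if D v ≤ W v then α.1 v else 0 := fun v => rfl
      have h1 : β ∈ box W := fun v => by
        have := hα v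
        rw [Finsupp.sup_apply] at this
        rw [hβ]
        split_ifs with h
        · exact this.mono (by omega)
        · exact atLeast_zero
      have h2 : α - β ∈ box D := fun v => by
        show AtLeast v (-D v) (α.1 v - β.1 v)
        have := hα v
        rw [Finsupp.sup_apply] at this
        rw [hβ]
        split_ifs with h
        · rw [sub_self]; exact atLeast_zero
        · rw [sub_zero]; exact this.mono (by omega)
      rw [← sub_add_cancel α β, map_add, hD.1 _ h2, hW.1 _ h1, add_zero]
    have h1 := hkmax _ ⟨_, hmem, rfl⟩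
    have h2 : Divisor.degree (W ⊔ D - W) = 0 := by
      have := degree_mono hF (le_sup_left : W ≤ W ⊔ D)
      rw [map_sub]; omega
    have h3 : W ⊔ D = W := by
      ext v
      rw [degree_eq_sum hF, Finsupp.sum, Finset.sum_eq_zero_iff_of_nonneg
        (fun u _ => by simp)] at h2
      by_contra hne
      exact hne (sub_eq_zero.1 (by simpa using h2 v (by simpa [sub_eq_zero] using hne)))
    exact h3 ▸ le_sup_right
  have hiso : ∀ D, (Module.finrank K (diffs hF D) : ℤ) = ell (W - D) := by
    intro D
    let Φ : riemannRochSpace (W - D) →ₗ[K] diffs hF D :=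
      ((mulDiff hF ω).comp (riemannRochSpace (W - D)).subtype).codRestrict _ fun x => by
        simpa using mulDiff_mem hF hW x.2
    have hinj : Function.Injective Φ := fun x y h =>
      Subtype.ext (mulDiff_injective hF hω0 (congrArg Subtype.val h))
    have hsurj : Function.Surjective Φ := by
      rintro ⟨η, hη⟩
      obtain ⟨f, rfl⟩ := exists_mulDiff_eq hF hW hω0 hη
      rcases eq_or_ne f 0 with rfl | hf
      · exact ⟨0, Subtype.ext (by simp [Φ])⟩
      have hmem : f⁻¹ ∈ riemannRochSpace (divOf hF f) := by
        rw [mem_riemannRochSpace]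
        intro v
        exact Or.inr (by rw [v.ord_inv, divOf_apply])
      have h := mulDiff_mem hF hη hmem
      rw [mulDiff_mulDiff, mul_inv_cancel₀ hf] at h
      have h1 : mulDiff hF ω 1 = ω :=
        LinearMap.ext fun α => congrArg ω (Subtype.ext (funext fun v => one_mul _))
      rw [h1] at h
      refine ⟨⟨f, ?_⟩, Subtype.ext rfl⟩
      rw [mem_riemannRochSpace]
      intro v
      have := Finsupp.le_def.1 (hiff _ h) v
      rw [Finsupp.sub_apply, divOf_apply] at this
      refine Or.inr ?_
      rw [Finsupp.sub_apply]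
      omega
    rw [ell, (LinearEquiv.ofBijective Φ ⟨hinj, hsurj⟩).finrank_eq]
  have hRR : ∀ D : Divisor K F, ell D - ell (W - D) = Divisor.degree D + 1 - genus K F := by
    intro D
    have := (finrank_diffs hF D).2
    rw [hiso D] at this
    omega
  refine ⟨W, ?_, hRR⟩
  have h0 := hRR 0
  have hWW := hRR W
  rw [map_zero, sub_zero, ell_zero hF] at h0
  rw [sub_self, ell_zero hF] at hWW
  omega

include hF in
theorem exists_linEquiv_of_ell_pos {D : Divisor K F} (hD : 0 < ell D)
    (hdeg : Divisor.degree D = 0) : ∃ z : F, z ≠ 0 ∧ D = -divOf hF z := by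
  obtain ⟨z, hz, hle⟩ := exists_effective_of_ell_pos hF hD
  refine ⟨z, hz, eq_neg_of_add_eq_zero_left (Finsupp.ext fun v => ?_)⟩
  have h : Divisor.degree (D + divOf hF z) = 0 := by rw [map_add, hdeg, degree_divOf, add_zero]
  rw [degree_eq_sum hF, Finsupp.sum, Finset.sum_eq_zero_iff_of_nonneg
    (fun u _ => by simpa using Finsupp.le_def.1 hle u)] at h
  by_contra hne
  exact hne (by simpa using h v (Finsupp.mem_support_iff.2 hne))

end FA.CurveRH

end
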