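import Fermat.Agent.CurveRH.Fixed
import Fermat.Agent.CurveRH.RiemannRoch
import Mathlib.LinearAlgebra.Lagrange

/-!
# Descent: fixed vectors of Riemann-Roch spaces and fixed divisor classes

The Riemann-Roch space of a fixed divisor is spanned by fixed functions, so a class of fixed
divisors of dimension `l` holds `(q ^ l - 1) / (q - 1)` fixed effective divisors; there are
finitely many such classes of each degree.
-/

set_option autoImplicit false
set_option linter.style.haveILetI false
set_option linter.unusedSectionVars false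

noncomputable section

namespace FA.CurveRH

open AlgebraicCurve FA.ModField FA.Curve

variable {K F : Type*} [Field K] [Field F] [Algebra K F] [IsAlgClosed K]
  {g : SemilinearAut K F} {q : ℕ}

theorem atLeast_smul (g : SemilinearAut K F) {v : Place K F} {n : ℤ} {f : F}
    (h : AtLeast v n f) : AtLeast (g • v) n (g • f) := by
  rcases h with h | h
  · exact Or.inl (by rw [h, smul_zero])
  · exact Or.inr (by rwa [SemilinearAut.ord_smul])

theorem smul_mem_rrSpace (g : SemilinearAut K F) {D : Divisor K F} {f : F}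
    (hf : f ∈ riemannRochSpace D) : g • f ∈ riemannRochSpace (g • D) := by
  rw [mem_riemannRochSpace] at hf ⊢
  intro w
  have h := atLeast_smul g (hf (g⁻¹ • w))
  rw [smul_inv_smul] at h
  rwa [SemilinearAut.divisor_smul_apply]

theorem smul_const_smul (g : SemilinearAut K F) (c : K) (f : F) :
    g • (c • f) = SemilinearAut.baseAut g c • (g • f) := by
  rw [Algebra.smul_def, smul_mul', SemilinearAut.smul_algebraMap, ← Algebra.smul_def]

variable (hF : IsFunctionField K F)

include hF

theorem ell_smul (g : SemilinearAut K F) (D : Divisor K F) : ell (g • D) = ell D := by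
  classical
  have key : ∀ (g : SemilinearAut K F) (D : Divisor K F), ell D ≤ ell (g • D) := by
    intro g D
    haveI := finite_riemannRochSpace hF D
    haveI := finite_riemannRochSpace hF (g • D)
    let b := Module.finBasis K (riemannRochSpace D)
    have hli : LinearIndependent K fun i => g • (b i : F) := by
      rw [Fintype.linearIndependent_iff]
      intro c hc i
      have h := congrArg (g⁻¹ • ·) hc
      simp only [Finset.smul_sum, smul_zero, smul_const_smul, inv_smul_smul] at h
      have hb := Fintype.linearIndependent_iff.1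
        (b.linearIndependent.map' (riemannRochSpace D).subtype (Submodule.ker_subtype _)) _ h i
      simpa using hb
    have := card_le_finrank hli fun i => smul_mem_rrSpace g (b i).2
    rw [Fintype.card_fin] at this
    exact Int.ofNat_le.2 this
  refine le_antisymm ?_ (key g D)
  conv_rhs => rw [← inv_smul_smul g D]
  exact key g⁻¹ _

theorem divOf_smul (g : SemilinearAut K F) (f : F) : g • divOf hF f = divOf hF (g • f) := by
  ext w
  rw [SemilinearAut.divisor_smul_apply, divOf_apply, divOf_apply]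
  conv_rhs => rw [← smul_inv_smul g w]
  rw [SemilinearAut.ord_smul]

theorem divOf_mul {a b : F} (ha : a ≠ 0) (hb : b ≠ 0) :
    divOf hF (a * b) = divOf hF a + divOf hF b := by
  ext w
  rw [Finsupp.add_apply, divOf_apply, divOf_apply, divOf_apply, w.ord_mul ha hb]

theorem divOf_inv (a : F) : divOf hF a⁻¹ = -divOf hF a := by
  ext w
  rw [Finsupp.neg_apply, divOf_apply, divOf_apply, w.ord_inv]

theorem exists_const_of_divOf_eq {a b : F} (ha : a ≠ 0) (hb : b ≠ 0)
    (h : divOf hF a = divOf hF b) : ∃ c : K, c ≠ 0 ∧ b = c • a := by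
  have hconst : ∀ v : Place K F, AtLeast v 0 (b * a⁻¹) := fun v => Or.inr (by
    have := DFunLike.congr_fun h v
    rw [divOf_apply, divOf_apply] at this
    rw [v.ord_mul hb (inv_ne_zero ha), v.ord_inv]
    omega)
  obtain ⟨c, hc⟩ := Submodule.mem_span_singleton.1
    (mem_span_of_isConst hconst fun g hg => exists_ord_neg hF hg)
  refine ⟨c, fun hc0 => mul_ne_zero hb (inv_ne_zero ha) (by rw [← hc, hc0, zero_smul]), ?_⟩
  rw [Algebra.smul_def, mul_one] at hc
  rw [Algebra.smul_def, hc, inv_mul_cancel_right₀ ha]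

omit hF

/-- Galois descent for one vector. -/
theorem IsFrobenius.mem_span_fixed (h : IsFrobenius g q) {D : Divisor K F} (hD : g • D = D)
    {f : F} (hf : f ∈ riemannRochSpace D) :
    f ∈ Submodule.span K {x : F | x ∈ riemannRochSpace D ∧ g • x = x} := by
  classical
  obtain ⟨j, hj, hfj⟩ := h.periodic f
  -- a constant of exact period `j`
  obtain ⟨ω, hω, hdist⟩ : ∃ ω : K, ω ^ q ^ j = ω ∧
      Set.InjOn (fun i : ℕ => ω ^ q ^ i) (Finset.range j) := by
    by_contra hno
    push Not at hno
    have hsub : {a : K | a ^ q ^ j = a} ⊆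
        ⋃ i ∈ Finset.Ioo 0 j, {a : K | a ^ q ^ i = a} := by
      intro a ha
      by_contra hnot
      simp only [Set.mem_iUnion, Set.mem_ofPred_eq, exists_prop, not_exists, not_and] at hnot
      refine hno a ha fun i hi i' hi' e => ?_
      wlog hle : i ≤ i' generalizing i i'
      · exact (this i' hi' i hi e.symm (by omega)).symm
      obtain ⟨d, rfl⟩ := Nat.exists_eq_add_of_le hle
      simp only [Finset.coe_range, Set.mem_Iio] at hi hi'
      by_contra hne
      refine hnot d (Finset.mem_Ioo.2 ⟨by omega,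
          by omega⟩) ((SemilinearAut.baseAut (g ^ i)).injective ?_)
      rw [h.baseAut_pow, h.baseAut_pow, ← pow_mul, ← pow_add, add_comm]
      exact e.symm
    have hfin : ∀ i, 0 < i → {a : K | a ^ q ^ i = a}.Finite := fun i hi =>
      Set.finite_of_ncard_pos
        (by rw [h.card_const i hi]; exact pow_pos (Nat.zero_lt_of_lt h.one_lt) i)
    have h1 := (Set.ncard_le_ncard hsub ((Finset.Ioo 0 j).finite_toSet.biUnion
      fun i hi => hfin i (Finset.mem_Ioo.1 hi).1)).trans (Finset.set_ncard_biUnion_le _ _)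
    rw [h.card_const j hj, Finset.sum_congr rfl fun i hi => h.card_const i (Finset.mem_Ioo.1 hi).1]
      at h1
    have h2 : ∑ i ∈ Finset.Ioo 0 j, q ^ i < q ^ j :=
      Nat.geomSum_lt h.one_lt fun i hi => (Finset.mem_Ioo.1 hi).2
    exact absurd (h1.trans_lt h2) (lt_irrefl _)
  set v : ℕ → K := fun i => ω ^ q ^ i
  set P := Lagrange.interpolate (Finset.range j) v fun i => if i = 0 then 1 else 0
  have hev : ∀ i ∈ Finset.range j, P.eval (v i) = if i = 0 then 1 else 0 := fun i hi =>
    Lagrange.eval_interpolate_at_node _ hdist hi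
  have hdeg : ∀ i, P.eval (v i) = ∑ k ∈ Finset.range (P.natDegree + 1), P.coeff k * v i ^ k :=
    fun i => Polynomial.eval_eq_sum_range _
  set tr : ℕ → F := fun k => ∑ i ∈ Finset.range j, v i ^ k • (g ^ i • f)
  have hstable : ∀ i, g ^ i • f ∈ riemannRochSpace D := fun i => by
    induction i with
    | zero => simpa using hf
    | succ i ih =>
      have := smul_mem_rrSpace g ih
      rwa [hD, ← mul_smul, ← pow_succ'] at this
  have hfix : ∀ k, tr k ∈ {x : F | x ∈ riemannRochSpace D ∧ g • x = x} := fun k => by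
    refine ⟨Submodule.sum_mem _ fun i _ => Submodule.smul_mem _ _ (hstable i), ?_⟩
    obtain ⟨r, rfl⟩ : ∃ r, j = r + 1 := ⟨j - 1, by omega⟩
    simp only [tr, Finset.smul_sum, smul_const_smul, h.baseAut_apply, v, ← mul_smul g,
      ← pow_succ' g]
    rw [Finset.sum_range_succ, Finset.sum_range_succ' (fun i => (ω ^ q ^ i) ^ k • g ^ i • f)]
    congr 1
    · refine Finset.sum_congr rfl fun i _ => ?_
      congr 1
      rw [← pow_mul, ← pow_mul, ← pow_mul, pow_succ]
      ring_nf
    · rw [hfj, pow_zero, pow_zero, pow_one, one_smul, ← pow_mul, mul_comm k q, ← pow_mul,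
        ← mul_assoc, ← pow_succ, pow_mul, hω]
  have key : f = ∑ k ∈ Finset.range (P.natDegree + 1), P.coeff k • tr k := by
    simp only [tr, Finset.smul_sum, smul_smul]
    rw [Finset.sum_comm]
    simp only [← Finset.sum_smul, ← hdeg]
    rw [Finset.sum_eq_single 0, hev 0 (Finset.mem_range.2 hj), if_pos rfl, one_smul, pow_zero,
      one_smul]
    · intro i hi hi0
      rw [hev i hi, if_neg hi0, zero_smul]
    · exact fun h0 => absurd (Finset.mem_range.2 hj) h0
  rw [key]
  exact Submodule.sum_mem _ fun k _ => Submodule.smul_mem _ _ (Submodule.subset_span (hfix k))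

include hF

theorem IsFrobenius.exists_fixed_vector (h : IsFrobenius g q) {D : Divisor K F} (hD : g • D = D)
    (hl : 0 < ell D) : ∃ z : F, z ≠ 0 ∧ g • z = z ∧ 0 ≤ D + divOf hF z := by
  obtain ⟨f, hf, hf0⟩ := exists_ne_zero_of_ell_pos hl
  by_contra hno
  push Not at hno
  have hspan := h.mem_span_fixed hD hf
  have hzero : Submodule.span K {x : F | x ∈ riemannRochSpace D ∧ g • x = x} ≤ ⊥ := by
    rw [Submodule.span_le]
    rintro x ⟨hx, hgx⟩
    by_contra hx0
    refine hno x hx0 hgx (Finsupp.le_def.2 fun v => ?_)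
    have := (atLeast_iff hx0).1 (mem_riemannRochSpace.1 hx v)
    rw [Finsupp.coe_zero, Pi.zero_apply, Finsupp.add_apply, divOf_apply]
    omega
  exact hf0 ((Submodule.mem_bot K).1 (hzero hspan))

/-- The fixed functions of a fixed divisor number `q ^ l`. -/
theorem IsFrobenius.ncard_fixed_vectors (h : IsFrobenius g q) {D : Divisor K F} (hD : g • D = D) :
    {x : F | x ∈ riemannRochSpace D ∧ g • x = x}.ncard = q ^ (ell D).toNat := by
  classical
  set S := {x : F | x ∈ riemannRochSpace D ∧ g • x = x}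
  haveI := finite_riemannRochSpace hF D
  obtain ⟨b, hbS, hspan, hli⟩ := exists_linearIndependent K S
  have hSD : Submodule.span K S = riemannRochSpace D :=
    le_antisymm (Submodule.span_le.2 fun x hx => hx.1) fun x hx => h.mem_span_fixed hD hx
  haveI : Module.Finite K (Submodule.span K b) := by rw [hspan, hSD]; infer_instance
  have hbfin : b.Finite := by
    have hu : LinearIndependent K (fun i : b => (⟨(i : F), (hbS i.2).1⟩ : riemannRochSpace D)) :=
      LinearIndependent.of_comp (riemannRochSpace D).subtype hli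
    haveI := hu.finite
    exact Set.toFinite b
  haveI := hbfin.fintype
  have hcardb : Fintype.card b = (ell D).toNat := by
    have := finrank_span_eq_card hli
    rw [Subtype.range_coe_subtype, Set.ofPred_mem_eq, hspan, hSD] at this
    simp only [ell, Int.toNat_natCast, ← this]
  have hfinK : {a : K | a ^ q = a}.ncard = q := by simpa using h.card_const 1 one_pos
  haveI : Finite {a : K // a ^ q = a} :=
    (Set.finite_of_ncard_pos (s := {a : K | a ^ q = a})
      (by rw [hfinK]; have := h.one_lt; omega)).to_subtype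
  let Φ : (b → {a : K // a ^ q = a}) → S := fun c =>
    ⟨∑ i : b, (c i : K) • (i : F), Submodule.sum_mem _ fun i _ =>
      Submodule.smul_mem _ _ (hbS i.2).1, by
        rw [Finset.smul_sum]
        refine Finset.sum_congr rfl fun i _ => ?_
        rw [smul_const_smul, h.baseAut_apply, (c i).2, (hbS i.2).2]⟩
  have hinj : Function.Injective Φ := fun c c' e => funext fun i => Subtype.ext (by
    have := Fintype.linearIndependent_iff.1 hli (fun i => (c i : K) - c' i) (by
      simp only [sub_smul, Finset.sum_sub_distrib]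
      exact sub_eq_zero.2 (congrArg Subtype.val e)) i
    exact sub_eq_zero.1 this)
  have hsurj : Function.Surjective Φ := by
    rintro ⟨x, hx⟩
    have hmem : x ∈ Submodule.span K (Set.range ((↑) : b → F)) := by
      rw [Subtype.range_coe_subtype, Set.ofPred_mem_eq, hspan, hSD]; exact hx.1
    obtain ⟨c, hc⟩ := (Submodule.mem_span_range_iff_exists_fun K).1 hmem
    have hfix : ∀ i, c i ^ q = c i := fun i => by
      have h1 : ∑ i : b, (c i ^ q - c i) • (i : F) = 0 := by
        simp only [sub_smul, Finset.sum_sub_distrib]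
        rw [sub_eq_zero, hc]
        conv_rhs => rw [← hx.2, ← hc, Finset.smul_sum]
        refine Finset.sum_congr rfl fun i _ => ?_
        rw [smul_const_smul, h.baseAut_apply, (hbS i.2).2]
      exact sub_eq_zero.1 (Fintype.linearIndependent_iff.1 hli _ h1 i)
    exact ⟨fun i => ⟨c i, hfix i⟩, Subtype.ext hc⟩
  rw [← Nat.card_coe_set_eq S, ← Nat.card_congr (Equiv.ofBijective Φ ⟨hinj, hsurj⟩), Nat.card_fun,
    Nat.card_eq_fintype_card (α := b), hcardb]
  exact congrArg (· ^ _) hfinK

variable (g) in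
/-- Linear equivalence. -/
def LinEquiv (D D' : Divisor K F) : Prop := ∃ z : F, z ≠ 0 ∧ D' = D + divOf hF z

theorem linEquiv_symm {D D' : Divisor K F} (h : LinEquiv hF D D') : LinEquiv hF D' D := by
  obtain ⟨z, hz, rfl⟩ := h
  exact ⟨z⁻¹, inv_ne_zero hz, by rw [divOf_inv, add_neg_cancel_right]⟩

theorem linEquiv_trans {D D' D'' : Divisor K F} (h : LinEquiv hF D D') (h' : LinEquiv hF D' D'') :
    LinEquiv hF D D'' := by
  obtain ⟨z, hz, rfl⟩ := h
  obtain ⟨w, hw, rfl⟩ := h'
  exact ⟨z * w, mul_ne_zero hz hw, by rw [divOf_mul hF hz hw, add_assoc]⟩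

theorem linEquiv_refl (D : Divisor K F) : LinEquiv hF D D :=
  ⟨1, one_ne_zero, Finsupp.ext fun v => by simp⟩

theorem linEquiv_add_right {D D' : Divisor K F} (h : LinEquiv hF D D') (E : Divisor K F) :
    LinEquiv hF (D + E) (D' + E) := by
  obtain ⟨z, hz, rfl⟩ := h
  exact ⟨z, hz, by rw [add_right_comm]⟩

theorem ell_eq_of_linEquiv {D D' : Divisor K F} (h : LinEquiv hF D D') : ell D' = ell D := by
  obtain ⟨z, hz, rfl⟩ := h
  exact ell_add_divOf hF D hz

theorem degree_eq_of_linEquiv {D D' : Divisor K F} (h : LinEquiv hF D D') :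
    Divisor.degree D' = Divisor.degree D := by
  obtain ⟨z, -, rfl⟩ := h
  rw [map_add, degree_divOf, add_zero]

/-- The effective fixed divisors in the class of a fixed divisor. -/
theorem IsFrobenius.mul_card_class (h : IsFrobenius g q) {D : Divisor K F} (hD : g • D = D)
    {n : ℕ} (hdeg : Divisor.degree D = n) :
    (q - 1) * {E : Divisor K F | E ∈ effSet g n ∧ LinEquiv hF D E}.ncard =
      q ^ (ell D).toNat - 1 := by
  classical
  have hq := h.one_lt
  have hfinC : {a : K | a ^ q = a}.ncard = q := by simpa using h.card_const 1 one_pos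
  have hCfin : {a : K | a ^ q = a}.Finite := Set.finite_of_ncard_pos (by omega)
  have hVfin : {x : F | x ∈ riemannRochSpace D ∧ g • x = x}.Finite :=
    Set.finite_of_ncard_pos (by rw [h.ncard_fixed_vectors hF hD]; exact pow_pos (by omega) _)
  set V := hVfin.toFinset.erase 0
  have hVcard : V.card = q ^ (ell D).toNat - 1 := by
    rw [Finset.card_erase_of_mem (hVfin.mem_toFinset.2 ⟨zero_mem _, smul_zero _⟩),
      ← Set.ncard_eq_toFinset_card _ hVfin, h.ncard_fixed_vectors hF hD]
  set C := hCfin.toFinset.erase 0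
  have hCcard : C.card = q - 1 := by
    rw [Finset.card_erase_of_mem (hCfin.mem_toFinset.2 (zero_pow (by omega))),
      ← Set.ncard_eq_toFinset_card _ hCfin, hfinC]
  have hsfin : {E : Divisor K F | E ∈ effSet g n ∧ LinEquiv hF D E}.Finite :=
    (h.finite_effSet hF n).subset fun E hE => hE.1
  have hmem : ∀ x ∈ V, D + divOf hF x ∈ hsfin.toFinset := by
    intro x hx
    obtain ⟨hx0, hx⟩ := Finset.mem_erase.1 hx
    obtain ⟨hxD, hgx⟩ := hVfin.mem_toFinset.1 hx
    refine hsfin.mem_toFinset.2 ⟨⟨Finsupp.le_def.2 fun v => ?_, ?_, ?_⟩, x, hx0, rfl⟩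
    · have := (atLeast_iff hx0).1 (mem_riemannRochSpace.1 hxD v)
      rw [Finsupp.coe_zero, Pi.zero_apply, Finsupp.add_apply, divOf_apply]
      omega
    · rw [smul_add, hD, divOf_smul, hgx]
    · rw [map_add, degree_divOf, add_zero, hdeg]
  rw [Set.ncard_eq_toFinset_card _ hsfin, ← hVcard, Finset.card_eq_sum_card_fiberwise
    (f := fun x => D + divOf hF x) (t := hsfin.toFinset) fun x hx => hmem x hx, ← hCcard,
    mul_comm, ← smul_eq_mul, ← Finset.sum_const]
  refine Finset.sum_congr rfl fun E hE => ?_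
  obtain ⟨⟨hE0, hgE, -⟩, z, hz, hEz⟩ := hsfin.mem_toFinset.1 hE
  -- a fixed function giving `E`
  obtain ⟨c, hc, hgz⟩ : ∃ c : K, c ≠ 0 ∧ g • z = c • z := by
    refine exists_const_of_divOf_eq hF hz (by simpa using hz) ?_
    rw [← divOf_smul]
    rw [hEz, smul_add, hD, add_right_inj] at hgE
    exact hgE.symm
  obtain ⟨lam, hlam⟩ := IsAlgClosed.exists_pow_nat_eq c⁻¹ (show 0 < q - 1 by omega)
  have hlam0 : lam ≠ 0 := fun e => inv_ne_zero hc (by rw [← hlam, e, zero_pow (by omega)])
  set x₀ := lam • z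
  have hx₀ : x₀ ≠ 0 := smul_ne_zero hlam0 hz
  have hgx₀ : g • x₀ = x₀ := by
    rw [smul_const_smul, h.baseAut_apply, hgz, smul_smul]
    congr 1
    rw [show q = q - 1 + 1 by omega, pow_succ, hlam, mul_comm c⁻¹ lam, mul_assoc,
      inv_mul_cancel₀ hc, mul_one]
  have hdivc : ∀ (a : K) (y : F), a ≠ 0 → divOf hF (a • y) = divOf hF y := fun a y ha => by
    ext v
    rw [divOf_apply, divOf_apply]
    rcases eq_or_ne y 0 with rfl | hy
    · rw [smul_zero]
    · rw [Algebra.smul_def, v.ord_mul (by simpa using ha) hy, place_ord_algebraMap, zero_add]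
  refine Finset.card_bij (fun a _ => a • x₀) (fun a ha => ?_)
    (fun a _ a' _ e => smul_left_injective K hx₀ e) fun y hy => ?_
  · obtain ⟨ha0, ha⟩ := Finset.mem_erase.1 ha
    have ha' : a ^ q = a := hCfin.mem_toFinset.1 ha
    rw [Finset.mem_filter]
    refine ⟨Finset.mem_erase.2 ⟨smul_ne_zero ha0 hx₀, hVfin.mem_toFinset.2 ⟨?_, ?_⟩⟩, ?_⟩
    · rw [mem_riemannRochSpace]
      intro v
      refine Or.inr ?_
      have := Finsupp.le_def.1 (hEz ▸ hE0) v
      rw [Finsupp.coe_zero, Pi.zero_apply, Finsupp.add_apply, divOf_apply] at this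
      rw [← divOf_apply hF, hdivc a x₀ ha0, hdivc lam z hlam0, divOf_apply]
      omega
    · rw [smul_const_smul, h.baseAut_apply, ha', hgx₀]
    · rw [hdivc a x₀ ha0, hdivc lam z hlam0, ← hEz]
  · obtain ⟨hyV, hyE⟩ := Finset.mem_filter.1 hy
    obtain ⟨hy0, hy'⟩ := Finset.mem_erase.1 hyV
    obtain ⟨-, hgy⟩ := hVfin.mem_toFinset.1 hy'
    obtain ⟨a, ha0, ha⟩ := exists_const_of_divOf_eq hF hx₀ hy0 (by
      rw [hdivc lam z hlam0]
      rw [hEz, add_right_inj] at hyE
      exact hyE.symm)
    refine ⟨a, Finset.mem_erase.2 ⟨ha0, hCfin.mem_toFinset.2 ?_⟩, ha.symm⟩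
    rw [ha, smul_const_smul, hgx₀, h.baseAut_apply] at hgy
    exact smul_left_injective K hx₀ hgy

/-- Representatives of the classes of fixed divisors of degree zero. -/
theorem IsFrobenius.exists_reps (h : IsFrobenius g q) {A : Divisor K F} (hA : g • A = A)
    (hA1 : Divisor.degree A = 1) :
    ∃ R : Finset (Divisor K F), (∀ D ∈ R, g • D = D ∧ Divisor.degree D = 0) ∧
      ∀ D : Divisor K F, g • D = D → Divisor.degree D = 0 → ∃! E, E ∈ R ∧ LinEquiv hF E D := by
  classical
  obtain ⟨G, hG⟩ : ∃ G, G = genus K F := ⟨_, rfl⟩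
  set X : Finset (Divisor K F) := (h.finite_effSet hF G).toFinset.image fun E => E - G • A
  have hAn : g • (G • A) = G • A := by rw [smul_comm, hA]
  have hX : ∀ D ∈ X, g • D = D ∧ Divisor.degree D = 0 := fun D hD => by
    obtain ⟨E, hE, rfl⟩ := Finset.mem_image.1 hD
    obtain ⟨-, hgE, hdE⟩ := (h.finite_effSet hF G).mem_toFinset.1 hE
    exact ⟨by rw [smul_sub, hgE, hAn], by rw [map_sub, map_nsmul, hdE, hA1]; simp⟩
  let s : Setoid (Divisor K F) :=
    ⟨LinEquiv hF, linEquiv_refl hF, fun h => linEquiv_symm hF h, fun h h' => linEquiv_trans hF h h'⟩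
  obtain ⟨R, hRX, hinj, himg⟩ : ∃ R : Finset (Divisor K F), R ⊆ X ∧
      Set.InjOn (Quotient.mk s) R ∧ ∀ x ∈ X, ∃ E ∈ R, Quotient.mk s E = Quotient.mk s x := by
    refine ⟨(X.image (Quotient.mk s)).attach.image fun c => (Finset.mem_image.1 c.2).choose,
      fun D hD => ?_, ?_, ?_⟩
    · obtain ⟨c, -, rfl⟩ := Finset.mem_image.1 hD
      exact (Finset.mem_image.1 c.2).choose_spec.1
    · intro D hD E hE e
      obtain ⟨c, -, rfl⟩ := Finset.mem_image.1 (Finset.mem_coe.1 hD)
      obtain ⟨d, -, rfl⟩ := Finset.mem_image.1 (Finset.mem_coe.1 hE)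
      rw [(Finset.mem_image.1 c.2).choose_spec.2, (Finset.mem_image.1 d.2).choose_spec.2] at e
      rw [Subtype.ext e]
    · intro x hx
      have hc : Quotient.mk s x ∈ X.image (Quotient.mk s) := Finset.mem_image_of_mem _ hx
      exact ⟨_, Finset.mem_image.2 ⟨⟨_, hc⟩, Finset.mem_attach _ _, rfl⟩,
        (Finset.mem_image.1 hc).choose_spec.2⟩
  refine ⟨R, fun D hD => hX D (hRX hD), fun D hD hdeg => ?_⟩
  have hl : 0 < ell (D + G • A) := by
    have := riemann_inequality hF (D + G • A)
    rw [map_add, map_nsmul, hdeg, hA1, ← hG] at this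
    simp at this
    omega
  obtain ⟨z, hz0, hgz, hz⟩ := h.exists_fixed_vector hF (by rw [smul_add, hD, hAn]) hl
  have hmem : D + divOf hF z ∈ X := Finset.mem_image.2 ⟨D + G • A + divOf hF z,
    (h.finite_effSet hF G).mem_toFinset.2 ⟨hz, by rw [smul_add, smul_add, hD, hAn, divOf_smul, hgz],
      by rw [map_add, map_add, map_nsmul, hdeg, hA1, degree_divOf]; simp⟩, by abel⟩
  obtain ⟨E, hE, hEeq⟩ := himg _ hmem
  have hED : LinEquiv hF E D :=
    linEquiv_trans hF (Quotient.exact hEeq) (linEquiv_symm hF ⟨z, hz0, rfl⟩)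
  exact ⟨E, ⟨hE, hED⟩, fun E' hE' => hinj (Finset.mem_coe.2 hE'.1) (Finset.mem_coe.2 hE)
    (Quotient.sound (linEquiv_trans hF hE'.2 (linEquiv_symm hF hED)))⟩

end FA.CurveRH

end
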