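import Fermat.Agent.CurveRH.Bombieri
import Mathlib.FieldTheory.RatFunc.AsPolynomial
import Mathlib.FieldTheory.RatFunc.IntermediateField
import Mathlib.FieldTheory.Galois.Basic
import Mathlib.Algebra.Ring.GeomSum
import Mathlib.RingTheory.Polynomial.GaussLemma

/-!
# The fibres of the Galois closure over good abscissas

`E` is a splitting field over `K(X)` of `f ∈ K[X][Y]`. Over an abscissa `a` at which the leading
coefficient does not vanish and `f (a, Y)` is separable the values of the roots are the roots of
`f (a, Y)`, the Galois group acts simply transitively on the places.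
-/

set_option autoImplicit false
set_option linter.style.haveILetI false
set_option linter.unusedSectionVars false

noncomputable section

namespace FA.CurveRH

open AlgebraicCurve FA.ModField FA.Curve Polynomial IntermediateField

variable {K : Type*} [Field K] {E : Type*} [Field E] [Algebra K E] [Algebra (RatFunc K) E]
  [IsScalarTower K (RatFunc K) E]

variable (K E) in
/-- The abscissa. -/
def absc : E := algebraMap (RatFunc K) E RatFunc.X

/-- `f` with coefficients in `K(X)`. -/
def fRat (f : K[X][X]) : (RatFunc K)[X] := f.map (algebraMap K[X] (RatFunc K))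

theorem transcendental_absc : Transcendental K (absc K E) :=
  (transcendental_algebraMap_iff (algebraMap (RatFunc K) E).injective).2 RatFunc.transcendental_X

theorem algebraMap_poly (P : K[X]) :
    algebraMap (RatFunc K) E (algebraMap K[X] (RatFunc K) P) = aeval (absc K E) P := by
  rw [absc, aeval_algebraMap_apply, RatFunc.aeval_X_left_eq_algebraMap]

theorem fieldRange_eq : (IsScalarTower.toAlgHom K (RatFunc K) E).fieldRange = K⟮absc K E⟯ := by
  rw [AlgHom.fieldRange_eq_map]
  refine (congrArg _ RatFunc.adjoin_X.symm).trans ?_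
  rw [IntermediateField.adjoin_map, Set.image_singleton]
  rfl

/-- The rational functions as the field generated by the abscissa. -/
def abscEquiv : RatFunc K ≃ₐ[K] K⟮absc K E⟯ :=
  (AlgEquiv.ofInjectiveField (IsScalarTower.toAlgHom K (RatFunc K) E)).trans
    (IntermediateField.equivOfEq fieldRange_eq)

theorem abscEquiv_apply (a : RatFunc K) :
    (abscEquiv (E := E) a : E) = algebraMap (RatFunc K) E a := rfl

theorem finrank_absc : Module.finrank K⟮absc K E⟯ E = Module.finrank (RatFunc K) E :=
  (Algebra.finrank_eq_of_equiv_equiv (abscEquiv (E := E)).toRingEquiv (RingEquiv.refl E)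
    (RingHom.ext fun a => abscEquiv_apply a)).symm

theorem isFunctionField [FiniteDimensional (RatFunc K) E] : IsFunctionField K E :=
  ⟨absc K E, transcendental_absc, Module.finite_of_finrank_pos
    (finrank_absc (K := K) (E := E) ▸ Module.finrank_pos)⟩

theorem hasValue_mul {v : Place K E} {f g : E} {c d : K} (hf : HasValue v f c)
    (hg : HasValue v g d) : HasValue v (f * g) (c * d) := by
  rw [HasValue, map_mul, show f * g - algebraMap K E c * algebraMap K E d =
    (f - algebraMap K E c) * g + algebraMap K E c * (g - algebraMap K E d) by ring]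
  refine ((AtLeast.mul hf hg.atLeast).mono (by simp)).add ?_
  rw [mul_sub, ← map_mul]
  exact hg.smul c

theorem hasValue_pow {v : Place K E} {f : E} {c : K} (hf : HasValue v f c) (n : ℕ) :
    HasValue v (f ^ n) (c ^ n) := by
  induction n with
  | zero => simpa using hasValue_algebraMap v (1 : K)
  | succ n ih => rw [pow_succ, pow_succ]; exact hasValue_mul ih hf

theorem hasValue_sum {v : Place K E} {ι : Type*} (s : Finset ι) {f : ι → E} {c : ι → K}
    (h : ∀ i ∈ s, HasValue v (f i) (c i)) : HasValue v (∑ i ∈ s, f i) (∑ i ∈ s, c i) := by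
  rw [HasValue, map_sum, ← Finset.sum_sub_distrib]
  exact atLeast_sum h

theorem hasValue_aeval {v : Place K E} {f : E} {c : K} (hf : HasValue v f c) (P : K[X]) :
    HasValue v (aeval f P) (P.eval c) := by
  rw [aeval_eq_sum_range, eval_eq_sum_range]
  refine hasValue_sum _ fun i _ => ?_
  rw [Algebra.smul_def]
  exact hasValue_mul (hasValue_algebraMap v _) (hasValue_pow hf i)

theorem hasValue_smul {v : Place K E} {f : E} {c : K} (g : SemilinearAut K E)
    (hf : HasValue v f c) : HasValue (g • v) (g • f) (SemilinearAut.baseAut g c) := by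
  rcases hf with h | h
  · exact Or.inl (by rw [← SemilinearAut.smul_algebraMap, ← smul_sub, h, smul_zero])
  · exact Or.inr (by rwa [← SemilinearAut.smul_algebraMap, ← smul_sub, SemilinearAut.ord_smul])

/-- An automorphism of `E` over `K(X)`, on the places. -/
def galAut (τ : E ≃ₐ[RatFunc K] E) : SemilinearAut K E :=
  SemilinearAut.ofAlgAut (τ.restrictScalars K)

theorem galAut_smul (τ : E ≃ₐ[RatFunc K] E) (y : E) : galAut τ • y = τ y := rfl

theorem baseAut_galAut (τ : E ≃ₐ[RatFunc K] E) : SemilinearAut.baseAut (galAut τ) = 1 := rfl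

theorem galAut_one : galAut (1 : E ≃ₐ[RatFunc K] E) = 1 := Subtype.ext (by ext <;> rfl)

theorem galAut_mul (σ τ : E ≃ₐ[RatFunc K] E) : galAut (σ * τ) = galAut σ * galAut τ :=
  Subtype.ext (by ext <;> rfl)

theorem galAut_absc (τ : E ≃ₐ[RatFunc K] E) : galAut τ • absc K E = absc K E := τ.commutes _

theorem galAut_hasValue (τ : E ≃ₐ[RatFunc K] E) {a : K} {w : Place K E}
    (h : HasValue w (absc K E) a) : HasValue (galAut τ • w) (absc K E) a := by
  have := hasValue_smul (galAut τ) h
  rwa [galAut_absc, baseAut_galAut, RingAut.one_apply] at this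

/-- The roots of `f` in `E`. -/
def roots₂ (f : K[X][X]) : Finset E := letI := Classical.decEq E; ((fRat f).aroots E).toFinset

theorem mem_roots₂ {f : K[X][X]} (hf : f ≠ 0) {θ : E} :
    θ ∈ roots₂ f ↔
      ∑ i ∈ Finset.range (f.natDegree + 1), aeval (absc K E) (f.coeff i) * θ ^ i = 0 := by
  classical
  have hinj := IsFractionRing.injective K[X] (RatFunc K)
  rw [roots₂, Multiset.mem_toFinset, mem_aroots, aeval_eq_sum_range, fRat,
    natDegree_map_eq_of_injective hinj]
  simp only [coeff_map, Algebra.smul_def, algebraMap_poly, ne_eq,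
    (map_injective _ hinj).eq_iff' (Polynomial.map_zero _), hf, not_false_eq_true, true_and]

theorem galAut_mem_roots₂ {f : K[X][X]} (τ : E ≃ₐ[RatFunc K] E) {θ : E} (h : θ ∈ roots₂ f) :
    τ θ ∈ roots₂ (E := E) f := by
  classical
  rw [roots₂, Multiset.mem_toFinset, mem_aroots] at h ⊢
  exact ⟨h.1, by rw [aeval_algHom_apply τ, h.2, map_zero]⟩

variable (f : K[X][X])

/-- The leading coefficient does not vanish at `a` and `f (a, Y)` is separable. -/
def IsGood (a : K) : Prop :=
  f.leadingCoeff.eval a ≠ 0 ∧ (f.map (evalRingHom a)).Separable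

variable {f}

theorem natDegree_spec {a : K} (ha : IsGood f a) :
    (f.map (evalRingHom a)).natDegree = f.natDegree :=
  natDegree_map_of_leadingCoeff_ne_zero _ ha.1

theorem ne_zero_of_good {a : K} (ha : IsGood f a) : f ≠ 0 := by
  rintro rfl; simp [IsGood] at ha

theorem root_atLeast_zero {a : K} (ha : IsGood f a) {w : Place K E}
    (hw : HasValue w (absc K E) a) {θ : E} (hθ : θ ∈ roots₂ f) : AtLeast w 0 θ := by
  classical
  by_contra hneg
  rw [AtLeast, not_or, not_le] at hneg
  rw [mem_roots₂ (ne_zero_of_good ha), Finset.sum_range_succ] at hθ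
  have hlc : aeval (absc K E) f.leadingCoeff ≠ 0 ∧
      w.ord (aeval (absc K E) f.leadingCoeff) = 0 := by
    have h := hasValue_aeval hw f.leadingCoeff
    have h2 := ord_add_eq_left (v := w) (f := algebraMap K E (f.leadingCoeff.eval a))
      (by simpa using ha.1) (g := aeval (absc K E) f.leadingCoeff -
        algebraMap K E (f.leadingCoeff.eval a)) (by rw [place_ord_algebraMap, zero_add]; exact h)
    rw [add_sub_cancel, place_ord_algebraMap] at h2
    exact h2
  have hmain : f.leadingCoeff = f.coeff f.natDegree := rfl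
  rw [← hmain] at hθ
  have hne : aeval (absc K E) f.leadingCoeff * θ ^ f.natDegree ≠ 0 :=
    mul_ne_zero hlc.1 (pow_ne_zero _ hneg.1)
  have hord : w.ord (aeval (absc K E) f.leadingCoeff * θ ^ f.natDegree) =
      f.natDegree * w.ord θ := by
    rw [w.ord_mul hlc.1 (pow_ne_zero _ hneg.1), hlc.2, place_ord_pow, zero_add]
  have hrest : AtLeast w (w.ord (aeval (absc K E) f.leadingCoeff * θ ^ f.natDegree) + 1)
      (∑ i ∈ Finset.range f.natDegree, aeval (absc K E) (f.coeff i) * θ ^ i) := by
    refine atLeast_sum fun i hi => ?_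
    refine ((hasValue_aeval hw _).atLeast.mul (atLeast_pow (atLeast_ord θ) i)).mono ?_
    rw [hord, zero_add]
    have : (i : ℤ) + 1 ≤ f.natDegree := by exact_mod_cast Finset.mem_range.1 hi
    nlinarith
  exact (ord_add_eq_left hne hrest).1 (by rw [add_comm]; exact hθ)

theorem exists_value [IsAlgClosed K] [FiniteDimensional (RatFunc K) E] {a : K} (ha : IsGood f a)
    {w : Place K E} (hw : HasValue w (absc K E) a) {θ : E} (hθ : θ ∈ roots₂ f) :
    ∃ c, HasValue w θ c ∧ (f.map (evalRingHom a)).IsRoot c := by
  obtain ⟨c, hc⟩ := exists_hasValue isFunctionField (root_atLeast_zero ha hw hθ)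
  refine ⟨c, hc, ?_⟩
  rw [mem_roots₂ (ne_zero_of_good ha)] at hθ
  have h := hasValue_sum (Finset.range (f.natDegree + 1))
    fun i _ => hasValue_mul (hasValue_aeval hw (f.coeff i)) (hasValue_pow hc i)
  rw [hθ] at h
  have h0 : HasValue w (0 : E) (0 : K) := by simpa using hasValue_algebraMap w (0 : K)
  rw [IsRoot, eval_eq_sum_range, natDegree_spec ha]
  simpa [coeff_map, coe_evalRingHom] using h.unique h0

theorem value_injective {a : K} (ha : IsGood f a) {w : Place K E}
    (hw : HasValue w (absc K E) a) {θ θ' : E} (hθ : θ ∈ roots₂ f) (hθ' : θ' ∈ roots₂ f) {c : K}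
    (hc : HasValue w θ c) (hc' : HasValue w θ' c) (hroot : (f.map (evalRingHom a)).IsRoot c) :
    θ = θ' := by
  by_contra hne
  rw [mem_roots₂ (ne_zero_of_good ha)] at hθ hθ'
  have hdd : (∑ i ∈ Finset.range (f.natDegree + 1), aeval (absc K E) (f.coeff i) *
      ∑ j ∈ Finset.range i, θ ^ j * θ' ^ (i - 1 - j)) * (θ - θ') = 0 := by
    rw [Finset.sum_mul]
    rw [Finset.sum_congr rfl fun i _ => (mul_assoc _ _ _).trans (by rw [geom_sum₂_mul, mul_sub]),
      Finset.sum_sub_distrib, hθ, hθ', sub_zero]
  have hzero := (mul_eq_zero.1 hdd).resolve_right (sub_ne_zero.2 hne)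
  have h := hasValue_sum (Finset.range (f.natDegree + 1)) fun i _ =>
    hasValue_mul (hasValue_aeval hw (f.coeff i))
      (hasValue_sum (Finset.range i) fun j _ =>
        hasValue_mul (hasValue_pow hc j) (hasValue_pow hc' (i - 1 - j)))
  rw [hzero] at h
  have h0 : HasValue w (0 : E) (0 : K) := by simpa using hasValue_algebraMap w (0 : K)
  have hv := h.unique h0
  apply ha.2.aeval_derivative_ne_zero (x := c) (by simpa [IsRoot] using hroot)
  rw [aeval_def, eval₂_eq_sum_range' (R := K) _ (Nat.lt_succ_of_le
    ((natDegree_derivative_le _).trans ((Nat.sub_le _ _).trans (natDegree_spec ha).le)))]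
  rw [Finset.sum_range_succ'] at hv
  simp only [Finset.range_zero, Finset.sum_empty, mul_zero, add_zero] at hv
  rw [Finset.sum_range_succ]
  have htop : (derivative (f.map (evalRingHom a))).coeff f.natDegree = 0 := by
    rw [coeff_derivative, coeff_eq_zero_of_natDegree_lt (by rw [natDegree_spec ha]; omega),
      zero_mul]
  rw [htop, map_zero, zero_mul, add_zero, ← hv]
  refine Finset.sum_congr rfl fun i _ => ?_
  rw [Algebra.algebraMap_self_apply, coeff_derivative, coeff_map, coe_evalRingHom]
  have : ∀ j ∈ Finset.range (i + 1), c ^ j * c ^ (i + 1 - 1 - j) = c ^ i := fun j hj => by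
    rw [← pow_add]; congr 1; have := Finset.mem_range.1 hj; omega
  rw [Finset.sum_congr rfl this, Finset.sum_const, Finset.card_range, nsmul_eq_mul]
  push_cast
  ring

variable [IsAlgClosed K] [FiniteDimensional (RatFunc K) E]

/-- The value of a root at a place over a good abscissa (junk `0` elsewhere). -/
def rootValue (w : Place K E) (θ : E) : K :=
  letI := Classical.propDecidable (∃ c, HasValue w θ c)
  if h : ∃ c, HasValue w θ c then h.choose else 0

theorem rootValue_spec {a : K} (ha : IsGood f a) {w : Place K E}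
    (hw : HasValue w (absc K E) a) {θ : E} (hθ : θ ∈ roots₂ f) :
    HasValue w θ (rootValue w θ) ∧ (f.map (evalRingHom a)).IsRoot (rootValue w θ) := by
  classical
  obtain ⟨c, hc, hr⟩ := exists_value ha hw hθ
  have h : ∃ c, HasValue w θ c := ⟨c, hc⟩
  rw [rootValue, dif_pos h, h.choose_spec.unique hc]
  exact ⟨hc, hr⟩

/-- The values of the roots are all the roots of `f (a, Y)`, each once. -/
theorem rootValue_bijOn (hcard : f.natDegree ≤ (roots₂ (E := E) f).card) {a : K} (ha : IsGood f a)
    {w : Place K E} (hw : HasValue w (absc K E) a) :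
    Set.BijOn (rootValue w) (roots₂ f : Finset E) {c | (f.map (evalRingHom a)).IsRoot c} := by
  classical
  have hne : f.map (evalRingHom a) ≠ 0 := ha.2.ne_zero
  refine ⟨fun θ hθ => (rootValue_spec ha hw (Finset.mem_coe.1 hθ)).2, fun θ hθ θ' hθ' e => ?_, ?_⟩
  · have h1 := rootValue_spec ha hw (Finset.mem_coe.1 hθ)
    have h2 := rootValue_spec ha hw (Finset.mem_coe.1 hθ')
    exact value_injective ha hw hθ hθ' h1.1 (e ▸ h2.1) h1.2
  · intro c hc
    have hsub : (roots₂ (E := E) f).image (rootValue w) ⊆
        (f.map (evalRingHom a)).roots.toFinset := fun d hd => by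
      obtain ⟨θ, hθ, rfl⟩ := Finset.mem_image.1 hd
      exact Multiset.mem_toFinset.2 ((mem_roots hne).2 (rootValue_spec ha hw hθ).2)
    have hinj : Set.InjOn (rootValue w) (roots₂ f : Finset E) := fun θ hθ θ' hθ' e => by
      have h1 := rootValue_spec ha hw (Finset.mem_coe.1 hθ)
      have h2 := rootValue_spec ha hw (Finset.mem_coe.1 hθ')
      exact value_injective ha hw hθ hθ' h1.1 (e ▸ h2.1) h1.2
    have heq := Finset.eq_of_subset_of_card_le hsub (by
      rw [Finset.card_image_of_injOn hinj]
      exact (Multiset.toFinset_card_le _).trans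
        ((card_roots' _).trans ((natDegree_spec ha).le.trans hcard)))
    have hc' : c ∈ (roots₂ (E := E) f).image (rootValue w) :=
      heq ▸ Multiset.mem_toFinset.2 ((mem_roots hne).2 hc)
    obtain ⟨θ, hθ, e⟩ := Finset.mem_image.1 hc'
    exact ⟨θ, hθ, e⟩

variable (K E) in
/-- The places over an abscissa. -/
def fibre (a : K) : Finset (Place K E) :=
  (finite_zeros (isFunctionField (K := K) (E := E)) (absc K E - algebraMap K E a)).toFinset

theorem mem_fibre {a : K} {w : Place K E} : w ∈ fibre K E a ↔ HasValue w (absc K E) a := by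
  rw [fibre, Set.Finite.mem_toFinset, Set.mem_ofPred_eq, HasValue, atLeast_iff]
  · omega
  · exact sub_ne_zero.2 fun h =>
      transcendental_absc (K := K) (E := E) (h ▸ isAlgebraic_algebraMap a)

theorem fibre_nonempty (a : K) : (fibre K E a).Nonempty := by
  obtain ⟨v, hv⟩ := exists_ord_eq_one_zero (isFunctionField (K := K) (E := E)) a transcendental_absc
  exact ⟨v, (Set.Finite.mem_toFinset _).2 hv⟩

theorem card_fibre_le (a : K) :
    (fibre K E a).card ≤ Module.finrank (RatFunc K) E := by
  set t := absc K E - algebraMap K E a with ht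
  have htr : Transcendental K t := fun h =>
    transcendental_absc (K := K) (E := E) (by simpa [ht] using h.add (isAlgebraic_algebraMap a))
  have hadj : K⟮t⟯ = K⟮absc K E⟯ := by
    refine le_antisymm ?_ ?_ <;> rw [IntermediateField.adjoin_le_iff, Set.singleton_subset_iff]
    · exact sub_mem (mem_adjoin_simple_self K _) (IntermediateField.algebraMap_mem _ a)
    · have := add_mem (mem_adjoin_simple_self K t) (IntermediateField.algebraMap_mem K⟮t⟯ a)
      rwa [ht, sub_add_cancel] at this
  have hpos : ∀ v ∈ fibre K E a, 0 < v.ord t := fun v hv =>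
    (Set.Finite.mem_toFinset (hs := finite_zeros (isFunctionField (K := K) (E := E)) t)).1 hv
  have h := sum_ord_le_finrank (isFunctionField (K := K) (E := E)) htr (fibre K E a) hpos
  rw [hadj, finrank_absc] at h
  have h1 : ((fibre K E a).card : ℤ) ≤ ∑ v ∈ fibre K E a, v.ord t := by
    rw [Finset.card_eq_sum_ones, Nat.cast_sum]
    exact Finset.sum_le_sum fun v hv => by have := hpos v hv; push_cast; omega
  omega

/-- The Galois group acts simply transitively on a good fibre. -/
theorem fibre_simply_transitive [IsGalois (RatFunc K) E]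
    (hgen : Algebra.adjoin (RatFunc K) ((roots₂ f : Finset E) : Set E) = ⊤)
    {a : K} (ha : IsGood f a) {w w' : Place K E}
    (hw : w ∈ fibre K E a) (hw' : w' ∈ fibre K E a) :
    ∃! τ : E ≃ₐ[RatFunc K] E, galAut τ • w = w' := by
  classical
  have hmem : ∀ τ : E ≃ₐ[RatFunc K] E, galAut τ • w ∈ fibre K E a := fun τ => by
    rw [mem_fibre] at hw ⊢
    exact galAut_hasValue τ hw
  have hfree : ∀ τ : E ≃ₐ[RatFunc K] E, galAut τ • w = w → τ = 1 := by
    intro τ hτ
    rw [mem_fibre] at hw
    have h : ∀ θ ∈ roots₂ (E := E) f, τ θ = θ := fun θ hθ => by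
      obtain ⟨c, hc, hr⟩ := exists_value ha hw hθ
      have h2 := hasValue_smul (galAut τ) hc
      rw [hτ, galAut_smul, baseAut_galAut, RingAut.one_apply] at h2
      exact value_injective ha hw (galAut_mem_roots₂ τ hθ) hθ h2 hc hr
    have e : (τ : E →ₐ[RatFunc K] E) = AlgHom.id (RatFunc K) E :=
      AlgHom.ext_of_adjoin_eq_top hgen fun θ hθ => h θ hθ
    exact AlgEquiv.ext fun y => AlgHom.congr_fun e y
  have hinj : Function.Injective fun τ : E ≃ₐ[RatFunc K] E => galAut τ • w := fun σ τ e => by
    have h1 : galAut (τ⁻¹ * σ) • w = w := by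
      have : galAut σ • w = galAut τ • w := e
      rw [galAut_mul, mul_smul, this, ← mul_smul, ← galAut_mul, inv_mul_cancel, galAut_one,
        one_smul]
    exact (inv_mul_eq_one.1 (hfree _ h1)).symm
  have heq : Finset.univ.image (fun τ : E ≃ₐ[RatFunc K] E => galAut τ • w) = fibre K E a := by
    refine Finset.eq_of_subset_of_card_le (fun v hv => ?_) ?_
    · obtain ⟨τ, -, rfl⟩ := Finset.mem_image.1 hv
      exact hmem τ
    · rw [Finset.card_image_of_injective _ hinj, Finset.card_univ, ← Nat.card_eq_fintype_card,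
        IsGalois.card_aut_eq_finrank]
      exact card_fibre_le a
  rw [← heq] at hw'
  obtain ⟨τ, -, hτ⟩ := Finset.mem_image.1 hw'
  exact ⟨τ, hτ, fun σ hσ => hinj (hσ.trans hτ.symm)⟩

theorem card_fibre [IsGalois (RatFunc K) E]
    (hgen : Algebra.adjoin (RatFunc K) ((roots₂ f : Finset E) : Set E) = ⊤)
    {a : K} (ha : IsGood f a) : (fibre K E a).card = Nat.card (E ≃ₐ[RatFunc K] E) := by
  classical
  obtain ⟨w, hw⟩ := fibre_nonempty (K := K) (E := E) a
  rw [← Nat.card_eq_finsetCard]
  refine (Nat.card_congr (Equiv.ofBijective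
    (fun τ : E ≃ₐ[RatFunc K] E => (⟨galAut τ • w, ?_⟩ : fibre K E a)) ⟨?_, ?_⟩)).symm
  · rw [mem_fibre] at hw ⊢
    exact galAut_hasValue τ hw
  · intro σ τ e
    have e' : galAut σ • w = galAut τ • w := congrArg Subtype.val e
    have hmem : galAut τ • w ∈ fibre K E a := by
      rw [mem_fibre] at hw ⊢
      exact galAut_hasValue τ hw
    exact (fibre_simply_transitive hgen ha hw hmem).unique e' rfl
  · rintro ⟨v, hv⟩
    obtain ⟨τ, hτ, -⟩ := fibre_simply_transitive hgen ha hw hv
    exact ⟨τ, Subtype.ext hτ⟩

end FA.CurveRH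

end
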