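import Fermat.Agent.Curve.Genus
import Fermat.Agent.Curve.Value
import Fermat.Prelude.Def_AlgebraicCurve_BaseChangeGalois
import Mathlib.Dynamics.PeriodicPts.Defs
import Mathlib.GroupTheory.GroupAction.Period

/-!
# Effective divisors fixed by Frobenius

For a semilinear automorphism `g` that raises constants to the `q`th power and fixes some power of
every function: `n E_n = ∑ N_m E_(n - m)`, with `E_n` the number of fixed effective divisors of
degree `n` and `N_m` the number of places fixed by `g ^ m`.
-/

set_option autoImplicit false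
set_option linter.style.haveILetI false
set_option linter.unusedSectionVars false

noncomputable section

namespace FA.CurveRH

open AlgebraicCurve FA.ModField FA.Curve

variable {K F : Type*} [Field K] [Field F] [Algebra K F] [IsAlgClosed K]

/-- A function field with a Frobenius: constants are raised to the `q`th power and every
function is fixed by some power; the constants fixed by the `j`th power number `q ^ j`. -/
structure IsFrobenius (g : SemilinearAut K F) (q : ℕ) : Prop where
  one_lt : 1 < q
  baseAut_apply : ∀ a, SemilinearAut.baseAut g a = a ^ q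
  periodic : ∀ f : F, ∃ j, 0 < j ∧ g ^ j • f = f
  card_const : ∀ j, 0 < j → {a : K | a ^ q ^ j = a}.ncard = q ^ j

variable {g : SemilinearAut K F} {q : ℕ}

theorem IsFrobenius.baseAut_pow (h : IsFrobenius g q) (m : ℕ) (a : K) :
    SemilinearAut.baseAut (g ^ m) a = a ^ q ^ m := by
  induction m generalizing a with
  | zero => simp
  | succ m ih =>
    rw [pow_succ, SemilinearAut.baseAut_mul]
    show SemilinearAut.baseAut (g ^ m) (SemilinearAut.baseAut g a) = _
    rw [ih, h.baseAut_apply, ← pow_mul, ← pow_succ']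

theorem smul_pow_mul {α : Type*} [MulAction (SemilinearAut K F) α] {j : ℕ} {x : α}
    (h : g ^ j • x = x) (k : ℕ) : g ^ (j * k) • x = x := by
  induction k with
  | zero => simp
  | succ k ih => rw [Nat.mul_succ, pow_add, mul_smul, h, ih]

variable (hF : IsFunctionField K F)

include hF in
/-- Every place is periodic. -/
theorem IsFrobenius.periodic_place (h : IsFrobenius g q) (v : Place K F) :
    ∃ j, 0 < j ∧ g ^ j • v = v := by
  obtain ⟨f, hv, hw⟩ := exists_pole_only hF v
  obtain ⟨j, hj, hf⟩ := h.periodic f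
  refine ⟨j, hj, ?_⟩
  by_contra hne
  have h1 := SemilinearAut.ord_smul (g ^ j) v f
  rw [hf] at h1
  have := hw _ hne
  omega

include hF in
/-- Finitely many places are fixed by a power of Frobenius. -/
theorem IsFrobenius.finite_fixed (h : IsFrobenius g q) {m : ℕ} (hm : 0 < m) :
    {v : Place K F | g ^ m • v = v}.Finite := by
  classical
  obtain ⟨x, hx, -⟩ := id hF
  obtain ⟨e, he, hxe⟩ := h.periodic x
  have hQ : 1 < q ^ (m * e) := Nat.one_lt_pow (Nat.mul_pos hm he).ne' h.one_lt
  have hpol : (Polynomial.X ^ q ^ (m * e) - Polynomial.X : Polynomial K) ≠ 0 :=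
    FiniteField.X_pow_card_sub_X_ne_zero K hQ
  refine (((Polynomial.finite_setOfPred_isRoot hpol).biUnion fun a _ =>
    finite_zeros hF (x - algebraMap K F a)).union (finite_zeros hF x⁻¹)).subset fun v hv => ?_
  by_cases hpole : v.ord x < 0
  · exact Or.inr (by rw [Set.mem_ofPred_eq, v.ord_inv]; omega)
  obtain ⟨a, ha⟩ := exists_hasValue hF (Or.inr (not_lt.1 hpole) : AtLeast v 0 x)
  refine Or.inl ?_
  simp only [Set.mem_iUnion, Set.mem_ofPred_eq, exists_prop]
  have hne : x - algebraMap K F a ≠ 0 :=
    sub_ne_zero.2 fun e => hx (e ▸ isAlgebraic_algebraMap a)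
  refine ⟨a, ?_, by have := (atLeast_iff hne).1 ha; omega⟩
  have h1 : AtLeast (g ^ (m * e) • v) 1 (g ^ (m * e) • (x - algebraMap K F a)) := by
    rcases ha with h0 | h0
    · exact Or.inl (by rw [h0, smul_zero])
    · exact Or.inr (by rwa [SemilinearAut.ord_smul])
  have hxme : g ^ (m * e) • x = x := by rw [mul_comm]; exact smul_pow_mul hxe m
  rw [smul_pow_mul hv e, smul_sub, hxme, SemilinearAut.smul_algebraMap, h.baseAut_pow] at h1
  simp [HasValue.unique (P := v) (f := x) h1 ha]

/-! ### Orbits -/

variable (g) in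
/-- The period of a place. -/
def period (v : Place K F) : ℕ := MulAction.period g v

theorem pow_smul_eq_iff {m : ℕ} {v : Place K F} : g ^ m • v = v ↔ period g v ∣ m :=
  MulAction.pow_smul_eq_iff_period_dvd

include hF in
theorem IsFrobenius.period_pos (h : IsFrobenius g q) (v : Place K F) : 0 < period g v := by
  obtain ⟨j, hj, hjv⟩ := h.periodic_place hF v
  exact Nat.pos_of_dvd_of_pos (pow_smul_eq_iff.1 hjv) hj

theorem injOn_orbit (v : Place K F) :
    Set.InjOn (fun i : ℕ => g ^ i • v) (Finset.range (period g v)) := by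
  intro i hi j hj hij
  wlog hle : i ≤ j generalizing i j
  · exact (this hj hi hij.symm (by omega)).symm
  obtain ⟨d, rfl⟩ := Nat.exists_eq_add_of_le hle
  have hd : g ^ d • v = v := by
    have h1 : g ^ i • v = g ^ i • g ^ d • v := by rw [← mul_smul, ← pow_add]; exact hij
    exact (MulAction.injective (g ^ i) h1).symm
  simp only [Finset.coe_range, Set.mem_Iio] at hi hj
  rcases Nat.eq_zero_or_pos d with rfl | hd0
  · simp
  · have := Nat.le_of_dvd hd0 (pow_smul_eq_iff.1 hd)
    omega

variable (g) in
/-- The orbit of a place as a divisor. -/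
def orbitDiv (v : Place K F) : Divisor K F :=
  ∑ i ∈ Finset.range (period g v), Finsupp.single (g ^ i • v) 1

include hF in
theorem degree_orbitDiv (v : Place K F) : Divisor.degree (orbitDiv g v) = period g v := by
  simp [orbitDiv, map_sum, Divisor.degree_single, hF.deg_eq_one]

theorem orbitDiv_apply_self {v : Place K F} (_hv : 0 < period g v) {i : ℕ}
    (hi : i < period g v) : orbitDiv g v (g ^ i • v) = 1 := by
  classical
  rw [orbitDiv, Finset.sum_apply', Finset.sum_eq_single i (fun j hj hji => Finsupp.single_eq_of_ne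
    fun e => hji (injOn_orbit v hj (Finset.mem_coe.2 (Finset.mem_range.2 hi)) e.symm))
    (fun h => absurd (Finset.mem_range.2 hi) h), Finsupp.single_eq_same]

theorem orbitDiv_apply_cases (v w : Place K F) (hv : 0 < period g v) :
    (orbitDiv g v w = 0) ∨ ∃ i < period g v, w = g ^ i • v ∧ orbitDiv g v w = 1 := by
  classical
  by_cases h : ∃ i < period g v, w = g ^ i • v
  · obtain ⟨i, hi, rfl⟩ := h
    exact Or.inr ⟨i, hi, rfl, orbitDiv_apply_self hv hi⟩
  · push Not at h
    refine Or.inl ?_
    rw [orbitDiv, Finset.sum_apply']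
    exact Finset.sum_eq_zero fun i hi => Finsupp.single_eq_of_ne (h i (Finset.mem_range.1 hi))

theorem orbitDiv_nonneg (v : Place K F) : 0 ≤ orbitDiv g v :=
  Finset.sum_nonneg fun _ _ => Finsupp.single_nonneg.2 zero_le_one

theorem smul_orbitDiv {v : Place K F} (hv : 0 < period g v) :
    g • orbitDiv g v = orbitDiv g v := by
  obtain ⟨p, hp⟩ : ∃ p, period g v = p + 1 := ⟨period g v - 1, by omega⟩
  rw [orbitDiv, Finset.smul_sum, hp]
  simp only [SemilinearAut.smul_single, ← mul_smul, ← pow_succ']
  rw [Finset.sum_range_succ, Finset.sum_range_succ' (fun i => Finsupp.single (g ^ i • v) (1 : ℤ))]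
  rw [← hp, pow_smul_eq_iff.2 dvd_rfl, pow_zero, one_smul]

theorem apply_pow_smul {D : Divisor K F} (hD : g • D = D) (i : ℕ) (v : Place K F) :
    D (g ^ i • v) = D v := by
  induction i with
  | zero => simp
  | succ i ih =>
    rw [pow_succ', mul_smul]
    conv_lhs => rw [← hD]
    rw [SemilinearAut.divisor_smul_apply_smul, ih]

/-! ### The effective divisors -/

variable (g) in
/-- The fixed effective divisors of degree `n`. -/
def effSet (n : ℕ) : Set (Divisor K F) :=
  {D | 0 ≤ D ∧ g • D = D ∧ Divisor.degree D = n}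

include hF in
theorem IsFrobenius.finite_effSet (h : IsFrobenius g q) (n : ℕ) : (effSet g n).Finite := by
  classical
  set S := (h.finite_fixed hF (Nat.factorial_pos n)).toFinset
  have hsub : effSet g n ⊆ Finset.finsupp S (fun _ => Finset.Icc (0 : ℤ) n) := by
    rintro D ⟨h0, hfix, hdeg⟩
    have hle : ∀ v, D v ≤ n := fun v => by
      rw [← hdeg]
      have h1 : Finsupp.single v (D v) ≤ D := Finsupp.le_def.2 fun w => by
        rcases eq_or_ne w v with rfl | hw
        · rw [Finsupp.single_eq_same]
        · rw [Finsupp.single_eq_of_ne hw]; exact Finsupp.le_def.1 h0 w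
      have := degree_mono hF h1
      rwa [Divisor.degree_single, hF.deg_eq_one, Nat.cast_one, mul_one] at this
    rw [Finset.mem_coe, Finset.mem_finsupp_iff]
    refine ⟨fun v hv => ?_, fun v _ => Finset.mem_Icc.2 ⟨Finsupp.le_def.1 h0 v, hle v⟩⟩
    rw [Set.Finite.mem_toFinset, Set.mem_ofPred_eq, pow_smul_eq_iff]
    refine Nat.dvd_factorial (h.period_pos hF v) ?_
    have h1 : orbitDiv g v ≤ D := Finsupp.le_def.2 fun w => by
      rcases orbitDiv_apply_cases v w (h.period_pos hF v) with e | ⟨i, -, rfl, e⟩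
      · rw [e]; exact Finsupp.le_def.1 h0 w
      · rw [e, apply_pow_smul hfix]
        have := Finsupp.le_def.1 h0 v
        have := Finsupp.mem_support_iff.1 hv
        simp only [Finsupp.coe_zero, Pi.zero_apply] at *
        omega
    have := degree_mono hF h1
    rw [degree_orbitDiv hF, hdeg] at this
    exact_mod_cast this
  exact (Finset.finite_toSet _).subset hsub

variable (g) in
/-- The number of fixed effective divisors of degree `n`. -/
def effCount (n : ℕ) : ℕ := (effSet g n).ncard

variable (g) in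
/-- The number of places fixed by `g ^ m`. -/
def fixedCount (m : ℕ) : ℕ := {v : Place K F | g ^ m • v = v}.ncard

include hF in
theorem effCount_zero : effCount g 0 = 1 := by
  rw [effCount, show effSet g 0 = {(0 : Divisor K F)} from ?_, Set.ncard_singleton]
  ext D
  refine ⟨fun ⟨h0, _, hdeg⟩ => ?_, fun e => ?_⟩
  · rw [Set.mem_singleton_iff]
    ext v
    rw [degree_eq_sum hF, Finsupp.sum, Nat.cast_zero, Finset.sum_eq_zero_iff_of_nonneg
      (fun u _ => Finsupp.le_def.1 h0 u)] at hdeg
    by_contra hne
    exact hne (hdeg v (Finsupp.mem_support_iff.2 hne))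
  · rw [Set.mem_singleton_iff] at e
    subst e
    exact ⟨le_rfl, smul_zero _, by simp⟩

include hF in
/-- **Euler's recursion.** -/
theorem IsFrobenius.mul_effCount (h : IsFrobenius g q) (n : ℕ) :
    n * effCount g n = ∑ m ∈ Finset.Icc 1 n, fixedCount g m * effCount g (n - m) := by
  classical
  set T : Finset (Σ _ : Divisor K F, Σ _ : Place K F, ℕ) :=
    (h.finite_effSet hF n).toFinset.sigma
      fun D => D.support.sigma fun v => Finset.Icc 1 (D v).toNat with hT
  have hcard : T.card = n * effCount g n := by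
    rw [hT, Finset.card_sigma, effCount, Set.ncard_eq_toFinset_card _ (h.finite_effSet hF n),
      mul_comm, ← smul_eq_mul, ← Finset.sum_const]
    refine Finset.sum_congr rfl fun D hD => ?_
    obtain ⟨h0, -, hdeg⟩ := (h.finite_effSet hF n).mem_toFinset.1 hD
    rw [Finset.card_sigma]
    simp only [Nat.card_Icc, add_tsub_cancel_right]
    rw [degree_eq_sum hF, Finsupp.sum] at hdeg
    zify
    rw [← hdeg]
    exact Finset.sum_congr rfl fun v _ => Int.toNat_of_nonneg (Finsupp.le_def.1 h0 v)
  set U : Finset (Σ _ : ℕ, Place K F × Divisor K F) := (Finset.Icc 1 n).sigma fun m =>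
    (if hm : 0 < m then (h.finite_fixed hF hm).toFinset else ∅) ×ˢ
      (h.finite_effSet hF (n - m)).toFinset with hU
  have hcardU : U.card = ∑ m ∈ Finset.Icc 1 n, fixedCount g m * effCount g (n - m) := by
    rw [hU, Finset.card_sigma]
    refine Finset.sum_congr rfl fun m hm => ?_
    have hm0 : 0 < m := (Finset.mem_Icc.1 hm).1
    rw [Finset.card_product, dif_pos hm0, fixedCount, effCount,
      Set.ncard_eq_toFinset_card _ (h.finite_fixed hF hm0),
      Set.ncard_eq_toFinset_card _ (h.finite_effSet hF (n - m))]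
  rw [← hcard, ← hcardU]
  have hdeg : ∀ (v : Place K F) (i : ℕ),
      Divisor.degree (i • orbitDiv g v) = ((i * period g v : ℕ) : ℤ) := fun v i => by
    rw [map_nsmul, degree_orbitDiv hF, nsmul_eq_mul]
    push_cast; rfl
  refine Finset.card_bij' (fun a _ => ⟨a.2.2 * period g a.2.1,
      (a.2.1, a.1 - a.2.2 • orbitDiv g a.2.1)⟩)
    (fun b _ => ⟨b.2.2 + (b.1 / period g b.2.1) • orbitDiv g b.2.1,
      ⟨b.2.1, b.1 / period g b.2.1⟩⟩) ?_ ?_ ?_ ?_
  · rintro ⟨D, v, i⟩ ha
    simp only [hT, Finset.mem_sigma, Set.Finite.mem_toFinset, Finset.mem_Icc] at ha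
    obtain ⟨⟨h0, hfix, hD⟩, hv, hi1, hi⟩ := ha
    have hp := h.period_pos hF v
    have hsub : i • orbitDiv g v ≤ D := Finsupp.le_def.2 fun w => by
      rw [Finsupp.smul_apply, nsmul_eq_mul]
      rcases orbitDiv_apply_cases v w hp with e | ⟨j, -, rfl, e⟩
      · rw [e, mul_zero]; exact Finsupp.le_def.1 h0 w
      · rw [e, mul_one, apply_pow_smul hfix]; omega
    have hle : i * period g v ≤ n := by
      have := degree_mono hF hsub
      rw [hdeg, hD] at this
      exact_mod_cast this
    have hm : 0 < i * period g v := Nat.mul_pos hi1 hp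
    simp only [hU, Finset.mem_sigma, Finset.mem_Icc, Finset.mem_product, dif_pos hm,
      Set.Finite.mem_toFinset]
    refine ⟨⟨hm, hle⟩, pow_smul_eq_iff.2 (dvd_mul_left _ _), sub_nonneg.2 hsub, ?_, ?_⟩
    · rw [smul_sub, hfix, smul_comm, smul_orbitDiv hp]
    · rw [map_sub, hdeg, hD, Nat.cast_sub hle]
  · rintro ⟨m, v, D⟩ hb
    simp only [hU, Finset.mem_sigma, Finset.mem_Icc, Finset.mem_product] at hb
    obtain ⟨⟨hm1, hmn⟩, hv, hD⟩ := hb
    rw [dif_pos (show 0 < m from hm1),
      Set.Finite.mem_toFinset, Set.mem_ofPred_eq, pow_smul_eq_iff] at hv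
    obtain ⟨h0, hfix, hDdeg⟩ := (Set.Finite.mem_toFinset _).1 hD
    have hp := h.period_pos hF v
    have hi : 1 ≤ m / period g v := Nat.div_pos (Nat.le_of_dvd hm1 hv) hp
    simp only [hT, Finset.mem_sigma, Set.Finite.mem_toFinset, Finset.mem_Icc]
    have hvv : orbitDiv g v v = 1 := by simpa using orbitDiv_apply_self hp hp
    have hDv : (0 : ℤ) ≤ D v := Finsupp.le_def.1 h0 v
    have happ : (D + (m / period g v) • orbitDiv g v) v = D v + (m / period g v : ℕ) := by
      rw [Finsupp.add_apply, Finsupp.smul_apply, hvv, nsmul_one]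
    refine ⟨⟨add_nonneg h0 (nsmul_nonneg (orbitDiv_nonneg v) _), ?_, ?_⟩, ?_, hi, ?_⟩
    · rw [smul_add, hfix, smul_comm, smul_orbitDiv hp]
    · rw [map_add, hdeg, hDdeg, Nat.div_mul_cancel hv, Nat.cast_sub hmn]
      ring
    · rw [Finsupp.mem_support_iff, happ]; omega
    · rw [happ]; omega
  · rintro ⟨D, v, i⟩ -
    have hp := h.period_pos hF v
    simp [Nat.mul_div_cancel _ hp]
  · rintro ⟨m, v, D⟩ hb
    simp only [hU, Finset.mem_sigma, Finset.mem_Icc, Finset.mem_product] at hb
    obtain ⟨⟨hm1, -⟩, hv, -⟩ := hb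
    rw [dif_pos (show 0 < m from hm1),
      Set.Finite.mem_toFinset, Set.mem_ofPred_eq, pow_smul_eq_iff] at hv
    simp [Nat.div_mul_cancel hv]

end FA.CurveRH

end
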