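import Fermat.Agent.CurveRH.Count
import Mathlib.Algebra.Polynomial.Bivariate
import Mathlib.Algebra.Polynomial.Expand
import Mathlib.FieldTheory.Finite.Extension
import Mathlib.Analysis.SpecialFunctions.Pow.Real
import Mathlib.Algebra.MvPolynomial.Rename
import Mathlib.Analysis.Complex.Basic

/-!
# The Riemann hypothesis for absolutely irreducible plane curves over a finite field

Interchanging the variables if needed the curve is separable over the abscissas; the fixed points
of the powers of Frobenius are its points in the extensions of the finite field.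
-/

set_option autoImplicit false
set_option linter.style.haveILetI false

noncomputable section

namespace FA.CurveRH

open Polynomial Polynomial.Bivariate

variable {K : Type*} [Field K]

theorem coeff_coeff_swap (g : K[X][X]) : ∀ n m : ℕ,
    ((Bivariate.swap g).coeff m).coeff n = (g.coeff n).coeff m := by
  induction g using Polynomial.induction_on' with
  | add a b ha hb => intro n m; simp [map_add, ha n m, hb n m]
  | monomial i P =>
    induction P using Polynomial.induction_on' with
    | add a b ha hb => intro n m; simp [map_add, ha n m, hb n m]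
    | monomial j r =>
      intro n m
      rw [Bivariate.swap_monomial_monomial, coeff_monomial, coeff_monomial]
      split_ifs with h1 h2 h2 <;> simp_all [coeff_monomial]

/-- An irreducible polynomial in two variables is separable in one of them. -/
theorem derivative_or_swap_ne_zero [IsAlgClosed K] (p : ℕ) [Fact p.Prime] [CharP K p]
    {g : K[X][X]} (hirr : Irreducible g) :
    derivative g ≠ 0 ∨ derivative (Bivariate.swap g) ≠ 0 := by
  by_contra h
  push Not at h
  obtain ⟨h1, h2⟩ := h
  haveI : ExpChar K p := ExpChar.prime (Fact.out : p.Prime)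
  have hp := (Fact.out : p.Prime).ne_zero
  have hcoef : ∀ n, derivative (g.coeff n) = 0 := fun n => Polynomial.ext fun m => by
    have e : ((derivative (Bivariate.swap g)).coeff m).coeff n = 0 := by simp [h2]
    rw [coeff_derivative, ← Nat.cast_succ, ← C_eq_natCast, coeff_mul_C, coeff_coeff_swap] at e
    rw [coeff_derivative, ← Nat.cast_succ, coeff_zero]
    exact e
  have hroot : ∀ n, ∃ c : K[X], c ^ p = g.coeff n := fun n =>
    ⟨(contract p (g.coeff n)).map (frobeniusEquiv K p).symm.toRingHom, by
      rw [← Polynomial.map_frobenius_expand, map_expand, map_map,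
        show (frobenius K p).comp (frobeniusEquiv K p).symm.toRingHom = RingHom.id K from
          RingHom.ext fun a => frobenius_apply_frobeniusEquiv_symm K p a,
        Polynomial.map_id, expand_contract p (hcoef n) hp]⟩
  choose c hc using hroot
  obtain ⟨H, hH⟩ : ∃ H : K[X][X],
      H = ∑ i ∈ Finset.range (g.natDegree + 1), C (c (i * p)) * X ^ i := ⟨_, rfl⟩
  have hg : g = H ^ p := by
    haveI : ExpChar K[X] p := ExpChar.prime (Fact.out : p.Prime)
    rw [← Polynomial.map_frobenius_expand, map_expand]
    conv_lhs => rw [← expand_contract p h1 hp]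
    congr 1
    ext1 i
    rw [coeff_contract hp, coeff_map, hH, finsetSum_coeff]
    simp only [coeff_C_mul_X_pow, Finset.sum_ite_eq, Finset.mem_range]
    split_ifs with hi
    · rw [frobenius_def, hc]
    · rw [map_zero]
      refine coeff_eq_zero_of_natDegree_lt ?_
      have : i ≤ i * p := Nat.le_mul_of_pos_right i (Nat.pos_of_ne_zero hp)
      omega
  exact not_irreducible_pow (Fact.out : p.Prime).ne_one (hg ▸ hirr)

/-- A polynomial in two variables as a polynomial in the second. -/
def toBi (f : MvPolynomial (Fin 2) K) : K[X][X] := (equivMvPolynomial K).symm f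

theorem eval_toBi (f : MvPolynomial (Fin 2) K) (a b : K) :
    ((toBi f).map (evalRingHom a)).eval b = MvPolynomial.eval ![a, b] f := by
  induction f using MvPolynomial.induction_on with
  | C r => simp [toBi]
  | add u v hu hv => simp only [toBi, map_add, Polynomial.map_add, eval_add] at hu hv ⊢; rw [hu, hv]
  | mul_X u i hu =>
    simp only [toBi, map_mul, Polynomial.map_mul, eval_mul, MvPolynomial.eval_X] at hu ⊢
    rw [hu]
    fin_cases i <;> simp

theorem toBi_map (f : MvPolynomial (Fin 2) K) (σ : K →+* K) :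
    (toBi f).map (mapRingHom σ) = toBi (f.map σ) := by
  induction f using MvPolynomial.induction_on with
  | C r => simp [toBi]
  | add u v hu hv => simp only [toBi, map_add, Polynomial.map_add] at hu hv ⊢; rw [hu, hv]
  | mul_X u i hu =>
    simp only [toBi, map_mul, Polynomial.map_mul, MvPolynomial.map_X] at hu ⊢
    rw [hu]
    fin_cases i <;> simp

theorem swap_toBi (f : MvPolynomial (Fin 2) K) :
    Bivariate.swap (toBi f) = toBi (MvPolynomial.rename (Equiv.swap 0 1) f) := by
  induction f using MvPolynomial.induction_on with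
  | C r => simp [toBi, Bivariate.swap_C_C]
  | add u v hu hv => simp only [toBi, map_add] at hu hv ⊢; rw [hu, hv]
  | mul_X u i hu =>
    simp only [toBi, map_mul, MvPolynomial.rename_X] at hu ⊢
    rw [hu]
    fin_cases i <;> simp [Bivariate.swap_X, Bivariate.swap_Y]

theorem natCard_points (f : MvPolynomial (Fin 2) K) {Q : ℕ} (hQ : 1 < Q) :
    Nat.card {x : Fin 2 → K // (∀ i, x i ^ Q = x i) ∧ MvPolynomial.eval x f = 0} =
      pointCount (toBi f) Q := by
  classical
  have h1 : pointCount (toBi f) Q =
      ((rat Q ×ˢ rat Q).filter fun ab : K × K => MvPolynomial.eval ![ab.1, ab.2] f = 0).card := by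
    simp only [pointCount, pointsOn, Finset.card_filter, Finset.sum_product, IsRoot, eval_toBi]
  have hmem : ∀ ab : K × K,
      (ab ∈ (rat Q ×ˢ rat Q).filter fun ab : K × K => MvPolynomial.eval ![ab.1, ab.2] f = 0) ↔
        ab.1 ^ Q = ab.1 ∧ ab.2 ^ Q = ab.2 ∧ MvPolynomial.eval ![ab.1, ab.2] f = 0 := fun ab => by
    rw [Finset.mem_filter, Finset.mem_product, mem_rat hQ, mem_rat hQ, and_assoc]
  rw [h1, ← Nat.card_eq_finsetCard]
  refine Nat.card_congr
    { toFun := fun x => ⟨(x.1 0, x.1 1), (hmem _).2 ⟨x.2.1 0, x.2.1 1, by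
        rw [show ![x.1 0, x.1 1] = x.1 by funext i; fin_cases i <;> rfl]
        exact x.2.2⟩⟩
      invFun := fun ab => ⟨![ab.1.1, ab.1.2], fun i => by
        fin_cases i
        · exact ((hmem _).1 ab.2).1
        · exact ((hmem _).1 ab.2).2.1, ((hmem _).1 ab.2).2.2⟩
      left_inv := fun x => Subtype.ext (funext fun i => by fin_cases i <;> rfl)
      right_inv := fun ab => rfl }

variable (k : Type*) [Field k] [Finite k] (p : ℕ) [Fact p.Prime] [CharP k p]

theorem natCard_extension_points (f : MvPolynomial (Fin 2) k) (m : ℕ) :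
    Nat.card {x : Fin 2 → FiniteField.Extension k p (m + 1) // MvPolynomial.aeval x f = 0} =
      Nat.card {x : Fin 2 → AlgebraicClosure k // (∀ i, x i ^ Nat.card k ^ (m + 1) = x i) ∧
        MvPolynomial.eval x (f.map (algebraMap k (AlgebraicClosure k))) = 0} := by
  classical
  have hQ : 1 < Nat.card k ^ (m + 1) := Nat.one_lt_pow m.succ_ne_zero Finite.one_lt_card
  haveI := Fintype.ofFinite (FiniteField.Extension k p (m + 1))
  let ι : FiniteField.Extension k p (m + 1) →ₐ[k] AlgebraicClosure k := IsAlgClosed.lift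
  have hinj : Function.Injective ι := fun x y e => ι.toRingHom.injective e
  have hfix : ∀ y, ι y ^ Nat.card k ^ (m + 1) = ι y := fun y => by
    rw [← map_pow, ← FiniteField.natCard_extension k p (m + 1), ← Fintype.card_eq_nat_card,
      FiniteField.pow_card]
  have hsurj : ∀ a : AlgebraicClosure k, a ^ Nat.card k ^ (m + 1) = a → ∃ y, ι y = a := by
    intro a ha
    have hle : (rat (Nat.card k ^ (m + 1)) : Finset (AlgebraicClosure k)).card ≤
        Nat.card k ^ (m + 1) := by
      rw [rat]
      refine (Multiset.toFinset_card_le _).trans ((card_roots' _).trans (le_of_eq ?_))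
      exact FiniteField.X_pow_card_sub_X_natDegree_eq _ hQ
    have heq := Finset.eq_of_subset_of_card_le (s := Finset.univ.image ι)
      (t := rat (Nat.card k ^ (m + 1))) (fun z hz => by
        obtain ⟨y, -, rfl⟩ := Finset.mem_image.1 hz
        exact (mem_rat hQ).2 (hfix y))
      (hle.trans (le_of_eq (by
        rw [Finset.card_image_of_injective _ hinj, Finset.card_univ,
          Fintype.card_eq_nat_card, FiniteField.natCard_extension])))
    obtain ⟨y, -, hy⟩ := Finset.mem_image.1 (heq ▸ (mem_rat hQ).2 ha)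
    exact ⟨y, hy⟩
  have hev : ∀ x : Fin 2 → FiniteField.Extension k p (m + 1),
      MvPolynomial.eval (fun i => ι (x i)) (f.map (algebraMap k (AlgebraicClosure k))) =
        ι (MvPolynomial.aeval x f) := fun x => by
    rw [MvPolynomial.eval_map, ← MvPolynomial.aeval_def, ← MvPolynomial.comp_aeval_apply]
  refine Nat.card_congr (Equiv.ofBijective
    (fun x => ⟨fun i => ι (x.1 i), fun i => hfix _, by rw [hev, x.2, map_zero]⟩) ⟨?_, ?_⟩)
  · intro x y e
    exact Subtype.ext (funext fun i => hinj (congrFun (congrArg Subtype.val e) i))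
  · rintro ⟨x, hx, hx0⟩
    choose y hy using fun i => hsurj (x i) (hx i)
    have hxy : (fun i => ι (y i)) = x := funext hy
    refine ⟨⟨y, hinj ?_⟩, Subtype.ext hxy⟩
    rw [map_zero, ← hev, hxy, hx0]

/-- **The Riemann hypothesis for absolutely irreducible plane curves**: the number of points over
the extension of degree `n` is `q ^ n + O (q ^ (n / 2))`. -/
theorem exists_abs_natCard_sub_le {f : MvPolynomial (Fin 2) k}
    (hirr : Irreducible (f.map (algebraMap k (AlgebraicClosure k)))) :
    ∃ C : ℝ, ∀ m : ℕ,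
      |(Nat.card {x : Fin 2 → FiniteField.Extension k p (m + 1) //
          MvPolynomial.aeval x f = 0} : ℝ) - (Nat.card k : ℝ) ^ (m + 1)| ≤
        C * Real.sqrt ((Nat.card k : ℝ) ^ (m + 1)) := by
  classical
  haveI : CharP (AlgebraicClosure k) p :=
    charP_of_injective_algebraMap (algebraMap k (AlgebraicClosure k)).injective p
  haveI := Fintype.ofFinite k
  obtain ⟨d, hd0, hcard⟩ : ∃ d, 0 < d ∧ Nat.card k = p ^ d := by
    obtain ⟨d, -, hd⟩ := FiniteField.card k p
    exact ⟨d, d.pos, by rw [Nat.card_eq_fintype_card, hd]⟩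
  have hfix : ∀ m, (f.map (algebraMap k (AlgebraicClosure k))).map
      (frob (AlgebraicClosure k) p (d * (m + 1))).toRingHom =
      f.map (algebraMap k (AlgebraicClosure k)) := fun m => by
    rw [MvPolynomial.map_map]
    refine congrArg (fun φ => MvPolynomial.map φ f) (RingHom.ext fun a => ?_)
    show frob (AlgebraicClosure k) p _ _ = _
    rw [frob_apply, ← map_pow, pow_mul, ← hcard, Nat.card_eq_fintype_card,
      FiniteField.pow_card_pow]
  have core : ∀ F : MvPolynomial (Fin 2) (AlgebraicClosure k), Irreducible F →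
      derivative (toBi F) ≠ 0 → (∀ m, F.map
        (frob (AlgebraicClosure k) p (d * (m + 1))).toRingHom = F) →
      ∃ C : ℝ, ∀ m : ℕ, |(Nat.card {x : Fin 2 → AlgebraicClosure k //
          (∀ i, x i ^ Nat.card k ^ (m + 1) = x i) ∧ MvPolynomial.eval x F = 0} : ℝ) -
            (Nat.card k : ℝ) ^ (m + 1)| ≤ C * Real.sqrt ((Nat.card k : ℝ) ^ (m + 1)) := by
    intro F hF hder hFfix
    obtain ⟨C, hC⟩ := exists_pointCount_bound p (f := toBi F)
      ((MulEquiv.irreducible_iff (equivMvPolynomial (AlgebraicClosure k)).symm).2 hF) hder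
    refine ⟨C * Real.sqrt p, fun m => ?_⟩
    obtain ⟨e, he⟩ : ∃ e, e = d * (m + 1) := ⟨_, rfl⟩
    have he0 : 0 < e := he ▸ Nat.mul_pos hd0 m.succ_pos
    have hμν : e / 2 + (e - e / 2) = e := by omega
    have hQ : Nat.card k ^ (m + 1) = p ^ (e / 2 + (e - e / 2)) := by
      rw [hμν, hcard, ← pow_mul, he]
    have h := hC (e / 2) (e - e / 2) (by omega) (by omega) (by
      rw [toBi_map, hμν, he, hFfix])
    rw [natCard_points _ (Nat.one_lt_pow m.succ_ne_zero Finite.one_lt_card), hQ]
    rw [show ((Nat.card k : ℝ) ^ (m + 1)) = ((p ^ (e / 2 + (e - e / 2)) : ℕ) : ℝ) by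
      rw [← hQ]; push_cast; rfl]
    refine le_trans (le_of_eq ?_) (le_trans ((Int.cast_le (R := ℝ)).2 h) ?_)
    · push_cast; rfl
    push_cast
    rw [mul_assoc, ← Real.sqrt_mul (Nat.cast_nonneg p)]
    refine mul_le_mul_of_nonneg_left ?_ (Nat.cast_nonneg C)
    refine Real.le_sqrt_of_sq_le ?_
    rw [← pow_mul, ← pow_succ']
    exact pow_le_pow_right₀ (by exact_mod_cast (Fact.out : p.Prime).one_le) (by omega)
  rcases derivative_or_swap_ne_zero p (g := toBi (f.map (algebraMap k (AlgebraicClosure k))))
    ((MulEquiv.irreducible_iff (equivMvPolynomial (AlgebraicClosure k)).symm).2 hirr) with h | h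
  · obtain ⟨C, hC⟩ := core _ hirr h hfix
    exact ⟨C, fun m => by rw [natCard_extension_points]; exact hC m⟩
  · rw [swap_toBi] at h
    obtain ⟨C, hC⟩ := core _ ((MulEquiv.irreducible_iff
      (MvPolynomial.renameEquiv (AlgebraicClosure k) (Equiv.swap (0 : Fin 2) 1))).2 hirr) h
      fun m => by rw [MvPolynomial.renameEquiv_apply, MvPolynomial.map_rename, hfix]
    refine ⟨C, fun m => ?_⟩
    rw [natCard_extension_points]
    refine le_of_eq_of_le ?_ (hC m)
    congr 3
    refine congrArg Nat.cast (Nat.card_congr ((Equiv.arrowCongr (Equiv.swap (0 : Fin 2) 1)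
      (Equiv.refl (AlgebraicClosure k))).subtypeEquiv fun x => ?_))
    rw [MvPolynomial.renameEquiv_apply, MvPolynomial.eval_rename]
    refine and_congr ⟨fun h i => h _, fun h i => by simpa using h (Equiv.swap 0 1 i)⟩ ?_
    have e : (Equiv.arrowCongr (Equiv.swap (0 : Fin 2) 1) (Equiv.refl (AlgebraicClosure k)) x) ∘
        (Equiv.swap (0 : Fin 2) 1) = x := funext fun i => by simp
    rw [e]

/-- Bounded signed power sums force bounded roots. -/
theorem norm_le_of_signed_powerSums {γ : Finset ℂ} {c : ℂ → ℂ} {C r : ℝ} (hr : 0 < r)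
    (h : ∀ n : ℕ, 1 ≤ n → ‖∑ b ∈ γ, c b * b ^ n‖ ≤ C * r ^ n) {a : ℂ} (ha : a ∈ γ)
    (hc : c a ≠ 0) : ‖a‖ ≤ r := by
  classical
  obtain ⟨G, hG⟩ : ∃ G : ℂ[X], G = ∏ b ∈ γ.erase a, (X - Polynomial.C b) := ⟨_, rfl⟩
  have hGa : G.eval a ≠ 0 := by
    rw [hG, eval_prod]
    refine Finset.prod_ne_zero_iff.2 fun b hb => ?_
    simpa [sub_eq_zero] using (Finset.mem_erase.1 hb).1.symm
  obtain ⟨B, hB⟩ : ∃ B, B = C * ∑ l ∈ Finset.range (G.natDegree + 1), ‖G.coeff l‖ * r ^ l :=
    ⟨_, rfl⟩
  have key : ∀ n : ℕ, 1 ≤ n → ‖c a * G.eval a‖ * ‖a‖ ^ n ≤ B * r ^ n := by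
    intro n hn
    have e : c a * G.eval a * a ^ n =
        ∑ l ∈ Finset.range (G.natDegree + 1), G.coeff l * ∑ b ∈ γ, c b * b ^ (n + l) := by
      simp only [Finset.mul_sum]
      rw [Finset.sum_comm, Finset.sum_eq_single_of_mem a ha fun b hb hba => ?_]
      · rw [eval_eq_sum_range, Finset.mul_sum, Finset.sum_mul]
        exact Finset.sum_congr rfl fun l _ => by rw [pow_add]; ring
      · calc ∑ l ∈ Finset.range (G.natDegree + 1), G.coeff l * (c b * b ^ (n + l)) =
              c b * b ^ n * G.eval b := by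
              rw [eval_eq_sum_range, Finset.mul_sum]
              exact Finset.sum_congr rfl fun l _ => by rw [pow_add]; ring
          _ = 0 := by
              rw [hG, eval_prod, Finset.prod_eq_zero (Finset.mem_erase.2 ⟨hba, hb⟩) (by simp),
                mul_zero]
    rw [← norm_pow, ← norm_mul, e, hB, Finset.mul_sum, Finset.sum_mul]
    refine (norm_sum_le _ _).trans (Finset.sum_le_sum fun l _ => ?_)
    rw [norm_mul]
    refine (mul_le_mul_of_nonneg_left (h _ (by omega)) (norm_nonneg _)).trans (le_of_eq ?_)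
    ring
  by_contra hlt
  have hpos : 0 < ‖c a * G.eval a‖ := norm_pos_iff.2 (mul_ne_zero hc hGa)
  obtain ⟨n, hn⟩ := pow_unbounded_of_one_lt (B / ‖c a * G.eval a‖)
    ((one_lt_div hr).2 (not_le.1 hlt))
  have h1 : (‖a‖ / r) ^ n ≤ (‖a‖ / r) ^ (n + 1) :=
    pow_le_pow_right₀ ((one_lt_div hr).2 (not_le.1 hlt)).le (Nat.le_succ n)
  have h2 := hn.trans_le h1
  rw [div_pow, div_lt_div_iff₀ hpos (pow_pos hr _)] at h2
  linarith [key (n + 1) (by omega)]

end FA.CurveRH

end
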