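import Fermat.Agent.CurveRH.Fixed
import Fermat.Agent.CurveRH.Main
import Mathlib.RingTheory.MvPolynomial.Basic
import Mathlib.Algebra.MvPolynomial.NoZeroDivisors

/-!
# The function field of a plane curve

`F = K(x)[θ] / f(x, θ)` for an irreducible `f` of degree `d`, separable in the ordinate: its genus
`G` has `2 G ≤ (d - 1) (d - 2)`, and a Frobenius of the coefficients gives a Frobenius of `F`.
-/

set_option autoImplicit false
set_option linter.style.haveILetI false
set_option linter.unusedSectionVars false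

noncomputable section

namespace FA.CurveRH

open AlgebraicCurve FA.ModField FA.Curve Polynomial Polynomial.Bivariate

/-! ### Degrees -/

section Degrees

variable {K : Type*} [Field K]

theorem toBi_monomial (s : Fin 2 →₀ ℕ) (r : K) :
    toBi (MvPolynomial.monomial s r) = C (C r * X ^ s 0) * X ^ s 1 := by
  rw [MvPolynomial.monomial_eq, Finsupp.prod_fintype _ _ fun i => pow_zero _]
  simp [toBi, Fin.prod_univ_two, mul_assoc]

theorem toBi_sum {ι : Type*} (s : Finset ι) (u : ι → MvPolynomial (Fin 2) K) :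
    toBi (∑ i ∈ s, u i) = ∑ i ∈ s, toBi (u i) :=
  map_sum (equivMvPolynomial K).symm u s

theorem sum_eq_add (s : Fin 2 →₀ ℕ) : (s.sum fun _ e => e) = s 0 + s 1 := by
  rw [Finsupp.sum_fintype _ _ fun _ => rfl, Fin.sum_univ_two]

theorem natDegree_toBi_le (f : MvPolynomial (Fin 2) K) :
    (toBi f).natDegree ≤ f.totalDegree := by
  conv_lhs => rw [f.as_sum, toBi_sum]
  refine natDegree_sum_le_of_forall_le _ _ fun s hs => ?_
  rw [toBi_monomial]
  refine (natDegree_C_mul_X_pow_le _ _).trans ?_
  have := MvPolynomial.le_totalDegree hs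
  rw [sum_eq_add] at this
  omega

theorem natDegree_coeff_toBi_le (f : MvPolynomial (Fin 2) K) (i : ℕ) :
    ((toBi f).coeff i).natDegree ≤ f.totalDegree - i := by
  conv_lhs => rw [f.as_sum, toBi_sum, finsetSum_coeff]
  refine natDegree_sum_le_of_forall_le _ _ fun s hs => ?_
  rw [toBi_monomial, coeff_C_mul_X_pow]
  have := MvPolynomial.le_totalDegree hs
  rw [sum_eq_add] at this
  split_ifs with h
  · refine (natDegree_C_mul_X_pow_le _ _).trans ?_
    omega
  · simp

theorem two_mul_finrank_restrictTotalDegree (m : ℕ) :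
    2 * Module.finrank K (MvPolynomial.restrictTotalDegree (Fin 2) K m) = (m + 1) * (m + 2) := by
  have e : {s : Fin 2 →₀ ℕ | (s.sum fun _ e => e) ≤ m} ≃ Σ i : Fin (m + 1), Fin (m + 1 - i) :=
    { toFun := fun s => ⟨⟨s.1 0, by
          have : (s.1.sum fun _ e => e) ≤ m := s.2; rw [sum_eq_add] at this; omega⟩, ⟨s.1 1, by
          have : (s.1.sum fun _ e => e) ≤ m := s.2; rw [sum_eq_add] at this
          show s.1 1 < m + 1 - s.1 0
          omega⟩⟩
      invFun := fun ij => ⟨Finsupp.single 0 (ij.1 : ℕ) + Finsupp.single 1 (ij.2 : ℕ), by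
        show ((Finsupp.single 0 (ij.1 : ℕ) + Finsupp.single 1 (ij.2 : ℕ) : Fin 2 →₀ ℕ).sum
          fun _ e => e) ≤ m
        rw [sum_eq_add]
        have h1 := ij.1.2
        have h2 := ij.2.2
        simp
        omega⟩
      left_inv := fun s => Subtype.ext (Finsupp.ext fun i => by fin_cases i <;> simp)
      right_inv := fun ⟨⟨i, hi⟩, ⟨j, hj⟩⟩ => by
        refine Sigma.ext (Fin.ext (by simp)) ?_
        rw [Fin.heq_ext_iff (by simp)]
        simp }
  rw [MvPolynomial.restrictTotalDegree, Module.finrank_eq_nat_card_basis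
    (MvPolynomial.basisRestrictSupport K _), Nat.card_congr e, Nat.card_sigma]
  simp only [Nat.card_eq_fintype_card, Fintype.card_fin]
  rw [Fin.sum_univ_eq_sum_range (fun i => m + 1 - i) (m + 1)]
  clear e
  induction m with
  | zero => rfl
  | succ m ih =>
    rw [Finset.sum_range_succ']
    simp only [Nat.add_sub_add_right, Nat.sub_zero]
    rw [mul_add, ih]
    ring

end Degrees

variable {K : Type*} [Field K] [IsAlgClosed K] {F : Type*} [Field F] [Algebra K F]
  [Algebra (RatFunc K) F] [IsScalarTower K (RatFunc K) F]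

/-- `F` is generated over `K(x)` by a root `θ` of the irreducible `f`, separable in `θ`. -/
structure IsPlaneModel (f : MvPolynomial (Fin 2) K) (θ : F) : Prop where
  irreducible : Irreducible f
  derivative_ne_zero : derivative (toBi f) ≠ 0
  root : aeval θ (fRat (toBi f)) = 0
  gen : Algebra.adjoin (RatFunc K) ({θ} : Set F) = ⊤

variable {f : MvPolynomial (Fin 2) K} {θ : F}

/-- Evaluation of a polynomial in two variables at `(x, θ)`. -/
def evalBi (θ : F) : K[X][X] →+* F := eval₂RingHom (aeval (absc K F)).toRingHom θ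

theorem evalBi_apply (θ : F) (R : K[X][X]) : evalBi θ R = aeval θ (fRat R) := by
  rw [fRat, aeval_def, eval₂_map, evalBi, coe_eval₂RingHom]
  congr 1
  exact RingHom.ext fun p => (algebraMap_poly p).symm

theorem evalBi_C (θ : F) (p : K[X]) : evalBi θ (C p) = aeval (absc K F) p := by
  simp [evalBi]

theorem evalBi_X (θ : F) : evalBi (K := K) θ X = θ := by simp [evalBi]

theorem evalBi_C_C (θ : F) (a : K) : evalBi θ (C (C a)) = algebraMap K F a := by
  rw [evalBi_C, aeval_C]

/-- A subfield with the constants and both coordinates is everything. -/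
theorem IsPlaneModel.mem_of_gen (h : IsPlaneModel f θ) (S : Subfield F)
    (hK : ∀ a : K, algebraMap K F a ∈ S) (hx : absc K F ∈ S) (hθ : θ ∈ S) (y : F) : y ∈ S := by
  have hpoly : ∀ p : K[X], aeval (absc K F) p ∈ S := fun p => by
    rw [aeval_eq_sum_range]
    refine sum_mem fun i _ => ?_
    rw [Algebra.smul_def]
    exact mul_mem (hK _) (pow_mem hx i)
  have hr : ∀ r : RatFunc K, algebraMap (RatFunc K) F r ∈ S := fun r => by
    rw [← RatFunc.num_div_denom r, map_div₀, algebraMap_poly, algebraMap_poly]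
    exact div_mem (hpoly _) (hpoly _)
  have hy : y ∈ Algebra.adjoin (RatFunc K) ({θ} : Set F) := h.gen ▸ Algebra.mem_top
  induction hy using Algebra.adjoin_induction with
  | mem z hz => exact (Set.mem_singleton_iff.1 hz) ▸ hθ
  | algebraMap r => exact hr r
  | add a b _ _ ha hb => exact add_mem ha hb
  | mul a b _ _ ha hb => exact mul_mem ha hb

theorem IsPlaneModel.irreducible_bi (h : IsPlaneModel f θ) : Irreducible (toBi f) :=
  (MulEquiv.irreducible_iff (equivMvPolynomial K).symm).2 h.irreducible

theorem IsPlaneModel.natDegree_ne_zero (h : IsPlaneModel f θ) : (toBi f).natDegree ≠ 0 :=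
  fun e => h.derivative_ne_zero (derivative_of_natDegree_zero e)

theorem IsPlaneModel.irreducible_fRat (h : IsPlaneModel f θ) : Irreducible (fRat (toBi f)) :=
  ((h.irreducible_bi.isPrimitive h.natDegree_ne_zero).irreducible_iff_irreducible_map_fraction_map
    (K := RatFunc K)).1 h.irreducible_bi

theorem IsPlaneModel.separable (h : IsPlaneModel f θ) : (fRat (toBi f)).Separable := by
  rw [separable_iff_derivative_ne_zero h.irreducible_fRat, fRat, derivative_map]
  exact fun e => h.derivative_ne_zero
    ((map_injective _ (IsFractionRing.injective K[X] (RatFunc K))).eq_iff'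
      (Polynomial.map_zero _) |>.1 e)

theorem IsPlaneModel.isIntegral (h : IsPlaneModel f θ) : IsIntegral (RatFunc K) θ :=
  IsAlgebraic.isIntegral ⟨_, h.irreducible_fRat.ne_zero, h.root⟩

theorem IsPlaneModel.adjoin_eq_top (h : IsPlaneModel f θ) :
    IntermediateField.adjoin (RatFunc K) ({θ} : Set F) = ⊤ :=
  eq_top_iff.2 fun y _ => IntermediateField.algebra_adjoin_le_adjoin (RatFunc K) _
    (h.gen.symm ▸ (Algebra.mem_top : y ∈ (⊤ : Subalgebra (RatFunc K) F)))

theorem IsPlaneModel.finite (h : IsPlaneModel f θ) : FiniteDimensional (RatFunc K) F := by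
  haveI := IntermediateField.adjoin.finiteDimensional h.isIntegral
  rw [h.adjoin_eq_top] at this
  exact IntermediateField.topEquiv.toLinearEquiv.finiteDimensional

theorem IsPlaneModel.isFunctionField (h : IsPlaneModel f θ) : IsFunctionField K F :=
  haveI := h.finite
  FA.CurveRH.isFunctionField

theorem IsPlaneModel.finrank_eq (h : IsPlaneModel f θ) :
    Module.finrank (RatFunc K) F = (toBi f).natDegree := by
  rw [← IntermediateField.finrank_top', ← h.adjoin_eq_top,
    IntermediateField.adjoin.finrank h.isIntegral,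
    ← minpoly.eq_of_irreducible h.irreducible_fRat h.root,
    natDegree_mul_C (inv_ne_zero (leadingCoeff_ne_zero.2 h.irreducible_fRat.ne_zero)), fRat,
    natDegree_map_eq_of_injective (IsFractionRing.injective K[X] (RatFunc K))]

theorem IsPlaneModel.evalBi_self (h : IsPlaneModel f θ) : evalBi θ (toBi f) = 0 := by
  rw [evalBi_apply, h.root]

/-- The relations between the coordinates are the multiples of `f`. -/
theorem IsPlaneModel.dvd_of_evalBi (h : IsPlaneModel f θ) {R : K[X][X]}
    (hR : evalBi θ R = 0) : toBi f ∣ R := by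
  rw [evalBi_apply] at hR
  have h1 := minpoly.dvd (RatFunc K) θ hR
  have h2 := ((minpoly.irreducible h.isIntegral).associated_of_dvd h.irreducible_fRat
    (minpoly.dvd (RatFunc K) θ h.root)).symm.dvd
  exact (h.irreducible_bi.isPrimitive h.natDegree_ne_zero).dvd_of_fraction_map_dvd_fraction_map
    (K := RatFunc K) (h2.trans h1)

/-- Every function is a quotient of polynomials in the coordinates. -/
theorem IsPlaneModel.exists_div (h : IsPlaneModel f θ) (y : F) :
    ∃ R D : K[X][X], y = evalBi θ R / evalBi θ D := by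
  have hy := h.mem_of_gen (Subfield.closure (Set.range (evalBi (K := K) θ)))
    (fun a => Subfield.subset_closure ⟨_, evalBi_C_C θ a⟩)
    (Subfield.subset_closure ⟨C X, by rw [evalBi_C, aeval_X]⟩)
    (Subfield.subset_closure ⟨X, evalBi_X θ⟩) y
  rw [Subfield.mem_closure_iff] at hy
  obtain ⟨u, hu, v, hv, rfl⟩ := hy
  rw [← RingHom.coe_range, Subring.closure_eq] at hu hv
  obtain ⟨R, rfl⟩ := hu
  obtain ⟨D, rfl⟩ := hv
  exact ⟨R, D, rfl⟩

/-! ### The genus -/

theorem evalBi_toBi (R : MvPolynomial (Fin 2) K) :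
    evalBi θ (toBi R) = MvPolynomial.aeval ![absc K F, θ] R := by
  induction R using MvPolynomial.induction_on with
  | C r => simp [toBi, evalBi]
  | add u v hu hv => simp only [toBi, map_add] at hu hv ⊢; rw [hu, hv]
  | mul_X u i hu =>
    simp only [toBi, map_mul, MvPolynomial.aeval_X] at hu ⊢
    rw [hu]
    fin_cases i <;> simp [evalBi]

/-- A divisor of degree at most `d` bounding the poles of both coordinates. -/
theorem IsPlaneModel.exists_poleBound (h : IsPlaneModel f θ) :
    ∃ B : Divisor K F, 0 ≤ B ∧ Divisor.degree B ≤ f.totalDegree ∧ 0 < Divisor.degree B ∧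
      (∀ v, AtLeast v (-B v) (absc K F)) ∧ ∀ v, AtLeast v (-B v) θ := by
  classical
  have hF := h.isFunctionField
  haveI := h.finite
  have hx : Transcendental K (absc K F) := transcendental_absc
  obtain ⟨T, hT⟩ : ∃ T, T = (poleDiv hF (absc K F)).support ∪ (poleDiv hF θ).support :=
    ⟨_, rfl⟩
  obtain ⟨M, hM⟩ : ∃ M : Place K F → ℤ, ∀ v, M v = max (poleDiv hF (absc K F) v) (poleDiv hF θ v) :=
    ⟨_, fun _ => rfl⟩
  have hMx : ∀ v, AtLeast v (-M v) (absc K F) := fun v => Or.inr (by
    rw [hM, poleDiv_apply, poleDiv_apply]; omega)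
  have hMθ : ∀ v, AtLeast v (-M v) θ := fun v => Or.inr (by
    rw [hM, poleDiv_apply, poleDiv_apply]; omega)
  -- at each pole one bad slope
  have hsub : ∀ v, 0 < M v →
      {t : K | AtLeast v (-M v + 1) (θ + algebraMap K F t * absc K F)}.Subsingleton := by
    intro v hv t ht t' ht'
    by_contra hne
    have h1 := (AtLeast.sub ht ht').smul (t - t')⁻¹
    rw [add_sub_add_left_eq_sub, ← sub_mul, ← map_sub, ← mul_assoc, ← map_mul,
      inv_mul_cancel₀ (sub_ne_zero.2 hne), map_one, one_mul] at h1
    have h2 := AtLeast.sub ht (h1.smul t)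
    rw [add_sub_cancel_right] at h2
    have hx' : -M v + 1 ≤ v.ord (absc K F) :=
      (atLeast_iff fun e => hx (by rw [e]; exact isAlgebraic_zero)).1 h1
    rw [hM, poleDiv_apply, poleDiv_apply] at hx' hv h2
    rcases h2 with h2 | h2
    · rw [h2, show v.ord (0 : F) = 0 by simp [Place.ord]] at hx' hv
      omega
    · omega
  have hconst : {t : K | ¬Transcendental K (θ + algebraMap K F t * absc K F)}.Subsingleton := by
    intro t ht t' ht'
    by_contra hne
    simp only [Set.mem_ofPred_eq, Transcendental, not_not] at ht ht'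
    refine hx ?_
    have h1 := (isAlgebraic_algebraMap (R := K) (A := F) (t - t')⁻¹).mul (ht.sub ht')
    rwa [add_sub_add_left_eq_sub, ← sub_mul, ← map_sub, ← mul_assoc, ← map_mul,
      inv_mul_cancel₀ (sub_ne_zero.2 hne), map_one, one_mul] at h1
  obtain ⟨t, ht⟩ := ((hconst.finite.union (T.finite_toSet.biUnion
    (t := fun v => {t : K | 0 < M v ∧ AtLeast v (-M v + 1) (θ + algebraMap K F t * absc K F)})
    fun v _ => Set.Subsingleton.finite fun a ha b hb => hsub v ha.1 ha.2 hb.2)).infinite_compl
    ).nonempty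
  simp only [Set.mem_compl_iff, Set.mem_union, Set.mem_ofPred_eq, not_or, not_not, Set.mem_iUnion,
    exists_prop, not_exists, not_and] at ht
  obtain ⟨hz, htv⟩ := ht
  obtain ⟨z, hzdef⟩ : ∃ z, z = θ + algebraMap K F t * absc K F := ⟨_, rfl⟩
  rw [← hzdef] at hz
  haveI := hF.finiteDimensional hz
  refine ⟨poleDiv hF z, poleDiv_nonneg hF z, ?_, ?_, fun v => ?_, fun v => ?_⟩
  · -- `F` has degree at most `d` over `K(z)`
    refine (degree_poleDiv_le hF hz).trans (Nat.cast_le.2 ?_)
    obtain ⟨zL, hzL⟩ : ∃ zL : IntermediateField.adjoin K ({z} : Set F), (zL : F) = z :=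
      ⟨⟨z, IntermediateField.mem_adjoin_simple_self K z⟩, rfl⟩
    obtain ⟨Q, hQ⟩ : ∃ Q : (IntermediateField.adjoin K ({z} : Set F))[X], Q =
        (toBi f).eval₂ (mapRingHom (algebraMap K (IntermediateField.adjoin K ({z} : Set F))))
          (C zL - C (algebraMap K _ t) * X) := ⟨_, rfl⟩
    have hQdeg : Q.natDegree ≤ f.totalDegree := by
      rw [hQ, eval₂_eq_sum_range]
      refine natDegree_sum_le_of_forall_le _ _ fun i hi => ?_
      refine natDegree_mul_le.trans ?_
      have h1 := natDegree_coeff_toBi_le f i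
      have h2 := natDegree_toBi_le f
      have hi' := Finset.mem_range.1 hi
      have h3 : (C zL - C (algebraMap K _ t) * X :
          (IntermediateField.adjoin K ({z} : Set F))[X]).natDegree ≤ 1 := by
        compute_degree
      have h4 := natDegree_pow_le_of_le i h3
      have h5 : ((mapRingHom (algebraMap K (IntermediateField.adjoin K ({z} : Set F))))
          ((toBi f).coeff i)).natDegree ≤ f.totalDegree - i :=
        natDegree_map_le.trans h1
      omega
    have hev : aeval (absc K F) Q = 0 := by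
      rw [hQ, aeval_def, ← coe_eval₂RingHom, hom_eval₂, coe_eval₂RingHom]
      rw [← h.evalBi_self, evalBi, coe_eval₂RingHom]
      congr 1
      · refine RingHom.ext fun p => ?_
        simp [eval₂_map, aeval_def, ← IsScalarTower.algebraMap_eq]
      · simp [hzL, hzdef, ← IsScalarTower.algebraMap_apply]
    have hQ0 : Q ≠ 0 := by
      intro e
      refine map_evalRingHom_ne_zero h.irreducible_bi h.natDegree_ne_zero 0 ?_
      have hzt : Transcendental K zL := fun ha => hz (hzL ▸ ha.algebraMap)
      refine transcendental_iff_injective.1 hzt ?_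
      rw [map_zero, aeval_def, eval₂_map]
      have h0 := congrArg (eval (algebraMap K _ (0 : K))) e
      rw [eval_zero, hQ, ← coe_evalRingHom, hom_eval₂] at h0
      rw [← h0]
      congr 1
      · refine RingHom.ext fun p => ?_
        simp [Polynomial.eval_map]
        exact (coeff_zero_eq_eval_zero p).symm
      · simp
    have halg : IsIntegral (IntermediateField.adjoin K ({z} : Set F)) (absc K F) :=
      IsAlgebraic.isIntegral ⟨Q, hQ0, hev⟩
    have htop : IntermediateField.adjoin (IntermediateField.adjoin K ({z} : Set F))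
        ({absc K F} : Set F) = ⊤ := by
      refine eq_top_iff.2 fun y _ => ?_
      refine h.mem_of_gen (IntermediateField.adjoin (IntermediateField.adjoin K ({z} : Set F))
        ({absc K F} : Set F)).toSubfield (fun a => ?_)
        (IntermediateField.mem_adjoin_simple_self _ _) ?_ y
      · rw [IsScalarTower.algebraMap_apply K (IntermediateField.adjoin K ({z} : Set F)) F]
        exact IntermediateField.algebraMap_mem _ _
      · have e : θ = algebraMap (IntermediateField.adjoin K ({z} : Set F)) F zL -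
            algebraMap (IntermediateField.adjoin K ({z} : Set F)) F (algebraMap K _ t) *
              absc K F := by
          rw [← IsScalarTower.algebraMap_apply, show algebraMap _ F zL = z from hzL, hzdef]
          ring
        rw [e]
        exact sub_mem (IntermediateField.algebraMap_mem _ _)
          (mul_mem (IntermediateField.algebraMap_mem _ _)
            (IntermediateField.mem_adjoin_simple_self _ _))
    rw [← IntermediateField.finrank_top', ← htop, IntermediateField.adjoin.finrank halg]
    exact (natDegree_le_of_dvd (minpoly.dvd _ _ hev) hQ0).trans hQdeg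
  · rw [degree_poleDiv hF hz]
    exact_mod_cast Module.finrank_pos
  all_goals
    have hle : M v ≤ poleDiv hF z v := by
      rw [poleDiv_apply]
      by_contra hlt
      push Not at hlt
      have hv : 0 < M v := lt_of_le_of_lt (le_max_left _ _) hlt
      have hT' : v ∈ T := by
        rw [hT, Finset.mem_union, Finsupp.mem_support_iff, Finsupp.mem_support_iff]
        rw [hM] at hv
        omega
      exact htv v hT' hv (Or.inr (by rw [← hzdef]; omega))
    first
      | exact (hMx v).mono (by omega)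
      | exact (hMθ v).mono (by omega)

/-- **The genus of a plane curve of degree `d` is at most `(d - 1) (d - 2) / 2`.** -/
theorem IsPlaneModel.two_mul_genus_le (h : IsPlaneModel f θ) :
    2 * genus K F ≤ (f.totalDegree - 1) * (f.totalDegree - 2) := by
  classical
  have hF := h.isFunctionField
  haveI := h.finite
  obtain ⟨B, hB0, hBd, hBpos, hBx, hBθ⟩ := h.exists_poleBound
  obtain ⟨c, hc⟩ := exists_threshold hF
  obtain ⟨d, hd⟩ : ∃ d, d = f.totalDegree := ⟨_, rfl⟩
  rw [← hd] at hBd ⊢
  obtain ⟨m, hm, hmd⟩ : ∃ m : ℕ, c ≤ m ∧ d ≤ m :=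
    ⟨max c.toNat d, by omega, le_max_right _ _⟩
  obtain ⟨φ, hφ⟩ : ∃ φ : MvPolynomial (Fin 2) K →ₐ[K] F,
      φ = MvPolynomial.aeval ![absc K F, θ] := ⟨_, rfl⟩
  obtain ⟨D, hD⟩ : ∃ D : Divisor K F, D = m • B := ⟨_, rfl⟩
  have hrange : LinearMap.range (φ.toLinearMap.domRestrict
      (MvPolynomial.restrictTotalDegree (Fin 2) K m)) ≤ riemannRochSpace D := by
    rintro _ ⟨⟨R, hR⟩, rfl⟩
    rw [MvPolynomial.mem_restrictTotalDegree] at hR
    rw [LinearMap.domRestrict_apply]
    show φ R ∈ riemannRochSpace D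
    rw [R.as_sum, map_sum]
    refine Submodule.sum_mem _ fun s hs => ?_
    rw [mem_riemannRochSpace, hφ, MvPolynomial.aeval_monomial,
      Finsupp.prod_fintype _ _ fun i => pow_zero _, Fin.prod_univ_two]
    intro v
    refine (((atLeast_pow (hBx v) (s 0)).mul (atLeast_pow (hBθ v) (s 1))).smul _).mono ?_
    have hs' := (MvPolynomial.le_totalDegree hs).trans hR
    rw [sum_eq_add] at hs'
    have h0 : (0 : ℤ) ≤ B v := Finsupp.le_def.1 hB0 v
    have h1 : ((s 0 : ℕ) : ℤ) + (s 1 : ℕ) ≤ m := by exact_mod_cast hs'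
    rw [hD, Finsupp.smul_apply, nsmul_eq_mul]
    nlinarith
  obtain ⟨ker, hker⟩ : ∃ ker, ker = LinearMap.ker (φ.toLinearMap.domRestrict
      (MvPolynomial.restrictTotalDegree (Fin 2) K m)) := ⟨_, rfl⟩
  have hkerle : Module.finrank K ker ≤
      Module.finrank K (MvPolynomial.restrictTotalDegree (Fin 2) K (m - d)) := by
    rw [(Submodule.equivMapOfInjective (MvPolynomial.restrictTotalDegree (Fin 2) K m).subtype
      (Submodule.injective_subtype _) ker).finrank_eq]
    refine le_trans (Submodule.finrank_mono (t :=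
      (MvPolynomial.restrictTotalDegree (Fin 2) K (m - d)).map (LinearMap.mulLeft K f)) ?_)
      (Submodule.finrank_map_le _ _)
    rintro R ⟨⟨R', hR'⟩, hmem, rfl⟩
    rw [hker, SetLike.mem_coe, LinearMap.mem_ker, LinearMap.domRestrict_apply,
      AlgHom.toLinearMap_apply, hφ] at hmem
    have hmem' : evalBi θ (toBi R') = 0 := (evalBi_toBi R').trans hmem
    obtain ⟨H, hH⟩ := (map_dvd_iff (equivMvPolynomial K).symm).1 (h.dvd_of_evalBi hmem')
    refine ⟨H, ?_, hH.symm⟩
    rw [SetLike.mem_coe, MvPolynomial.mem_restrictTotalDegree]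
    rcases eq_or_ne H 0 with rfl | hH0
    · simp
    rw [MvPolynomial.mem_restrictTotalDegree, hH,
      MvPolynomial.totalDegree_mul_of_isDomain h.irreducible.ne_zero hH0] at hR'
    omega
  have hsum := (φ.toLinearMap.domRestrict
    (MvPolynomial.restrictTotalDegree (Fin 2) K m)).finrank_range_add_finrank_ker
  rw [← hker] at hsum
  haveI := finite_riemannRochSpace hF D
  have hell := Submodule.finrank_mono hrange
  have hRR := hc D (by
    rw [hD, map_nsmul, nsmul_eq_mul]
    nlinarith)
  rw [ell] at hRR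
  have e1 := two_mul_finrank_restrictTotalDegree (K := K) m
  have e2 := two_mul_finrank_restrictTotalDegree (K := K) (m - d)
  have hdeg : Divisor.degree D ≤ m * d := by
    rw [hD, map_nsmul, nsmul_eq_mul]
    exact mul_le_mul_of_nonneg_left hBd (Int.natCast_nonneg m)
  have hd1 : 1 ≤ d := by omega
  zify [hmd] at e1 e2
  rcases eq_or_ne d 1 with rfl | hd2
  · push_cast at *
    have : (genus K F : ℤ) ≤ 0 := by nlinarith
    omega
  zify [hd1, (show 2 ≤ d by omega)]
  nlinarith

/-! ### Frobenius -/

theorem IsPlaneModel.exists_isFrobenius (h : IsPlaneModel f θ) (p : ℕ) [Fact p.Prime] [CharP K p]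
    {e : ℕ} (he : 0 < e) (halg : ∀ a : K, ∃ j, 0 < j ∧ a ^ (p ^ e) ^ j = a)
    (ψ : F →+* F) (hψ : ∀ r, ψ (algebraMap (RatFunc K) F r) =
      algebraMap (RatFunc K) F (frobRat K p e r)) (hψθ : ψ θ = θ) :
    ∃ g : SemilinearAut K F, IsFrobenius g (p ^ e) ∧ g • absc K F = absc K F ∧ g • θ = θ := by
  have hX : ψ (absc K F) = absc K F := by
    rw [absc, hψ, ← RatFunc.algebraMap_X, frobRat_algebraMap, map_X]
  have hC : ∀ a, ψ (algebraMap K F a) = algebraMap K F (frob K p e a) := fun a => by
    rw [IsScalarTower.algebraMap_apply K (RatFunc K) F, hψ,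
      IsScalarTower.algebraMap_apply K K[X] (RatFunc K), frobRat_algebraMap,
      IsScalarTower.algebraMap_apply K (RatFunc K) F,
      IsScalarTower.algebraMap_apply K K[X] (RatFunc K)]
    simp [Polynomial.algebraMap_eq]
  have hs : Function.Surjective ψ := fun y => h.mem_of_gen ψ.fieldRange
    (fun a => ⟨algebraMap K F ((frob K p e).symm a), by
      rw [hC, RingEquiv.apply_symm_apply]⟩) ⟨_, hX⟩ ⟨_, hψθ⟩ y
  let g : SemilinearAut K F :=
    ⟨(RingEquiv.ofBijective ψ ⟨ψ.injective, hs⟩, frob K p e), hC⟩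
  have hgx : g • absc K F = absc K F := hX
  have hgθ : g • θ = θ := hψθ
  have hbase : ∀ a, SemilinearAut.baseAut g a = a ^ p ^ e := fun a => frob_apply p e a
  have hq : 1 < p ^ e := Nat.one_lt_pow he.ne' (Fact.out : p.Prime).one_lt
  have hbpow : ∀ j a, SemilinearAut.baseAut (g ^ j) a = a ^ (p ^ e) ^ j := by
    intro j
    induction j with
    | zero => simp
    | succ j ih =>
      intro a
      rw [pow_succ, SemilinearAut.baseAut_mul]
      show SemilinearAut.baseAut (g ^ j) (SemilinearAut.baseAut g a) = _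
      rw [ih, hbase, ← pow_mul, ← pow_succ']
  refine ⟨g, ⟨hq, hbase, fun y => ?_, fun j hj => ?_⟩, hgx, hgθ⟩
  · have hcomb : ∀ {a b : F} {i j : ℕ}, g ^ i • a = a → g ^ j • b = b →
        g ^ (i * j) • a = a ∧ g ^ (i * j) • b = b := fun {a b i j} ha hb =>
      ⟨smul_pow_mul ha j, mul_comm j i ▸ smul_pow_mul hb i⟩
    let S : Subfield F :=
      { carrier := {a | ∃ j, 0 < j ∧ g ^ j • a = a}
        zero_mem' := ⟨1, one_pos, smul_zero _⟩
        one_mem' := ⟨1, one_pos, smul_one _⟩
        add_mem' := by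
          rintro a b ⟨i, hi, ha⟩ ⟨j, hj, hb⟩
          exact ⟨i * j, Nat.mul_pos hi hj, by rw [smul_add, (hcomb ha hb).1, (hcomb ha hb).2]⟩
        mul_mem' := by
          rintro a b ⟨i, hi, ha⟩ ⟨j, hj, hb⟩
          exact ⟨i * j, Nat.mul_pos hi hj, by rw [smul_mul', (hcomb ha hb).1, (hcomb ha hb).2]⟩
        neg_mem' := by
          rintro a ⟨i, hi, ha⟩
          exact ⟨i, hi, by rw [smul_neg, ha]⟩
        inv_mem' := by
          rintro a ⟨i, hi, ha⟩
          exact ⟨i, hi, by rw [smul_inv'', ha]⟩ }
    exact h.mem_of_gen S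
      (fun a => by
        obtain ⟨j, hj, hja⟩ := halg a
        exact ⟨j, hj, by rw [SemilinearAut.smul_algebraMap, hbpow, hja]⟩)
      ⟨1, one_pos, by rw [pow_one, hgx]⟩ ⟨1, one_pos, by rw [pow_one, hgθ]⟩ y
  · have hQ : 1 < p ^ (e * j) :=
      Nat.one_lt_pow (Nat.mul_pos he hj).ne' (Fact.out : p.Prime).one_lt
    rw [← pow_mul, show {a : K | a ^ p ^ (e * j) = a} =
        ((rat (p ^ (e * j)) : Finset K) : Set K) from
      Set.ext fun a => ((mem_rat hQ).symm), Set.ncard_coe_finset, card_rat p (Nat.mul_pos he hj)]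

/-- The field `K(x)[Y] / f` has a Frobenius. -/
theorem exists_frobenius_model (p : ℕ) [Fact p.Prime] [CharP K p] {f : MvPolynomial (Fin 2) K}
    (hirr : Irreducible f) (hder : derivative (toBi f) ≠ 0) {e : ℕ} (he : 0 < e)
    (halg : ∀ a : K, ∃ j, 0 < j ∧ a ^ (p ^ e) ^ j = a)
    (hf : f.map (frob K p e).toRingHom = f) [Fact (Irreducible (fRat (toBi f)))] :
    IsPlaneModel f (AdjoinRoot.root (fRat (toBi f))) ∧
      ∃ g : SemilinearAut K (AdjoinRoot (fRat (toBi f))), IsFrobenius g (p ^ e) ∧
        g • absc K (AdjoinRoot (fRat (toBi f))) = absc K (AdjoinRoot (fRat (toBi f))) ∧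
        g • AdjoinRoot.root (fRat (toBi f)) = AdjoinRoot.root (fRat (toBi f)) := by
  have hm : IsPlaneModel f (AdjoinRoot.root (fRat (toBi f))) :=
    ⟨hirr, hder, by rw [aeval_def, AdjoinRoot.algebraMap_eq, AdjoinRoot.eval₂_root],
      AdjoinRoot.adjoinRoot_eq_top⟩
  have hfr : (fRat (toBi f)).map (frobRat K p e).toRingHom = fRat (toBi f) :=
    fRat_frob p (by rw [toBi_map, hf])
  obtain ⟨ψ, hψ, hψθ⟩ : ∃ ψ : AdjoinRoot (fRat (toBi f)) →+* AdjoinRoot (fRat (toBi f)),
      (∀ r, ψ (AdjoinRoot.of _ r) = AdjoinRoot.of _ (frobRat K p e r)) ∧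
        ψ (AdjoinRoot.root _) = AdjoinRoot.root _ := by
    refine ⟨AdjoinRoot.lift ((AdjoinRoot.of _).comp (frobRat K p e).toRingHom)
      (AdjoinRoot.root _) ?_, fun r => AdjoinRoot.lift_of _, AdjoinRoot.lift_root _⟩
    rw [← eval₂_map, hfr, AdjoinRoot.eval₂_root]
  exact ⟨hm, hm.exists_isFrobenius p he halg ψ hψ hψθ⟩

end FA.CurveRH

end
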