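import Fermat.Agent.CurveRH.Descent
import Fermat.Agent.CurveRH.Main
import Mathlib.RingTheory.PowerSeries.Derivative
import Mathlib.RingTheory.PowerSeries.Inverse
import Mathlib.Algebra.Polynomial.Reverse
import Mathlib.Analysis.Complex.Polynomial.Basic

/-!
# The zeta function of a curve

For a function field of genus `G` with a Frobenius whose fixed places are `q ^ m + O (q ^ (m / 2))`:
`Z(T) = L(T) / ((1 - T) (1 - q T))` with `L` of degree `2 G`, its functional equation from the
theorem of Riemann and Roch, and every reciprocal root of `L` has absolute value `√q`.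
-/

set_option autoImplicit false
set_option linter.style.haveILetI false
set_option linter.unusedSectionVars false

noncomputable section

namespace FA.CurveRH

open AlgebraicCurve FA.ModField FA.Curve

/-! ### Logarithmic derivatives of polynomials split at the origin -/

section PowerSums

/-- `X d/dX`. -/
def theta (f : PowerSeries ℂ) : PowerSeries ℂ := PowerSeries.X * PowerSeries.derivative ℂ f

theorem theta_mul (f h : PowerSeries ℂ) : theta (f * h) = theta f * h + f * theta h := by
  simp only [theta, Derivation.leibniz, smul_eq_mul]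
  ring

theorem coeff_theta (f : PowerSeries ℂ) (n : ℕ) :
    PowerSeries.coeff n (theta f) = (n : ℂ) * PowerSeries.coeff n f := by
  rcases n with _ | n
  · simp [theta]
  · rw [theta, PowerSeries.coeff_succ_X_mul, PowerSeries.coeff_derivative]
    push_cast
    ring

/-- The power sums as a series. -/
def psumSeries (s : Multiset ℂ) : PowerSeries ℂ :=
  PowerSeries.mk fun n => if n = 0 then 0 else (s.map (· ^ n)).sum

/-- `∏ (1 - a X)`. -/
def eulerProd (s : Multiset ℂ) : PowerSeries ℂ :=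
  (s.map fun a => 1 - PowerSeries.C a * PowerSeries.X).prod

theorem theta_eulerProd (s : Multiset ℂ) : theta (eulerProd s) = eulerProd s * -psumSeries s := by
  induction s using Multiset.induction with
  | empty =>
    have : psumSeries 0 = 0 := PowerSeries.ext fun n => by simp [psumSeries]
    simp [eulerProd, theta, this]
  | cons a s ih =>
    have h1 : theta (1 - PowerSeries.C a * PowerSeries.X) =
        (1 - PowerSeries.C a * PowerSeries.X) * -psumSeries {a} := by
      refine PowerSeries.ext fun n => ?_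
      rw [coeff_theta, mul_neg, map_neg, sub_mul, one_mul, map_sub, map_sub, mul_assoc,
        PowerSeries.coeff_C_mul, PowerSeries.coeff_C_mul]
      rcases n with _ | _ | n
      · simp [psumSeries]
      · simp [psumSeries]
      · rw [PowerSeries.coeff_succ_X_mul, PowerSeries.coeff_one, PowerSeries.coeff_X]
        simp [psumSeries, pow_succ]
        ring
    have h2 : psumSeries (a ::ₘ s) = psumSeries {a} + psumSeries s :=
      PowerSeries.ext fun n => by
        rcases n with _ | n <;> simp [psumSeries]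
    have h3 : eulerProd (a ::ₘ s) = (1 - PowerSeries.C a * PowerSeries.X) * eulerProd s := by
      simp [eulerProd]
    rw [h3, theta_mul, h1, ih, h2]
    ring

theorem eulerProd_ne_zero (s : Multiset ℂ) : eulerProd s ≠ 0 := fun h => by
  have := congrArg (PowerSeries.constantCoeff (R := ℂ)) h
  rw [eulerProd, map_multiset_prod, Multiset.map_map] at this
  simp at this

theorem reverse_prod_X_sub_C (s : Multiset ℂ) :
    (((s.map fun a => Polynomial.X - Polynomial.C a).prod.reverse : Polynomial ℂ) :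
      PowerSeries ℂ) = eulerProd s := by
  induction s using Multiset.induction with
  | empty => simp [eulerProd, Polynomial.reverse, Polynomial.reflect_one]
  | cons a s ih =>
    rw [Multiset.map_cons, Multiset.prod_cons, Polynomial.reverse_mul_of_domain, Polynomial.coe_mul,
      ih, eulerProd, eulerProd, Multiset.map_cons, Multiset.prod_cons]
    congr 1
    have : (Polynomial.X - Polynomial.C a).reverse = 1 - Polynomial.C a * Polynomial.X := by
      rw [Polynomial.reverse, Polynomial.natDegree_X_sub_C, Polynomial.reflect_sub,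
        Polynomial.reflect_C, ← pow_one (Polynomial.X : Polynomial ℂ),
            ← Polynomial.monomial_one_right_eq_X_pow,
        ← Polynomial.C_mul_X_pow_eq_monomial, Polynomial.reflect_C_mul_X_pow]
      simp [Polynomial.revAt_le]
    rw [this]
    simp

/-- Equal norms from a bound and a product. -/
theorem norm_eq_of_prod {s : Multiset ℂ} {r : ℝ} (hr : 0 < r) (h : ∀ a ∈ s, ‖a‖ ≤ r)
    (hprod : ‖s.prod‖ = r ^ Multiset.card s) : ∀ a ∈ s, ‖a‖ = r := by
  intro a ha
  refine le_antisymm (h a ha) ?_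
  by_contra hlt
  obtain ⟨t, rfl⟩ := Multiset.exists_cons_of_mem ha
  have ht : ∀ u : Multiset ℂ, (∀ b ∈ u, ‖b‖ ≤ r) → ‖u.prod‖ ≤ r ^ Multiset.card u := by
    intro u
    induction u using Multiset.induction with
    | empty => simp
    | cons b u ih =>
      intro hu
      rw [Multiset.prod_cons, norm_mul, Multiset.card_cons, pow_succ']
      exact mul_le_mul (hu b (Multiset.mem_cons_self b u))
        (ih fun c hc => hu c (Multiset.mem_cons_of_mem hc)) (norm_nonneg _) hr.le
  have h1 := ht t fun b hb => h b (Multiset.mem_cons_of_mem hb)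
  rw [Multiset.prod_cons, norm_mul, Multiset.card_cons, pow_succ'] at hprod
  have h2 : ‖a‖ * ‖t.prod‖ < r * r ^ Multiset.card t :=
    lt_of_le_of_lt (mul_le_mul_of_nonneg_left h1 (norm_nonneg a))
      (mul_lt_mul_of_pos_right (not_le.1 hlt) (pow_pos hr _))
  linarith

end PowerSums

variable {K F : Type*} [Field K] [Field F] [Algebra K F] [IsAlgClosed K]
  {g : SemilinearAut K F} {q : ℕ} (hF : IsFunctionField K F)

include hF

theorem IsFrobenius.exists_degree_one (h : IsFrobenius g q)
    (hbound : ∃ C : ℝ, ∀ m : ℕ, 0 < m →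
      |(fixedCount g m : ℝ) - (q : ℝ) ^ m| ≤ C * Real.sqrt ((q : ℝ) ^ m)) :
    ∃ A : Divisor K F, g • A = A ∧ Divisor.degree A = 1 := by
  obtain ⟨C, hC⟩ := hbound
  have hq : (1 : ℝ) < q := by exact_mod_cast h.one_lt
  obtain ⟨M, hM⟩ := pow_unbounded_of_one_lt (|C| + 1)
    (Real.lt_sqrt zero_le_one |>.2 (by rw [one_pow]; exact hq))
  have hpos : ∀ m, M < m → ∃ D : Divisor K F, g • D = D ∧ Divisor.degree D = m := by
    intro m hm
    have hne : fixedCount g m ≠ 0 := by
      intro h0
      have h1 := hC m (by omega)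
      rw [h0, Nat.cast_zero, zero_sub, abs_neg, abs_of_nonneg (by positivity)] at h1
      have h2 : (|C| + 1) < Real.sqrt ((q : ℝ) ^ m) := by
        refine hM.trans_le ?_
        rw [show Real.sqrt ((q : ℝ) ^ m) = Real.sqrt q ^ m from
          (Real.sqrt_eq_iff_eq_sq (by positivity) (by positivity)).2
            (by rw [← pow_mul, mul_comm, pow_mul, Real.sq_sqrt (by positivity)])]
        exact pow_le_pow_right₀ (Real.one_le_sqrt.2 hq.le) hm.le
      have h3 := Real.mul_self_sqrt (show (0 : ℝ) ≤ (q : ℝ) ^ m by positivity)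
      nlinarith [le_abs_self C, abs_nonneg C]
    obtain ⟨v, hv⟩ := Set.nonempty_of_ncard_ne_zero hne
    have hp := h.period_pos hF v
    refine ⟨(m / period g v) • orbitDiv g v, by rw [smul_comm, smul_orbitDiv hp], ?_⟩
    rw [map_nsmul, degree_orbitDiv hF, nsmul_eq_mul]
    exact_mod_cast Nat.div_mul_cancel (pow_smul_eq_iff.1 hv)
  obtain ⟨D, hD, hDd⟩ := hpos (M + 1) (by omega)
  obtain ⟨E, hE, hEd⟩ := hpos (M + 2) (by omega)
  exact ⟨E - D, by rw [smul_sub, hE, hD], by rw [map_sub, hEd, hDd]; push_cast; ring⟩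

/-- A canonical divisor fixed by Frobenius. -/
theorem IsFrobenius.exists_fixed_canonical (h : IsFrobenius g q) {A : Divisor K F}
    (hA : g • A = A) (hA1 : Divisor.degree A = 1) :
    ∃ W : Divisor K F, g • W = W ∧ Divisor.degree W = 2 * genus K F - 2 ∧
      ∀ D : Divisor K F, ell D - ell (W - D) = Divisor.degree D + 1 - genus K F := by
  obtain ⟨W, hW, hRR⟩ := exists_canonical hF
  suffices hex : ∃ W', g • W' = W' ∧ LinEquiv hF W W' by
    obtain ⟨W', hg', heq⟩ := hex
    refine ⟨W', hg', (degree_eq_of_linEquiv hF heq).trans hW, fun D => ?_⟩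
    rw [← hRR D, sub_eq_add_neg W' D, ell_eq_of_linEquiv hF (linEquiv_add_right hF heq (-D)),
      ← sub_eq_add_neg]
  have hR0 := hRR 0
  rw [map_zero, sub_zero, ell_zero hF] at hR0
  rcases Nat.eq_zero_or_pos (genus K F) with hg0 | hg0
  · -- genus zero
    refine ⟨(-2 : ℤ) • A, by rw [smul_comm, hA], ?_⟩
    have hd : Divisor.degree ((-2 : ℤ) • A - W) = 0 := by
      rw [map_sub, map_zsmul, hA1, hW, hg0]; simp
    have hl : 0 < ell ((-2 : ℤ) • A - W) := by
      have := riemann_inequality hF ((-2 : ℤ) • A - W)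
      rw [hd, hg0] at this
      push_cast at this
      omega
    obtain ⟨z, hz, hzz⟩ := exists_linEquiv_of_ell_pos hF hl hd
    exact ⟨z⁻¹, inv_ne_zero hz, by rw [divOf_inv, ← hzz]; abel⟩
  · -- positive genus
    have hlW : 0 < ell W := by omega
    have hgW : LinEquiv hF W (g • W) := by
      have h1 := hRR (g • W)
      rw [ell_smul hF, SemilinearAut.degree_smul] at h1
      have hd : Divisor.degree (W - g • W) = 0 := by
        rw [map_sub, SemilinearAut.degree_smul, sub_self]
      obtain ⟨z, hz, hzz⟩ := exists_linEquiv_of_ell_pos hF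
        (show 0 < ell (W - g • W) by omega) hd
      exact ⟨z, hz, by rw [← neg_neg (divOf hF z), ← hzz]; abel⟩
    obtain ⟨c, hc, hWc⟩ := hgW
    -- twisted descent: a twist of Frobenius fixing the space
    obtain ⟨e, he, hWe⟩ : ∃ e, 0 < e ∧ g ^ e • W = W := by
      classical
      choose per hper hperv using fun v : Place K F => h.periodic_place hF v
      refine ⟨∏ v ∈ W.support, per v, Finset.prod_pos fun v _ => hper v, ?_⟩
      have hfix : ∀ v ∈ W.support, g ^ (∏ v ∈ W.support, per v) • v = v := fun v hv => by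
        obtain ⟨k, hk⟩ := Finset.dvd_prod_of_mem per hv
        rw [hk]
        exact smul_pow_mul (hperv v) k
      refine (congrArg (g ^ (∏ v ∈ W.support, per v) • ·) W.sum_single.symm).trans
        (Eq.trans ?_ W.sum_single)
      show g ^ (∏ v ∈ W.support, per v) • W.sum Finsupp.single = _
      rw [Finsupp.sum, Finset.smul_sum]
      refine Finset.sum_congr rfl fun v hv => ?_
      rw [SemilinearAut.smul_single, hfix v hv]
    obtain ⟨j, hj, hcj⟩ := h.periodic c
    -- `ψ f = c * g f` on `L(W)`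
    obtain ⟨P, hP⟩ : ∃ P : ℕ → F, ∀ i, P i = ∏ k ∈ Finset.range i, g ^ k • c :=
      ⟨_, fun _ => rfl⟩
    have hWi : ∀ i, g ^ i • W = W + divOf hF (P i) := by
      intro i
      induction i with
      | zero => rw [pow_zero, one_smul, hP, Finset.range_zero, Finset.prod_empty]
                ext v; simp
      | succ i ih =>
        rw [pow_succ, mul_smul, hWc, smul_add, ih, divOf_smul, hP (i + 1), Finset.prod_range_succ,
          ← hP, divOf_mul hF (hP i ▸ Finset.prod_ne_zero_iff.2 fun k _ => by simpa using hc)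
            (by simpa using hc), add_assoc]
    have hPne : ∀ i, P i ≠ 0 := fun i =>
      hP i ▸ Finset.prod_ne_zero_iff.2 fun k _ => by simpa using hc
    have hdiv0 : divOf hF (P (e * j)) = 0 := by
      have := hWi (e * j)
      rw [smul_pow_mul hWe j] at this
      exact left_eq_add.1 this
    obtain ⟨a, ha, hPa⟩ := exists_const_of_divOf_eq hF one_ne_zero (hPne (e * j)) (by
      rw [hdiv0]; ext v; simp)
    obtain ⟨E, hEdef⟩ : ∃ E, E = e * j := ⟨_, rfl⟩
    rw [← hEdef] at hPa
    have hE : 0 < E := hEdef ▸ Nat.mul_pos he hj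
    have hq := h.one_lt
    have hgeom : 0 < ∑ k ∈ Finset.range E, q ^ k :=
      Finset.sum_pos (fun k _ => pow_pos (by omega) k) (by simpa using hE.ne')
    obtain ⟨lam, hlam⟩ := IsAlgClosed.exists_pow_nat_eq a⁻¹ hgeom
    have hlam0 : lam ≠ 0 := fun e => inv_ne_zero ha (by rw [← hlam, e, zero_pow hgeom.ne'])
    obtain ⟨c', hc'⟩ : ∃ c', c' = lam • c := ⟨_, rfl⟩
    have hc'0 : c' ≠ 0 := hc' ▸ smul_ne_zero hlam0 hc
    have hWc' : g • W = W + divOf hF c' := by
      rw [hWc]
      congr 1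
      ext v
      rw [divOf_apply, divOf_apply, hc', Algebra.smul_def, v.ord_mul (by simpa using hlam0) hc,
        place_ord_algebraMap, zero_add]
    have hnorm : ∏ k ∈ Finset.range E, g ^ k • c' = 1 := by
      have e1 : ∀ k, g ^ k • c' = lam ^ q ^ k • (g ^ k • c) := fun k => by
        rw [hc', smul_const_smul, h.baseAut_pow]
      simp only [e1, Algebra.smul_def, Finset.prod_mul_distrib, ← map_prod,
          Finset.prod_pow_eq_pow_sum,
        hlam]
      rw [← hP, hPa, Algebra.smul_def, mul_one, ← map_mul, inv_mul_cancel₀ ha, map_one]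
    -- a vector fixed by the twist
    obtain ⟨f, hf, hf0⟩ := exists_ne_zero_of_ell_pos hlW
    obtain ⟨Q, hQ⟩ : ∃ Q : ℕ → F, ∀ i, Q i = ∏ k ∈ Finset.range i, g ^ k • c' :=
      ⟨_, fun _ => rfl⟩
    obtain ⟨jf, hjf, hfj⟩ := h.periodic f
    obtain ⟨n, hn⟩ : ∃ n, n = E * jf := ⟨_, rfl⟩
    have hn0 : 0 < n := hn ▸ Nat.mul_pos hE hjf
    have hfn : g ^ n • f = f := by rw [hn, mul_comm]; exact smul_pow_mul hfj E
    have hQn : Q n = 1 := by
      have hQE : ∀ k, Q (E * k) = 1 := by
        intro k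
        induction k with
        | zero => simp [hQ]
        | succ k ih =>
          rw [hQ, Nat.mul_succ, Finset.prod_range_add, ← hQ, ih, one_mul]
          conv_lhs => enter [2, x]; rw [pow_add, mul_smul]
          rw [← Finset.smul_prod', hnorm, smul_one]
      rw [hn, hQE]
    have hex : ∃ mu : K, mu ^ q ^ n = mu ∧
        ∑ i ∈ Finset.range n, mu ^ q ^ i • (Q i * g ^ i • f) ≠ 0 := by
      classical
      by_contra hno
      push Not at hno
      have hfin : {x : K | x ^ q ^ n = x}.Finite :=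
        Set.finite_of_ncard_pos (by rw [h.card_const n hn0]; exact pow_pos (by omega) n)
      -- a polynomial of small degree with too many roots, tested by a functional
      obtain ⟨φ, hφ⟩ : ∃ φ : F →ₗ[K] K, φ f ≠ 0 := by
        by_contra hno'
        push Not at hno'
        exact hf0 ((Module.forall_dual_apply_eq_zero_iff K f).1 hno')
      obtain ⟨p, hp⟩ : ∃ p : Polynomial K, p = ∑ i ∈ Finset.range n,
          Polynomial.C (φ (Q i * g ^ i • f)) * Polynomial.X ^ q ^ i := ⟨_, rfl⟩
      have hcoeff : p.coeff 1 = φ f := by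
        rw [hp, Polynomial.finsetSum_coeff, Finset.sum_eq_single 0]
        · rw [Polynomial.coeff_C_mul_X_pow, pow_zero, if_pos rfl, hQ, Finset.range_zero,
            Finset.prod_empty, one_mul, pow_zero, one_smul]
        · intro i _ hi
          rw [Polynomial.coeff_C_mul_X_pow, if_neg (Nat.one_lt_pow hi h.one_lt).ne]
        · exact fun h0 => absurd (Finset.mem_range.2 hn0) h0
      have hp0 : p ≠ 0 := fun e => hφ (by rw [← hcoeff, e, Polynomial.coeff_zero])
      have hdeg : p.natDegree < q ^ n := by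
        refine lt_of_le_of_lt (hp ▸ Polynomial.natDegree_sum_le_of_forall_le
          (n := q ^ (n - 1)) _ _ fun i hi => ?_) (Nat.pow_lt_pow_right h.one_lt (by omega))
        refine (Polynomial.natDegree_C_mul_X_pow_le _ _).trans (Nat.pow_le_pow_right (by omega) ?_)
        have := Finset.mem_range.1 hi
        omega
      have hroots : hfin.toFinset ⊆ p.roots.toFinset := fun x hx => by
        rw [Multiset.mem_toFinset, Polynomial.mem_roots hp0, Polynomial.IsRoot, hp,
          Polynomial.eval_finsetSum]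
        have := congrArg φ (hno x (hfin.mem_toFinset.1 hx))
        rw [map_sum, map_zero] at this
        refine (Finset.sum_congr rfl fun i _ => ?_).trans this
        rw [Polynomial.eval_mul, Polynomial.eval_pow, Polynomial.eval_C, Polynomial.eval_X,
            map_smul,
          smul_eq_mul, mul_comm]
      have hc1 := (Finset.card_le_card hroots).trans
        ((Multiset.toFinset_card_le _).trans (Polynomial.card_roots' p))
      rw [← Set.ncard_eq_toFinset_card _ hfin, h.card_const n hn0] at hc1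
      omega
    obtain ⟨mu, hmu, hs⟩ := hex
    obtain ⟨T, hT⟩ : ∃ T : ℕ → F, ∀ i, T i = mu ^ q ^ i • (Q i * g ^ i • f) := ⟨_, fun _ => rfl⟩
    have hTn : T n = T 0 := by
      rw [hT, hT, hQn, hfn, pow_zero, pow_one, hmu, hQ, Finset.range_zero, Finset.prod_empty,
        pow_zero, one_smul]
    have hTs : ∀ i, c' * g • T i = T (i + 1) := fun i => by
      have hQs : c' * g • Q i = Q (i + 1) := by
        rw [hQ, hQ, Finset.prod_range_succ', Finset.smul_prod', pow_zero, one_smul, mul_comm]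
        simp only [pow_succ', mul_smul]
      rw [hT, hT, smul_const_smul, h.baseAut_apply, smul_mul', mul_smul_comm, ← mul_assoc, hQs,
        ← mul_smul g, ← pow_succ', ← pow_mul, ← pow_succ]
    obtain ⟨s, hsdef⟩ : ∃ s, s = ∑ i ∈ Finset.range n, T i := ⟨_, rfl⟩
    have hs0 : s ≠ 0 := by rw [hsdef]; simpa only [hT] using hs
    have hgs : c' * g • s = s := by
      rw [hsdef, Finset.smul_sum, Finset.mul_sum]
      simp only [hTs]
      obtain ⟨r, rfl⟩ : ∃ r, n = r + 1 := ⟨n - 1, by omega⟩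
      rw [Finset.sum_range_succ, Finset.sum_range_succ' T r, hTn]
    refine ⟨W + divOf hF s, ?_, s, hs0, rfl⟩
    rw [smul_add, hWc', divOf_smul, add_assoc, ← divOf_mul hF hc'0 (by simpa using hs0), hgs]

/-- The sum `∑ q ^ l` over the classes of one degree, and its symmetry. -/
theorem IsFrobenius.exists_classSum (h : IsFrobenius g q) {A : Divisor K F} (hA : g • A = A)
    (hA1 : Divisor.degree A = 1) :
    ∃ (S : ℤ → ℤ) (c : ℤ), (∀ n : ℕ, ((q : ℤ) - 1) * effCount g n + c = S n) ∧
      (∀ n : ℤ, n < 0 → S n = c) ∧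
      ∀ n : ℤ, (S (2 * genus K F - 2 - n) : ℚ) = (q : ℚ) ^ ((genus K F : ℤ) - 1 - n) * S n := by
  classical
  obtain ⟨W, hgW, hW, hRR⟩ := h.exists_fixed_canonical hF hA hA1
  obtain ⟨R, hR, hRu⟩ := h.exists_reps hF hA hA1
  have hfix : ∀ D ∈ R, ∀ n : ℤ, g • (D + n • A) = D + n • A := fun D hD n => by
    rw [smul_add, (hR D hD).1, smul_comm, hA]
  have hdeg : ∀ D ∈ R, ∀ n : ℤ, Divisor.degree (D + n • A) = n := fun D hD n => by
    rw [map_add, map_zsmul, (hR D hD).2, hA1]; simp
  refine ⟨fun n => ∑ D ∈ R, (q : ℤ) ^ (ell (D + n • A)).toNat, R.card, fun n => ?_, fun n hn => ?_,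
    fun n => ?_⟩
  · have hfin := h.finite_effSet hF n
    have hpart : hfin.toFinset.card = ∑ D ∈ R,
        {E : Divisor K F | E ∈ effSet g n ∧ LinEquiv hF (D + (n : ℤ) • A) E}.ncard := by
      have hsub : ∀ D, {E : Divisor K F | E ∈ effSet g n ∧ LinEquiv hF (D + (n : ℤ) • A) E}.Finite
          :=
        fun D => hfin.subset fun E hE => hE.1
      simp only [Set.ncard_eq_toFinset_card _ (hsub _)]
      rw [← Finset.card_biUnion]
      · congr 1
        ext E
        simp only [Finset.mem_biUnion, Set.Finite.mem_toFinset, Set.mem_ofPred_eq]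
        refine ⟨fun hE => ?_, fun ⟨_, _, hE, _⟩ => hE⟩
        obtain ⟨D, ⟨hD, hDE⟩, -⟩ := hRu (E - (n : ℤ) • A) (by rw [smul_sub, hE.2.1, smul_comm, hA])
          (by rw [map_sub, map_zsmul, hE.2.2, hA1]; simp)
        refine ⟨D, hD, hE, ?_⟩
        have := linEquiv_add_right hF hDE ((n : ℤ) • A)
        rwa [sub_add_cancel] at this
      · intro D hD D' hD' hne
        refine Finset.disjoint_left.2 fun E hE hE' => hne ?_
        obtain ⟨hEmem, hE1⟩ := (hsub D).mem_toFinset.1 hE
        have hE2 := ((hsub D').mem_toFinset.1 hE').2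
        obtain ⟨X, hX, hu⟩ := hRu (E - (n : ℤ) • A) (by rw [smul_sub, hEmem.2.1, smul_comm, hA])
          (by rw [map_sub, map_zsmul, hEmem.2.2, hA1]; simp)
        have e1 := linEquiv_add_right hF hE1 (-((n : ℤ) • A))
        have e2 := linEquiv_add_right hF hE2 (-((n : ℤ) • A))
        rw [add_neg_cancel_right, ← sub_eq_add_neg] at e1 e2
        exact (hu D ⟨hD, e1⟩).trans (hu D' ⟨hD', e2⟩).symm
    show _ = ∑ D ∈ R, (q : ℤ) ^ (ell (D + (n : ℤ) • A)).toNat
    rw [effCount, Set.ncard_eq_toFinset_card _ hfin, hpart, Nat.cast_sum, Finset.mul_sum,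
      Finset.card_eq_sum_ones, Nat.cast_sum, ← Finset.sum_add_distrib]
    refine Finset.sum_congr rfl fun D hD => ?_
    have := h.mul_card_class hF (hfix D hD n) (hdeg D hD n)
    have h1 : 1 ≤ q := h.one_lt.le
    have h2 : 1 ≤ q ^ (ell (D + (n : ℤ) • A)).toNat := Nat.one_le_pow _ _ (by omega)
    zify [h1, h2] at this
    push_cast
    linarith
  · show ∑ D ∈ R, (q : ℤ) ^ (ell (D + n • A)).toNat = _
    rw [Finset.card_eq_sum_ones, Nat.cast_sum]
    refine Finset.sum_congr rfl fun D hD => ?_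
    rw [ell_eq_zero_of_degree_neg hF (by rw [hdeg D hD]; exact hn)]
    simp
  · obtain ⟨W₀, hW₀⟩ : ∃ W₀, W₀ = W - (2 * (genus K F : ℤ) - 2) • A := ⟨_, rfl⟩
    have hW₀fix : g • W₀ = W₀ := by rw [hW₀, smul_sub, hgW, smul_comm, hA]
    have hW₀deg : Divisor.degree W₀ = 0 := by rw [hW₀, map_sub, map_zsmul, hW, hA1]; simp
    have hex : ∀ D ∈ R, ∃! E, E ∈ R ∧ LinEquiv hF E (W₀ - D) := fun D hD => hRu _
      (by rw [smul_sub, hW₀fix, (hR D hD).1]) (by rw [map_sub, hW₀deg, (hR D hD).2, sub_zero])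
    choose σ hσ hσu using fun D : R => hex D.1 D.2
    have hsymm : ∀ D : R, σ ⟨σ D, (hσ D).1⟩ = D.1 := fun D => by
      refine (hσu ⟨σ D, (hσ D).1⟩ D.1 ⟨D.2, ?_⟩).symm
      obtain ⟨z, hz, hzz⟩ := (hσ D).2
      exact ⟨z, hz, by
        show W₀ - σ D = (D : Divisor K F) + divOf hF z
        rw [sub_eq_iff_eq_add] at hzz; rw [hzz]; abel⟩
    push_cast
    rw [Finset.mul_sum]
    refine Finset.sum_bij' (fun D hD => σ ⟨D, hD⟩) (fun D hD => σ ⟨D, hD⟩) (fun D hD => (hσ ⟨D,
        hD⟩).1)
      (fun D hD => (hσ ⟨D, hD⟩).1) (fun D hD => hsymm ⟨D, hD⟩) (fun D hD => hsymm ⟨D, hD⟩) ?_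
    intro D hD
    have hq0 : (q : ℚ) ≠ 0 := Nat.cast_ne_zero.2 (by have := h.one_lt; omega)
    obtain ⟨E, hE⟩ : ∃ E, E = σ ⟨D, hD⟩ := ⟨_, rfl⟩
    have hER : E ∈ R := hE ▸ (hσ ⟨D, hD⟩).1
    rw [← hE]
    have heq : LinEquiv hF (E + n • A) (W - (D + (2 * (genus K F : ℤ) - 2 - n) • A)) := by
      have h1 := linEquiv_add_right hF (hE ▸ (hσ ⟨D, hD⟩).2) (n • A)
      rwa [show W - (D + (2 * (genus K F : ℤ) - 2 - n) • A) = W₀ - D + n • A by
        rw [hW₀, sub_smul]; abel]
    have h2 := hRR (D + (2 * (genus K F : ℤ) - 2 - n) • A)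
    rw [ell_eq_of_linEquiv hF heq, hdeg D hD] at h2
    rw [← zpow_natCast, ← zpow_natCast, ← zpow_add₀ hq0]
    congr 1
    rw [Int.toNat_of_nonneg (ell_nonneg _), Int.toNat_of_nonneg (ell_nonneg _)]
    omega

/-- **The zeta function, its functional equation and the Riemann hypothesis.** -/
theorem IsFrobenius.exists_weilNumbers (h : IsFrobenius g q)
    (hbound : ∃ C : ℝ, ∀ m : ℕ, 0 < m →
      |(fixedCount g m : ℝ) - (q : ℝ) ^ m| ≤ C * Real.sqrt ((q : ℝ) ^ m)) :
    ∃ α : Multiset ℂ, Multiset.card α = 2 * genus K F ∧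
      (∀ a ∈ α, ‖a‖ = Real.sqrt q ∧ IsIntegral ℤ a) ∧
      α.map (fun a => (q : ℂ) / a) = α ∧
      ∀ m : ℕ, 0 < m → (fixedCount g m : ℂ) = (q : ℂ) ^ m + 1 - (α.map (· ^ m)).sum := by
  classical
  obtain ⟨A, hA, hA1⟩ := h.exists_degree_one hF hbound
  obtain ⟨S, c, hS, hSneg, hFE⟩ := h.exists_classSum hF hA hA1
  obtain ⟨G, hG⟩ : ∃ G, G = genus K F := ⟨_, rfl⟩
  rw [← hG] at hFE ⊢
  have hq : 1 < q := h.one_lt
  have hqQ : (q : ℚ) ≠ 0 := Nat.cast_ne_zero.2 (by omega)
  obtain ⟨E, hE⟩ : ∃ E : ℤ → ℤ, ∀ n, E n = if 0 ≤ n then (effCount g n.toNat : ℤ) else 0 :=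
    ⟨_, fun _ => rfl⟩
  have hSE : ∀ n, S n = ((q : ℤ) - 1) * E n + c := fun n => by
    rw [hE]
    split_ifs with hn
    · obtain ⟨k, rfl⟩ := Int.eq_ofNat_of_zero_le hn
      rw [Int.toNat_natCast, hS]
    · rw [hSneg n (by omega), mul_zero, zero_add]
  obtain ⟨b, hb⟩ : ∃ b : ℤ → ℤ, ∀ n, b n = E n - ((q : ℤ) + 1) * E (n - 1) + q * E (n - 2) :=
    ⟨_, fun _ => rfl⟩
  have hEneg : ∀ n : ℤ, n < 0 → E n = 0 := fun n hn => by rw [hE, if_neg (by omega)]
  have hE0 : E 0 = 1 := by rw [hE, if_pos le_rfl, Int.toNat_zero, effCount_zero hF]; rfl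
  have hbS : ∀ n, ((q : ℤ) - 1) * b n = S n - ((q : ℤ) + 1) * S (n - 1) + q * S (n - 2) :=
    fun n => by rw [hb, hSE, hSE, hSE]; ring
  have hsym : ∀ n : ℤ, (b (2 * G - n) : ℚ) = (q : ℚ) ^ ((G : ℤ) - n) * b n := by
    intro n
    have hq1 : (q : ℚ) - 1 ≠ 0 := sub_ne_zero.2 (by exact_mod_cast hq.ne')
    refine mul_left_cancel₀ hq1 ?_
    have e : ∀ k, ((q : ℚ) - 1) * b k = S k - ((q : ℚ) + 1) * S (k - 1) + q * S (k - 2) :=
      fun k => by exact_mod_cast hbS k
    rw [mul_left_comm ((q : ℚ) - 1), e, e,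
      show 2 * (G : ℤ) - n = 2 * G - 2 - (n - 2) by ring, hFE,
      show 2 * (G : ℤ) - 2 - (n - 2) - 1 = 2 * G - 2 - (n - 1) by ring, hFE,
      show 2 * (G : ℤ) - 2 - (n - 2) - 2 = 2 * G - 2 - n by ring, hFE,
      show (G : ℤ) - 1 - (n - 2) = (G - n) + 1 by ring,
      show (G : ℤ) - 1 - (n - 1) = (G : ℤ) - n by ring,
      show (G : ℤ) - n = (G - 1 - n) + 1 by ring, zpow_add_one₀ hqQ, zpow_add_one₀ hqQ]
    ring
  have hb0 : b 0 = 1 := by rw [hb, hE0, hEneg (0 - 1) (by omega), hEneg (0 - 2) (by omega)]; ring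
  have hbneg : ∀ n : ℤ, n < 0 → b n = 0 := fun n hn => by
    rw [hb, hEneg n hn, hEneg (n - 1) (by omega), hEneg (n - 2) (by omega)]; ring
  have hbbig : ∀ n : ℤ, 2 * (G : ℤ) < n → b n = 0 := fun n hn => by
    have := hsym (2 * G - n)
    rw [show 2 * (G : ℤ) - (2 * G - n) = n by ring, hbneg (2 * G - n) (by omega), Int.cast_zero,
      mul_zero] at this
    exact_mod_cast this
  have hbtop : b (2 * G) = (q : ℤ) ^ G := by
    have := hsym 0
    rw [sub_zero, sub_zero, hb0, Int.cast_one, mul_one, zpow_natCast] at this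
    exact_mod_cast this
  obtain ⟨P, hP⟩ : ∃ P : Polynomial ℤ, P = ∑ i ∈ Finset.range (2 * G + 1),
      Polynomial.C (b ((2 * G - i : ℕ) : ℤ)) * Polynomial.X ^ i := ⟨_, rfl⟩
  have hPcoeff : ∀ i, P.coeff i = if i ≤ 2 * G then b ((2 * G - i : ℕ) : ℤ) else 0 := fun i => by
    rw [hP, Polynomial.finsetSum_coeff]
    simp only [Polynomial.coeff_C_mul_X_pow, Finset.sum_ite_eq, Finset.mem_range,
      Nat.lt_succ_iff]
  have hPdeg : P.natDegree = 2 * G := by
    refine le_antisymm ?_ (Polynomial.le_natDegree_of_ne_zero ?_)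
    · rw [Polynomial.natDegree_le_iff_coeff_eq_zero]
      intro N hN
      rw [hPcoeff, if_neg (by omega)]
    · rw [hPcoeff, if_pos le_rfl, Nat.sub_self, Nat.cast_zero, hb0]
      exact one_ne_zero
  have hPmon : P.Monic := by
    rw [Polynomial.Monic, Polynomial.leadingCoeff, hPdeg, hPcoeff, if_pos le_rfl, Nat.sub_self,
      Nat.cast_zero, hb0]
  obtain ⟨Pc, hPc⟩ : ∃ Pc : Polynomial ℂ, Pc = P.map (Int.castRingHom ℂ) := ⟨_, rfl⟩
  have hPcdeg : Pc.natDegree = 2 * G := by
    rw [hPc, hPmon.natDegree_map, hPdeg]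
  obtain ⟨α, hα⟩ : ∃ α, α = Pc.roots := ⟨_, rfl⟩
  have hsplit := IsAlgClosed.splits Pc
  have hcard : Multiset.card α = 2 * G := by
    rw [hα, ← hsplit.natDegree_eq_card_roots, hPcdeg]
  have hfact : Pc = (α.map fun a => Polynomial.X - Polynomial.C a).prod := by
    rw [hα]
    conv_lhs => rw [hsplit.eq_prod_roots]
    rw [(hPc ▸ hPmon.map _ : Pc.Monic).leadingCoeff, map_one, one_mul]
  have hL : ∀ n : ℕ, PowerSeries.coeff n (eulerProd α) = (b n : ℂ) := fun n => by
    rw [← reverse_prod_X_sub_C, ← hfact, Polynomial.coeff_coe, Polynomial.coeff_reverse, hPcdeg,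
      hPc, Polynomial.coeff_map, hPcoeff, eq_intCast]
    by_cases hn : n ≤ 2 * G
    · rw [Polynomial.revAt_le hn, if_pos (Nat.sub_le _ _), Nat.sub_sub_self hn]
    · rw [show Polynomial.revAt (2 * G) n = n from if_neg hn, if_neg hn, hbbig n (by omega)]
  obtain ⟨Zs, hZs⟩ : ∃ Zs : PowerSeries ℂ, Zs = PowerSeries.mk fun n => (effCount g n : ℂ) :=
    ⟨_, rfl⟩
  obtain ⟨Ns, hNs⟩ : ∃ Ns : PowerSeries ℂ,
      Ns = PowerSeries.mk fun n => if n = 0 then 0 else (fixedCount g n : ℂ) := ⟨_, rfl⟩
  have htheta : theta Zs = Zs * Ns := by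
    refine PowerSeries.ext fun n => ?_
    rw [coeff_theta, mul_comm Zs, PowerSeries.coeff_mul,
      Finset.Nat.sum_antidiagonal_eq_sum_range_succ_mk, hZs, hNs]
    simp only [PowerSeries.coeff_mk]
    have := congrArg (fun x : ℕ => (x : ℂ)) (h.mul_effCount hF n)
    push_cast at this
    rw [this]
    refine Finset.sum_subset_zero_on_sdiff (fun i hi => Finset.mem_range.2 ?_) (fun i hi => ?_)
      fun i hi => ?_
    · have := Finset.mem_Icc.1 hi; omega
    · rw [Finset.mem_sdiff, Finset.mem_range, Finset.mem_Icc] at hi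
      rw [if_pos (by omega), zero_mul]
    · rw [if_neg (by have := Finset.mem_Icc.1 hi; omega)]
  have hprod : eulerProd α = Zs * eulerProd {1, (q : ℂ)} := by
    refine PowerSeries.ext fun n => ?_
    have e : Zs * eulerProd {1, (q : ℂ)} = Zs - PowerSeries.C ((q : ℂ) + 1) * (PowerSeries.X * Zs) +
        PowerSeries.C (q : ℂ) * (PowerSeries.X * (PowerSeries.X * Zs)) := by
      simp only [eulerProd, Multiset.insert_eq_cons, Multiset.map_cons, Multiset.map_singleton,
        Multiset.prod_cons, Multiset.prod_singleton, map_one, one_mul, map_add]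
      ring
    rw [e, map_add, map_sub, PowerSeries.coeff_C_mul, PowerSeries.coeff_C_mul, hL, hb]
    rcases n with _ | _ | n
    · simp [hZs, hE]
    · simp [hZs, hE, PowerSeries.coeff_succ_X_mul]
    · rw [PowerSeries.coeff_succ_X_mul, PowerSeries.coeff_succ_X_mul, PowerSeries.coeff_succ_X_mul,
        hZs, PowerSeries.coeff_mk, PowerSeries.coeff_mk, PowerSeries.coeff_mk]
      have e1 : ((n + 2 : ℕ) : ℤ) - 1 = ((n + 1 : ℕ) : ℤ) := by push_cast; ring
      have e2 : ((n + 2 : ℕ) : ℤ) - 2 = (n : ℤ) := by push_cast; ring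
      rw [e1, e2, hE, hE, hE, if_pos (by positivity), if_pos (by positivity),
          if_pos (by positivity),
        Int.toNat_natCast, Int.toNat_natCast, Int.toNat_natCast]
      push_cast
      ring
  have hcount : ∀ m : ℕ, 0 < m →
      (fixedCount g m : ℂ) = (q : ℂ) ^ m + 1 - (α.map (· ^ m)).sum := by
    have hid : -psumSeries α = Ns + -psumSeries {1, (q : ℂ)} := by
      refine mul_left_cancel₀ (eulerProd_ne_zero α) ?_
      rw [← theta_eulerProd]
      conv_lhs => rw [hprod]
      rw [theta_mul, theta_eulerProd, htheta, hprod]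
      ring
    intro m hm
    have := congrArg (PowerSeries.coeff m) hid
    rw [map_neg, map_add, map_neg, hNs, psumSeries, psumSeries, PowerSeries.coeff_mk,
      PowerSeries.coeff_mk, PowerSeries.coeff_mk, if_neg hm.ne', if_neg hm.ne',
          if_neg hm.ne'] at this
    simp only [Multiset.insert_eq_cons, Multiset.map_cons, Multiset.map_singleton,
      Multiset.sum_cons, Multiset.sum_singleton, one_pow] at this
    linear_combination -this
  have hqR : (0 : ℝ) < q := by exact_mod_cast (show 0 < q by omega)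
  have hle : ∀ a ∈ α, ‖a‖ ≤ Real.sqrt q := by
    obtain ⟨C, hC⟩ := hbound
    intro a ha
    refine norm_le_of_signed_powerSums (γ := α.toFinset) (c := fun w => (α.count w : ℂ))
      (C := C + 1) (Real.sqrt_pos.2 hqR) (fun n hn => ?_) (Multiset.mem_toFinset.2 ha)
      (Nat.cast_ne_zero.2 (Multiset.count_pos.2 ha).ne')
    have e : ∑ w ∈ α.toFinset, (α.count w : ℂ) * w ^ n = (α.map (· ^ n)).sum := by
      rw [Finset.sum_multiset_map_count]
      simp only [nsmul_eq_mul]
    rw [e, show (α.map (· ^ n)).sum = ((1 - ((fixedCount g n : ℝ) - (q : ℝ) ^ n) : ℝ) : ℂ) by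
      have := hcount n hn
      push_cast
      linear_combination this, Complex.norm_real, Real.norm_eq_abs]
    have h1 := hC n hn
    have hsq : Real.sqrt ((q : ℝ) ^ n) = Real.sqrt q ^ n :=
      (Real.sqrt_eq_iff_eq_sq (by positivity) (by positivity)).2
        (by rw [← pow_mul, mul_comm, pow_mul, Real.sq_sqrt hqR.le])
    rw [hsq] at h1
    have h2 : (1 : ℝ) ≤ Real.sqrt q ^ n :=
      one_le_pow₀ (Real.one_le_sqrt.2 (by exact_mod_cast hq.le))
    refine (abs_sub _ _).trans ?_
    rw [abs_one]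
    nlinarith
  have hnorm : ∀ a ∈ α, ‖a‖ = Real.sqrt q := by
    refine norm_eq_of_prod (Real.sqrt_pos.2 hqR) hle ?_
    have hc0 : α.prod = (q : ℂ) ^ G := by
      have := hsplit.coeff_zero_eq_prod_roots_of_monic (hPc ▸ hPmon.map _)
      rw [hPcdeg, ← hα, Even.neg_one_pow ⟨G, two_mul G⟩, one_mul, hPc, Polynomial.coeff_map,
        hPcoeff, if_pos (Nat.zero_le _), Nat.sub_zero] at this
      rw [← this, eq_intCast]
      push_cast
      rw [hbtop]
      push_cast
      rfl
    rw [hc0, norm_pow, Complex.norm_natCast, hcard, pow_mul, Real.sq_sqrt hqR.le]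
  refine ⟨α, hcard, fun a ha => ⟨hnorm a ha, ⟨P, hPmon, ?_⟩⟩, ?_, hcount⟩
  · rw [hα, hPc, Polynomial.mem_roots', Polynomial.IsRoot, Polynomial.eval_map] at ha
    exact ha.2
  · have hconj : α.map (starRingEnd ℂ) = α := by
      have hfix : Pc.map (starRingEnd ℂ) = Pc := by
        rw [hPc, Polynomial.map_map]
        exact congrArg (fun φ => P.map φ) (RingHom.ext_int _ _)
      rw [hα]
      conv_rhs => rw [← hfix]
      exact (hsplit.roots_map (starRingEnd ℂ)).symm
    conv_rhs => rw [← hconj]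
    refine Multiset.map_congr rfl fun a ha => ?_
    have ha0 : a ≠ 0 := fun e => by
      have := hnorm a ha
      rw [e, norm_zero] at this
      exact (Real.sqrt_pos.2 hqR).ne this
    rw [div_eq_iff ha0, mul_comm, Complex.mul_conj, Complex.normSq_eq_norm_sq, hnorm a ha,
      Real.sq_sqrt hqR.le]
    push_cast
    rfl

/-- **The inequality of Hasse and Weil.** -/
theorem IsFrobenius.abs_fixedCount_sub_le (h : IsFrobenius g q)
    (hbound : ∃ C : ℝ, ∀ m : ℕ, 0 < m →
      |(fixedCount g m : ℝ) - (q : ℝ) ^ m| ≤ C * Real.sqrt ((q : ℝ) ^ m)) {m : ℕ} (hm : 0 < m) :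
    |(fixedCount g m : ℝ) - (q : ℝ) ^ m - 1| ≤ 2 * genus K F * Real.sqrt ((q : ℝ) ^ m) := by
  obtain ⟨α, hcard, hnorm, -, hN⟩ := h.exists_weilNumbers hF hbound
  have hs : ‖(α.map (· ^ m)).sum‖ ≤ 2 * genus K F * Real.sqrt ((q : ℝ) ^ m) := by
    refine (norm_multiset_sum_le _).trans ?_
    rw [Multiset.map_map]
    have e : ∀ a ∈ α, ((fun x : ℂ => ‖x‖) ∘ (· ^ m)) a = Real.sqrt ((q : ℝ) ^ m) := fun a ha => by
      rw [Function.comp_apply, norm_pow, (hnorm a ha).1]
      exact ((Real.sqrt_eq_iff_eq_sq (by positivity) (by positivity)).2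
        (by rw [← pow_mul, mul_comm, pow_mul, Real.sq_sqrt (by positivity)])).symm
    rw [Multiset.map_congr rfl e, Multiset.map_const', Multiset.sum_replicate, hcard, nsmul_eq_mul]
    push_cast
    rfl
  rw [show (α.map (· ^ m)).sum = ((-((fixedCount g m : ℝ) - (q : ℝ) ^ m - 1) : ℝ) : ℂ) by
    rw [Complex.ofReal_neg]; push_cast; rw [hN m hm]; ring, Complex.norm_real, Real.norm_eq_abs,
    abs_neg] at hs
  exact hs

end FA.CurveRH

end
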